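import Fermat.Agent.S55.F.Basic

/-!
# S55 chapter W: smooth coinduction, Shapiro's lemma (injectivity) in degrees 1 and 2

`SCoind r N 𝓤` (Core) is the group of functions `f : G → N` with `f (r h * g) = h • f g` that are
right invariant under some level of `𝓤`.  `G` acts by right translation.
-/

set_option autoImplicit false
set_option linter.unusedSectionVars false
set_option linter.unusedVariables false

namespace Fermat.Agent.S55Lib

open groupCohomology

section Action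

variable {G H : Type} [Group G] [Group H] {r : H →* G} {N : Type} [AddCommGroup N]
  [DistribMulAction H N] {𝓤 : Lev G}

lemma mem_SCoind {f : G → N} : f ∈ SCoind r N 𝓤 ↔
    (∀ (h : H) (g : G), f (r h * g) = h • f g) ∧ 𝓤.Const₁ f := Iff.rfl

lemma SCoind.equivar (f : SCoind r N 𝓤) (h : H) (g : G) :
    (f : G → N) (r h * g) = h • (f : G → N) g := f.2.1 h g

lemma SCoind.const (f : SCoind r N 𝓤) : 𝓤.Const₁ (f : G → N) := f.2.2

/-- right translation preserves level constancy -/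
lemma Lev.Const₁.translate {X : Type*} {f : G → X} (hf : 𝓤.Const₁ f) (γ : G) :
    𝓤.Const₁ (fun g => f (g * γ)) := by
  obtain ⟨U, hU, hc⟩ := hf
  refine ⟨U, hU, fun g s hs => ?_⟩
  have hn : γ⁻¹ * s * γ ∈ U := by
    have := (𝓤.normal U hU).conj_mem s hs γ⁻¹
    simpa using this
  have := hc (g * γ) _ hn
  show f (g * s * γ) = f (g * γ)
  rw [← this]
  congr 1
  group

@[simp] lemma SCoind.add_apply (f f' : SCoind r N 𝓤) (g : G) :
    ((f + f' : SCoind r N 𝓤) : G → N) g = (f : G → N) g + (f' : G → N) g := rfl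

@[simp] lemma SCoind.sub_apply (f f' : SCoind r N 𝓤) (g : G) :
    ((f - f' : SCoind r N 𝓤) : G → N) g = (f : G → N) g - (f' : G → N) g := rfl

@[simp] lemma SCoind.neg_apply (f : SCoind r N 𝓤) (g : G) :
    ((-f : SCoind r N 𝓤) : G → N) g = -(f : G → N) g := rfl

@[simp] lemma SCoind.zero_apply (g : G) : ((0 : SCoind r N 𝓤) : G → N) g = 0 := rfl

@[ext] lemma SCoind.ext {f f' : SCoind r N 𝓤} (h : ∀ g, (f : G → N) g = (f' : G → N) g) :
    f = f' := Subtype.ext (funext h)

lemma SCoind.smooth : 𝓤.Smooth (SCoind r N 𝓤) := by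
  intro f
  obtain ⟨U, hU, hc⟩ := f.2.2
  exact ⟨U, hU, fun s hs => SCoind.ext fun g => hc g s hs⟩

variable (r N 𝓤) in
/-- evaluation at `1` -/
def SCoind.ev : SCoind r N 𝓤 →+ N where
  toFun f := (f : G → N) 1
  map_zero' := rfl
  map_add' _ _ := rfl

@[simp] lemma SCoind.ev_apply (f : SCoind r N 𝓤) : SCoind.ev r N 𝓤 f = (f : G → N) 1 := rfl

lemma SCoind.ev_compat : Compat r (SCoind.ev r N 𝓤) := by
  intro h f
  show (f : G → N) (1 * r h) = h • (f : G → N) 1
  rw [one_mul, ← f.2.1 h 1, mul_one]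

/-- the values of a smooth coinduced function are fixed by the pull-back of its level -/
lemma SCoind.smul_apply_of_mem (f : SCoind r N 𝓤) {U : Subgroup G} (hU : U ∈ 𝓤.mem)
    (hc : ∀ g, ∀ s ∈ U, (f : G → N) (g * s) = (f : G → N) g) (g : G) (h : H) (hh : r h ∈ U) :
    h • (f : G → N) g = (f : G → N) g := by
  rw [← f.2.1 h g]
  have hn : g⁻¹ * r h * g ∈ U := by
    have := (𝓤.normal U hU).conj_mem (r h) hh g⁻¹
    simpa using this
  have := hc g _ hn
  rw [← this]
  congr 1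
  group

end Action

section Shapiro

variable {G H : Type} [Group G] [Group H] {r : H →* G} {N : Type} [AddCommGroup N]
  [DistribMulAction H N] {𝓤 : Lev G}

/-- **Shapiro, degree 1, injectivity.** -/
theorem SCoind.h1_inj (F : G → SCoind r N 𝓤) (hF : IsCocycle₁ F) (hFc : 𝓤.Const₁ F)
    (hloc : IsCoboundary₁ (fun h : H => (F (r h) : G → N) 1)) : IsCoboundary₁ F := by
  obtain ⟨b, hb⟩ := hloc
  have hcoc : ∀ γ δ g, (F (γ * δ) : G → N) g = (F δ : G → N) (g * γ) + (F γ : G → N) g := by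
    intro γ δ g
    rw [hF γ δ]
    rfl
  have hmem : (fun g => (F g : G → N) 1 + b) ∈ SCoind r N 𝓤 := by
    refine ⟨fun h g => ?_, ?_⟩
    · show (F (r h * g) : G → N) 1 + b = h • ((F g : G → N) 1 + b)
      have hb' : (F (r h) : G → N) 1 = h • b - b := (hb h).symm
      rw [hcoc, one_mul, hb', smul_add, ← (F g).2.1 h 1, mul_one]
      abel
    · exact hFc.comp (fun f : SCoind r N 𝓤 => (f : G → N) 1 + b)
  refine ⟨⟨_, hmem⟩, fun γ => SCoind.ext fun g => ?_⟩
  show (F (g * γ) : G → N) 1 + b - ((F g : G → N) 1 + b) = (F γ : G → N) g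
  rw [hcoc, one_mul]
  abel

/-- the auxiliary function `z` of Shapiro's lemma in degree 2 -/
theorem W_exists_z (e : H → G → N) (U : Subgroup G) [hU : U.Normal]
    (he1 : ∀ h k g, r k ∈ U → e (h * k) g = e h g)
    (he2 : ∀ h g u, u ∈ U → e h (g * u) = e h g)
    (hcoc : ∀ h h' g, e (h * h') g = h • e h' g + e h (r h' * g)) :
    ∃ z : G → N, (∀ g u, u ∈ U → z (g * u) = z g) ∧ ∀ h g, z (r h * g) = h • z g + e h g := by
  classical
  let ρ : G → G := fun g => (DoubleCoset.mk r.range U g).out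
  have hρ : ∀ g, ∃ (h : H) (u : G), u ∈ U ∧ g = r h * ρ g * u := by
    intro g
    obtain ⟨a, k, ⟨h, rfl⟩, hk, hout⟩ := DoubleCoset.mk_out_eq_mul r.range U g
    refine ⟨h⁻¹, k⁻¹, U.inv_mem hk, ?_⟩
    show g = r h⁻¹ * (DoubleCoset.mk r.range U g).out * k⁻¹
    rw [hout, map_inv]
    group
  choose η u hu hg using hρ
  have hρeq : ∀ g h v, v ∈ U → ρ (r h * ρ g * v) = ρ g := by
    intro g h v hv
    show (DoubleCoset.mk r.range U (r h * ρ g * v)).out = (DoubleCoset.mk r.range U g).out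
    congr 1
    have h1 : DoubleCoset.mk r.range U (ρ g) = DoubleCoset.mk r.range U g :=
      DoubleCoset.out_eq' _ _ _
    rw [← h1]
    exact ((DoubleCoset.eq _ _ _ _).2 ⟨r h, MonoidHom.mem_range.2 ⟨h, rfl⟩, v, hv, rfl⟩).symm
  have key' : ∀ g h v g₁, v ∈ U → g₁ = r h * ρ g * v → e (η g₁) (ρ g) = e h (ρ g) := by
    intro g h v g₁ hv hg₁
    have h1 := hg g₁
    have h0 : ρ g₁ = ρ g := by rw [hg₁]; exact hρeq g h v hv
    rw [h0] at h1
    have h3 : r (η g₁) = g₁ * (u g₁)⁻¹ * (ρ g)⁻¹ := by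
      rw [eq_mul_inv_iff_mul_eq, eq_mul_inv_iff_mul_eq]
      exact h1.symm
    have h2 : r (h⁻¹ * η g₁) = ρ g * (v * (u g₁)⁻¹) * (ρ g)⁻¹ := by
      rw [map_mul, map_inv, h3]
      generalize u g₁ = w
      rw [hg₁]
      group
    have h4 : r (h⁻¹ * η g₁) ∈ U := by
      rw [h2]
      exact hU.conj_mem _ (U.mul_mem hv (U.inv_mem (hu g₁))) _
    have := he1 h (h⁻¹ * η g₁) (ρ g) h4
    rwa [mul_inv_cancel_left] at this
  have key : ∀ g h v, v ∈ U → e (η (r h * ρ g * v)) (ρ g) = e h (ρ g) :=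
    fun g h v hv => key' g h v _ hv rfl
  refine ⟨fun g => e (η g) (ρ g), fun g v hv => ?_, fun h g => ?_⟩
  · have h1 : g * v = r (η g) * ρ g * (u g * v) := by
      conv_lhs => rw [hg g]
      group
    show e (η (g * v)) (ρ (g * v)) = e (η g) (ρ g)
    rw [h1, hρeq g _ _ (U.mul_mem (hu g) hv), key g _ _ (U.mul_mem (hu g) hv)]
  · have h1 : r h * g = r (h * η g) * ρ g * u g := by
      conv_lhs => rw [hg g]
      rw [map_mul]
      group
    show e (η (r h * g)) (ρ (r h * g)) = h • e (η g) (ρ g) + e h g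
    rw [h1, hρeq g _ _ (hu g), key g _ _ (hu g), hcoc]
    congr 1
    conv_rhs => rw [hg g]
    rw [he2 _ _ _ (hu g)]

/-- **Shapiro, degree 2, injectivity.**  The local cochain `b` has to be right invariant under the
pull-back of a level of `𝓤`. -/
theorem SCoind.h2_inj (F : G × G → SCoind r N 𝓤) (hF : IsCocycle₂ F) (hFc : 𝓤.Const₂ F)
    (b : H → N) {U0 : Subgroup G} (hU0 : U0 ∈ 𝓤.mem) (hbU : ∀ h k, r k ∈ U0 → b (h * k) = b h)
    (hb : ∀ h h', (F (r h, r h') : G → N) 1 = h • b h' - b (h * h') + b h) :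
    F ∈ LB2 𝓤 (SCoind r N 𝓤) := by
  obtain ⟨U1, hU1, hc⟩ := hFc
  obtain ⟨U, hU, hUU0, hUU1⟩ := 𝓤.directed U0 hU0 U1 hU1
  have := 𝓤.normal U hU
  have hcoc : ∀ γ δ ε g, (F (γ * δ, ε) : G → N) g + (F (γ, δ) : G → N) g
      = (F (δ, ε) : G → N) (g * γ) + (F (γ, δ * ε) : G → N) g := by
    intro γ δ ε g
    have := congrArg (fun f : SCoind r N 𝓤 => (f : G → N) g) (hF γ δ ε)
    exact this
  have hinv : ∀ γ δ s t, s ∈ U → t ∈ U → F (γ * s, δ * t) = F (γ, δ) := fun γ δ s t hs ht =>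
    hc γ δ s (hUU1 hs) t (hUU1 ht)
  obtain ⟨z, hz1, hz2⟩ := W_exists_z (r := r) (fun h g => (F (r h, g) : G → N) 1 - b h) U
    (fun h k g hk => by
      have h1 := hinv (r h) g (r k) 1 hk U.one_mem
      rw [mul_one] at h1
      simp only [map_mul, h1, hbU h k (hUU0 hk)])
    (fun h g u hu => by
      have h1 := hinv (r h) g 1 u U.one_mem hu
      rw [mul_one] at h1
      simp only [h1])
    (fun h h' g => by
      have h1 := hcoc (r h) (r h') g 1
      rw [one_mul] at h1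
      have h2 := hb h h'
      have h3 : (F (r h', g) : G → N) (r h) = h • (F (r h', g) : G → N) 1 := by
        rw [← (F (r h', g)).2.1 h 1, mul_one]
      rw [h3, h2] at h1
      simp only [map_mul, smul_sub]
      have h4 : (F (r h * r h', g) : G → N) 1 = h • (F (r h', g) : G → N) 1
          + (F (r h, r h' * g) : G → N) 1 - (h • b h' - b (h * h') + b h) := by
        rw [← h1]; abel
      rw [h4]; abel)
  have hzn : ∀ g γ s, s ∈ U → z (g * s * γ) = z (g * γ) := by
    intro g γ s hs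
    have hn : γ⁻¹ * s * γ ∈ U := by
      have := (𝓤.normal U hU).conj_mem s hs γ⁻¹
      simpa using this
    rw [← hz1 (g * γ) _ hn]
    congr 1
    group
  have hmem : ∀ γ, (fun g => (F (g, γ) : G → N) 1 - z (g * γ) + z g) ∈ SCoind r N 𝓤 := by
    intro γ
    refine ⟨fun h g => ?_, U, hU, fun g s hs => ?_⟩
    · show (F (r h * g, γ) : G → N) 1 - z (r h * g * γ) + z (r h * g)
        = h • ((F (g, γ) : G → N) 1 - z (g * γ) + z g)
      have h1 := hcoc (r h) g γ 1
      have h3 : (F (g, γ) : G → N) (1 * r h) = h • (F (g, γ) : G → N) 1 := by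
        rw [one_mul, ← (F (g, γ)).2.1 h 1, mul_one]
      rw [h3] at h1
      have h4 : (F (r h * g, γ) : G → N) 1 = h • (F (g, γ) : G → N) 1
          + (F (r h, g * γ) : G → N) 1 - (F (r h, g) : G → N) 1 := by
        rw [← h1]; abel
      rw [mul_assoc (r h) g γ, hz2, hz2, h4, smul_add, smul_sub]
      abel
    · show (F (g * s, γ) : G → N) 1 - z (g * s * γ) + z (g * s)
        = (F (g, γ) : G → N) 1 - z (g * γ) + z g
      have h1 := hinv g γ s 1 hs U.one_mem
      rw [mul_one] at h1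
      rw [h1, hzn g γ s hs, hz1 g s hs]
  refine mem_LB2.2 ⟨fun γ => ⟨_, hmem γ⟩, ⟨U, hU, fun γ s hs => SCoind.ext fun g => ?_⟩,
    fun γ δ => SCoind.ext fun g => ?_⟩
  · show (F (g, γ * s) : G → N) 1 - z (g * (γ * s)) + z g
      = (F (g, γ) : G → N) 1 - z (g * γ) + z g
    have h1 := hinv g γ 1 s U.one_mem hs
    rw [mul_one] at h1
    rw [h1, ← mul_assoc, hz1 _ s hs]
  · show (F (γ, δ) : G → N) g
      = ((F (g * γ, δ) : G → N) 1 - z (g * γ * δ) + z (g * γ))
        - ((F (g, γ * δ) : G → N) 1 - z (g * (γ * δ)) + z g)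
        + ((F (g, γ) : G → N) 1 - z (g * γ) + z g)
    have h1 := hcoc g γ δ 1
    rw [one_mul] at h1
    have h2 : (F (γ, δ) : G → N) g = (F (g * γ, δ) : G → N) 1 + (F (g, γ) : G → N) 1
        - (F (g, γ * δ) : G → N) 1 := by
      rw [h1]; abel
    rw [h2, mul_assoc]
    abel

end Shapiro

end Fermat.Agent.S55Lib
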