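import Fermat.Agent.S55.W.ABDefs
import Fermat.Agent.S55.W.SCoind

/-!
# S55 chapter W: `(SCoind r B)^U = Coind (quotMap r U) (B^{r⁻¹U})`, and the maps `pr_v` of Theorem B
-/

set_option autoImplicit false
set_option linter.unusedSectionVars false
set_option linter.unusedVariables false

namespace Fermat.Agent.S55Lib

noncomputable section

open groupCohomology

section CP1

variable {Γ H : Type} [Group Γ] [Group H] (r : H →* Γ) (B : Type) [AddCommGroup B]
  [DistribMulAction H B] (𝓤 : Lev Γ) (U : Subgroup Γ) [U.Normal]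

lemma quotMap_mk (h : H) : quotMap r U (h : H ⧸ U.comap r) = ((r h : Γ) : Γ ⧸ U) := rfl

theorem quotMap_injective : Function.Injective (quotMap r U) := by
  rw [injective_iff_map_eq_one]
  intro q hq
  induction q using QuotientGroup.induction_on with
  | H h =>
    rw [quotMap_mk, QuotientGroup.eq_one_iff] at hq
    exact (QuotientGroup.eq_one_iff h).2 hq

variable {r B 𝓤 U}

lemma W_inv_apply (f : inv U (SCoind r B 𝓤)) (g s : Γ) (hs : s ∈ U) :
    ((f : SCoind r B 𝓤) : Γ → B) (g * s) = ((f : SCoind r B 𝓤) : Γ → B) g :=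
  congrArg (fun φ : SCoind r B 𝓤 => (φ : Γ → B) g) (f.2 s hs)

lemma W_inv_mem (f : inv U (SCoind r B 𝓤)) (g : Γ) :
    ((f : SCoind r B 𝓤) : Γ → B) g ∈ inv (U.comap r) B := by
  intro h hh
  rw [← SCoind.equivar]
  have e : r h * g = g * (g⁻¹ * r h * g) := by group
  rw [e, W_inv_apply]
  have := Subgroup.Normal.conj_mem (inferInstance : U.Normal) (r h) hh g⁻¹
  simpa using this

variable (r B 𝓤 U)

/-- the forward map on functions -/
def WcoindFun (f : inv U (SCoind r B 𝓤)) (q : Γ ⧸ U) : inv (U.comap r) B :=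
  Quotient.liftOn' q (fun g => (⟨((f : SCoind r B 𝓤) : Γ → B) g, W_inv_mem f g⟩ :
    inv (U.comap r) B)) (fun g g' h => by
      have h1 : g⁻¹ * g' ∈ U := QuotientGroup.leftRel_apply.1 h
      apply Subtype.ext
      show ((f : SCoind r B 𝓤) : Γ → B) g = ((f : SCoind r B 𝓤) : Γ → B) g'
      rw [← W_inv_apply f g _ h1, mul_inv_cancel_left])

lemma WcoindFun_mk (f : inv U (SCoind r B 𝓤)) (g : Γ) :
    ((WcoindFun r B 𝓤 U f (g : Γ ⧸ U) : inv (U.comap r) B) : B)
      = ((f : SCoind r B 𝓤) : Γ → B) g := rfl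

lemma WcoindFun_mem (f : inv U (SCoind r B 𝓤)) :
    WcoindFun r B 𝓤 U f ∈ Coind (quotMap r U) (inv (U.comap r) B) := by
  intro h q
  induction h using QuotientGroup.induction_on with
  | H h =>
    induction q using QuotientGroup.induction_on with
    | H g =>
      apply Subtype.ext
      show ((f : SCoind r B 𝓤) : Γ → B) (r h * g) = h • ((f : SCoind r B 𝓤) : Γ → B) g
      exact SCoind.equivar _ h g

/-- the inverse map on functions -/
def WcoindInvFun (F : Coind (quotMap r U) (inv (U.comap r) B)) (g : Γ) : B :=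
  (((F : Γ ⧸ U → inv (U.comap r) B) (g : Γ ⧸ U) : inv (U.comap r) B) : B)

lemma WcoindInvFun_mul (F : Coind (quotMap r U) (inv (U.comap r) B)) (g s : Γ) (hs : s ∈ U) :
    WcoindInvFun r B U F (g * s) = WcoindInvFun r B U F g := by
  unfold WcoindInvFun
  rw [QuotientGroup.mk_mul, (QuotientGroup.eq_one_iff s).2 hs, mul_one]

lemma WcoindInvFun_mem (hU : U ∈ 𝓤.mem) (F : Coind (quotMap r U) (inv (U.comap r) B)) :
    WcoindInvFun r B U F ∈ SCoind r B 𝓤 := by
  refine ⟨fun h g => ?_, U, hU, fun g s hs => WcoindInvFun_mul r B U F g s hs⟩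
  have := F.2 (h : H ⧸ U.comap r) (g : Γ ⧸ U)
  exact congrArg (fun b : inv (U.comap r) B => (b : B)) this

/-- `f ↦ (g U ↦ f g)` -/
def WcoindEquiv (hU : U ∈ 𝓤.mem) :
    inv U (SCoind r B 𝓤) ≃+ Coind (quotMap r U) (inv (U.comap r) B) where
  toFun f := ⟨WcoindFun r B 𝓤 U f, WcoindFun_mem r B 𝓤 U f⟩
  invFun F := ⟨⟨WcoindInvFun r B U F, WcoindInvFun_mem r B 𝓤 U hU F⟩, fun s hs => by
    apply Subtype.ext
    funext g
    exact WcoindInvFun_mul r B U F g s hs⟩
  left_inv f := rfl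
  right_inv F := by
    apply Subtype.ext
    funext q
    induction q using QuotientGroup.induction_on with
    | H g => rfl
  map_add' f f' := by
    apply Subtype.ext
    funext q
    induction q using QuotientGroup.induction_on with
    | H g => rfl

theorem WcoindEquiv_apply (hU : U ∈ 𝓤.mem) (f : inv U (SCoind r B 𝓤)) (g : Γ) :
    (((WcoindEquiv r B 𝓤 U hU f : Coind (quotMap r U) (inv (U.comap r) B)) :
      Γ ⧸ U → inv (U.comap r) B) (g : Γ ⧸ U) : B) = ((f : SCoind r B 𝓤) : Γ → B) g := rfl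

theorem WcoindEquiv_smul (hU : U ∈ 𝓤.mem) (q : Γ ⧸ U) (f : inv U (SCoind r B 𝓤)) :
    WcoindEquiv r B 𝓤 U hU (q • f) = q • WcoindEquiv r B 𝓤 U hU f := by
  induction q using QuotientGroup.induction_on with
  | H γ =>
    apply Subtype.ext
    funext q'
    induction q' using QuotientGroup.induction_on with
    | H g => rfl

theorem WcoindEquiv_symm_smul (hU : U ∈ 𝓤.mem) (q : Γ ⧸ U)
    (F : Coind (quotMap r U) (inv (U.comap r) B)) :
    (WcoindEquiv r B 𝓤 U hU).symm (q • F) = q • (WcoindEquiv r B 𝓤 U hU).symm F := by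
  apply (WcoindEquiv r B 𝓤 U hU).injective
  rw [WcoindEquiv_smul, AddEquiv.apply_symm_apply, AddEquiv.apply_symm_apply]

end CP1

section Prc

variable {Γ : Type} [Group Γ] (𝓤 : Lev Γ) (U : Subgroup Γ) (hU : U ∈ 𝓤.mem) [U.Normal]
  {X0 X1 : Type} [AddCommGroup X0] [AddCommGroup X1]
  (j : X1 →+ X0)
  {ι : Type} [DecidableEq ι]
  (H : ι → Type) [∀ v, Group (H v)] (r : ∀ v, H v →* Γ)
  (B : ι → Type) [∀ v, AddCommGroup (B v)] [∀ v, DistribMulAction (H v) (B v)]
  {E : Type} [AddCommGroup E] [DistribMulAction Γ E] (sE : 𝓤.Smooth E)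
  (lam : ∀ v, E →+ B v) (hlam : ∀ v, Compat (r v) (lam v))
  {Cs : Type} [AddCommGroup Cs] [DistribMulAction Γ Cs]
  (κ : WC 𝓤 H r B sE lam hlam →+ Cs) (eκ : Equivar Γ κ)

/-- `j` as a map of `Γ`-modules -/
def WjRes : WRes (QuotientGroup.mk' U) X1 →+ WRes (QuotientGroup.mk' U) X0 := j

lemma invMap_smul {A A' : Type} [AddCommGroup A] [AddCommGroup A']
    [DistribMulAction Γ A] [DistribMulAction Γ A'] (φ : A →+ A') (hφ : Equivar Γ φ)
    (q : Γ ⧸ U) (a : inv U A) : invMap U φ hφ (q • a) = q • invMap U φ hφ a := by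
  induction q using QuotientGroup.induction_on with
  | H γ => exact Subtype.ext (hφ γ (a : A))

/-- the maps `pr_v` of Theorem B -/
def Wprc (v : ι) : Coind (quotMap (r v) U) (inv (U.comap (r v)) (B v)) →+ inv U Cs :=
  (invMap U (Wpr 𝓤 H r B sE lam hlam κ v) (Wpr_equivar 𝓤 H r B sE lam hlam κ eκ v)).comp
    (WcoindEquiv (r v) (B v) 𝓤 U hU).symm.toAddMonoidHom

theorem Wprc_smul (v : ι) (q : Γ ⧸ U)
    (x : Coind (quotMap (r v) U) (inv (U.comap (r v)) (B v))) :
    Wprc 𝓤 U hU H r B sE lam hlam κ eκ v (q • x) = q • Wprc 𝓤 U hU H r B sE lam hlam κ eκ v x := by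
  show invMap U _ (Wpr_equivar 𝓤 H r B sE lam hlam κ eκ v)
      ((WcoindEquiv (r v) (B v) 𝓤 U hU).symm (q • x)) =
    q • invMap U _ (Wpr_equivar 𝓤 H r B sE lam hlam κ eκ v)
      ((WcoindEquiv (r v) (B v) 𝓤 U hU).symm x)
  rw [WcoindEquiv_symm_smul, invMap_smul]

end Prc

end

end Fermat.Agent.S55Lib
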