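import Fermat.Agent.S55.W.ABDefs
import Fermat.Agent.S55.B.ThmB

/-!
# S55 chapter W (CP3): passage from `C` to `C♯` (abstract)
-/

set_option autoImplicit false
set_option linter.unusedSectionVars false
set_option linter.unusedVariables false

namespace Fermat.Agent.S55Lib

noncomputable section

open groupCohomology

section CP3

/-- Abstract form.  `P1 = Hom_Γ(X1,C)`, `P1s = Hom_Γ(X1,C♯)`, `k = κ_*` injective; `S ≤ P1`,
`Ss ≤ P1s` the subgroups; both quotients are killed by `p`; every element of `P1s` (resp. every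
"witness" of membership in `Ss`) comes from `P1` (resp. `S`) after multiplication by an integer
prime to `p`. -/
theorem W_torsion_cmp (p : ℕ) {P1 P1s : Type} [AddCommGroup P1] [AddCommGroup P1s]
    (k : P1 →+ P1s) (S : AddSubgroup P1) (Ss : AddSubgroup P1s)
    (hS : ∀ x ∈ S, k x ∈ Ss) (hpS : ∀ x : P1, p • x ∈ S) (hpSs : ∀ y : P1s, p • y ∈ Ss)
    (hsurj : ∀ y : P1s, ∃ m : ℕ, m.Coprime p ∧ ∃ x, k x = m • y)
    (hinj : ∀ x : P1, k x ∈ Ss → ∃ m : ℕ, m.Coprime p ∧ m • x ∈ S) :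
    Nonempty (P1 ⧸ S ≃+ P1s ⧸ Ss) := by
  let F : P1 ⧸ S →+ P1s ⧸ Ss := QuotientAddGroup.map S Ss k hS
  have hF : ∀ x : P1, F (x : P1 ⧸ S) = ((k x : P1s) : P1s ⧸ Ss) := fun x => rfl
  refine ⟨AddEquiv.ofBijective F ⟨?_, ?_⟩⟩
  · rw [injective_iff_map_eq_zero]
    intro q hq
    induction q using QuotientAddGroup.induction_on with
    | H x =>
      rw [hF, QuotientAddGroup.eq_zero_iff] at hq
      obtain ⟨m, hm, hx⟩ := hinj x hq
      rw [QuotientAddGroup.eq_zero_iff]
      exact M_mem_of_coprime hm S hx (hpS x)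
  · intro q
    induction q using QuotientAddGroup.induction_on with
    | H y =>
      obtain ⟨m, hm, x, hx⟩ := hsurj y
      obtain ⟨m1, hm1⟩ := M_bezout (A := P1s ⧸ Ss) hm
      refine ⟨((m1 • x : P1) : P1 ⧸ S), ?_⟩
      rw [hF, map_zsmul, hx]
      have h1 := hm1 (y : P1s ⧸ Ss) (by
        rw [← QuotientAddGroup.mk_nsmul, QuotientAddGroup.eq_zero_iff]
        exact hpSs y)
      rw [QuotientAddGroup.mk_zsmul, QuotientAddGroup.mk_nsmul]
      exact h1

/-- common multiplier on a finite set -/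
lemma CP3_finset (p : ℕ) {C Cs : Type} [AddCommGroup C] [AddCommGroup Cs]
    (κ : C →+ Cs)
    (hκtor : ∀ c : Cs, ∃ m : ℕ, m.Coprime p ∧ ∃ c', κ c' = m • c) (s : Finset Cs) :
    ∃ m : ℕ, m.Coprime p ∧ ∀ c ∈ s, ∃ c', κ c' = m • c := by
  classical
  induction s using Finset.induction_on with
  | empty => exact ⟨1, Nat.coprime_one_left p, fun c hc => absurd hc (Finset.notMem_empty c)⟩
  | insert a s ha ih =>
    obtain ⟨m, hm, h⟩ := ih
    obtain ⟨m', hm', c', hc'⟩ := hκtor a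
    refine ⟨m * m', Nat.Coprime.mul_left hm hm', fun c hc => ?_⟩
    rcases Finset.mem_insert.1 hc with rfl | hc
    · exact ⟨m • c', by rw [map_nsmul, hc', mul_smul]⟩
    · obtain ⟨c'', hc''⟩ := h c hc
      exact ⟨m' • c'', by rw [map_nsmul, hc'', mul_comm, mul_smul]⟩

/-- a homomorphism from a f.g. group into `C♯` lands in `κ C` after multiplication by an integer
prime to `p` -/
theorem W_exists_factor (p : ℕ) {X C Cs : Type} [AddCommGroup X] [AddCommGroup C] [AddCommGroup Cs]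
    [Module.Finite ℤ X] (κ : C →+ Cs) (hκ : Function.Injective κ)
    (hκtor : ∀ c : Cs, ∃ m : ℕ, m.Coprime p ∧ ∃ c', κ c' = m • c) (ψ : X →+ Cs) :
    ∃ m : ℕ, m.Coprime p ∧ ∃ ψ₀ : X →+ C, ∀ x, κ (ψ₀ x) = m • ψ x := by
  classical
  obtain ⟨s, hs⟩ := (Module.Finite.fg_top : (⊤ : Submodule ℤ X).FG)
  obtain ⟨m, hm, h⟩ := CP3_finset p κ hκtor (s.image ψ)
  have hall : ∀ x : X, ∃ c', κ c' = m • ψ x := by
    intro x
    have hx : x ∈ Submodule.span ℤ (s : Set X) := by rw [hs]; trivial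
    induction hx using Submodule.span_induction with
    | mem x hx => exact h _ (Finset.mem_image_of_mem ψ hx)
    | zero => exact ⟨0, by simp⟩
    | add x y _ _ hx hy =>
      obtain ⟨a, ha⟩ := hx
      obtain ⟨b, hb⟩ := hy
      exact ⟨a + b, by rw [map_add, map_add, ha, hb, smul_add]⟩
    | smul n x _ hx =>
      obtain ⟨a, ha⟩ := hx
      exact ⟨n • a, by rw [map_zsmul, map_zsmul, ha, smul_comm]⟩
  choose f hf using hall
  refine ⟨m, hm, ⟨{ toFun := f, map_zero' := ?_, map_add' := ?_ }, hf⟩⟩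
  · apply hκ
    rw [hf, map_zero, map_zero, smul_zero]
  · intro x y
    apply hκ
    rw [hf, map_add, map_add, hf, hf, smul_add]

end CP3

end

end Fermat.Agent.S55Lib
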