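import Fermat.Agent.S55.W.ABDefs
import Fermat.Agent.S55.G.Ideles

/-!
# S55, chapter W: the arithmetic modules plugged into `thmAB`
-/

set_option autoImplicit false
set_option linter.unusedSectionVars false
set_option linter.unusedVariables false

namespace Fermat.Agent.S55Lib

noncomputable section

open groupCohomology

variable (S : Finset Nat.Primes)

lemma levS_le_levAll : (levS S).mem ⊆ levAll.mem := by
  rintro U ⟨F, h1, h2, -, rfl⟩
  exact ⟨F, h1, h2, trivial, rfl⟩

/-! ### `E`: the `S`-units of `ℚ_S` -/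

/-- the `S`-units of `ℚ_S` -/
def ES : Subgroup Qbarˣ where
  carrier := {a | (∃ U ∈ (levS S).mem, ∀ s ∈ U, s • a = a) ∧
    ∀ q ∉ S, ∀ g : GQ, ‖iq q (g (a : Qbar))‖ = 1}
  one_mem' := by
    refine ⟨?_, fun q _ g => by simp⟩
    obtain ⟨U, hU⟩ := (levS S).nonempty
    exact ⟨U, hU, fun s _ => smul_one s⟩
  mul_mem' := by
    rintro a b ⟨⟨U, hU, ha⟩, ha'⟩ ⟨⟨V, hV, hb⟩, hb'⟩
    obtain ⟨W, hW, h1, h2⟩ := (levS S).directed U hU V hV
    exact ⟨⟨W, hW, fun s hs => by rw [smul_mul', ha s (h1 hs), hb s (h2 hs)]⟩, fun q hq g => by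
      simp only [Units.val_mul, map_mul, norm_mul, ha' q hq g, hb' q hq g, mul_one]⟩
  inv_mem' := by
    rintro a ⟨⟨U, hU, ha⟩, ha'⟩
    exact ⟨⟨U, hU, fun s hs => by rw [smul_inv', ha s hs]⟩, fun q hq g => by
      simp only [Units.val_inv_eq_inv_val, map_inv₀, norm_inv, ha' q hq g, inv_one]⟩

lemma smul_mem_ES (γ : GQ) {a : Qbarˣ} (ha : a ∈ ES S) : γ • a ∈ ES S := by
  obtain ⟨⟨U, hU, hfix⟩, hn⟩ := ha
  refine ⟨⟨U, hU, fun s hs => ?_⟩, fun q hq g => hn q hq (g * γ)⟩
  have h1 : γ⁻¹ * s * γ ∈ U := by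
    have := ((levS S).normal U hU).conj_mem s hs γ⁻¹
    simpa using this
  have h2 := hfix _ h1
  calc s • γ • a = γ • (γ⁻¹ * s * γ) • a := by simp only [smul_smul]; group
    _ = γ • a := by rw [h2]

instance : MulDistribMulAction GQ (ES S) where
  smul γ a := ⟨γ • (a : Qbarˣ), smul_mem_ES S γ a.2⟩
  one_smul a := Subtype.ext (one_smul GQ (a : Qbarˣ))
  mul_smul γ δ a := Subtype.ext (mul_smul γ δ (a : Qbarˣ))
  smul_one γ := Subtype.ext (smul_one γ)
  smul_mul γ a b := Subtype.ext (smul_mul' γ (a : Qbarˣ) (b : Qbarˣ))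

/-- `E`, additively -/
abbrev EA : Type := Additive (ES S)

lemma EA_smooth : (levS S).Smooth (EA S) := by
  intro a
  obtain ⟨⟨U, hU, hfix⟩, -⟩ := (Additive.toMul a).2
  exact ⟨U, hU, fun s hs => congrArg Additive.ofMul (Subtype.ext (hfix s hs))⟩

/-- `λ_q : E → Ω_q^×` -/
def lamq (q : Nat.Primes) : EA S →+ Additive (Om q)ˣ :=
  MonoidHom.toAdditive ((Units.map (iq q : Qbar →* Om q)).comp (ES S).subtype)

lemma lamq_compat (q : Nat.Primes) : Compat (rq q) (lamq S q) := by
  intro h a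
  apply congrArg Additive.ofMul
  apply Units.ext
  exact iq_rq q h _

lemma lamq_injective (q : Nat.Primes) : Function.Injective (lamq S q) := by
  intro a b hab
  have h1 : iq q (((Additive.toMul a : ES S) : Qbarˣ) : Qbar) =
      iq q (((Additive.toMul b : ES S) : Qbarˣ) : Qbar) :=
    congrArg (fun w : Additive (Om q)ˣ => ((Additive.toMul w : (Om q)ˣ) : Om q)) hab
  have h2 := (iq q).toRingHom.injective h1
  exact congrArg Additive.ofMul (Subtype.ext (Units.ext h2))

/-! ### `C♯` -/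

lemma smul_mem_UId (γ : GQ) {x : JJ} (hx : x ∈ UId S) : γ • x ∈ UId S :=
  ⟨fun q hq g => hx.1 q hq (g * γ), fun q hq g => hx.2 q hq (g * γ)⟩

instance : MulDistribMulAction GQ (UId S) where
  smul γ a := ⟨γ • (a : JJ), smul_mem_UId S γ a.2⟩
  one_smul a := Subtype.ext (one_smul GQ (a : JJ))
  mul_smul γ δ a := Subtype.ext (mul_smul γ δ (a : JJ))
  smul_one γ := Subtype.ext (smul_one γ)
  smul_mul γ a b := Subtype.ext (smul_mul' γ (a : JJ) (b : JJ))

/-- `S`-level idele classes -/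
abbrev CCS : Type := WSm (levS S) (Additive CC)

/-- `S`-level unit ideles outside `S` -/
abbrev UIS : Type := WSm (levS S) (Additive (UId S))

/-- `U^S → C` -/
def upsS : UIS S →+ CCS S where
  toFun u := ⟨Additive.ofMul (CC.mk ((Additive.toMul (u : Additive (UId S)) : UId S) : JJ)), by
    obtain ⟨U, hU, hu⟩ := u.2
    refine ⟨U, hU, fun s hs => ?_⟩
    have := congrArg (fun w : Additive (UId S) => ((Additive.toMul w : UId S) : JJ)) (hu s hs)
    exact congrArg (fun y : JJ => Additive.ofMul (CC.mk y)) this⟩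
  map_zero' := rfl
  map_add' a b := rfl

lemma upsS_equivar : Equivar GQ (upsS S) := fun _ _ => rfl

/-- `C♯ = colim_{L ⊆ ℚ_S} C(L) / U^S(L)` -/
abbrev CSh : Type := WCoker GQ (upsS S) (upsS_equivar S)

lemma CSh_smooth : (levS S).Smooth (CSh S) := by
  intro c
  obtain ⟨b, rfl⟩ := WCoker.mk_surjective GQ (upsS S) (upsS_equivar S) c
  obtain ⟨U, hU, hb⟩ := WSm.smooth (levS S) (Additive CC) b
  exact ⟨U, hU, fun s hs => by rw [← WCoker.equivar_mk, hb s hs]⟩

/-! ### `J → C♯` -/

/-- local data indexed by `S` -/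
abbrev Hs (v : S) : Type := Gq v.1
/-- local data indexed by `S` -/
abbrev rs (v : S) : Hs S v →* GQ := rq v.1
/-- local data indexed by `S` -/
abbrev Bs (v : S) : Type := Additive (Om v.1)ˣ

/-- `J` -/
abbrev JA : Type := WJ (levS S) (Hs S) (rs S) (Bs S)

/-- the `q`-component of the idele of an element of `J` -/
def extJq (x : JA S) (q : Nat.Primes) : Jq q :=
  if h : q ∈ S then
    ⟨fun g => Additive.toMul ((x ⟨q, h⟩ : GQ → Additive (Om q)ˣ) g),
      fun k g => congrArg Additive.toMul ((x ⟨q, h⟩).2.1 k g), by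
      obtain ⟨U, hU, hc⟩ := (x ⟨q, h⟩).2.2
      exact ⟨U, levS_le_levAll S hU, fun g s hs => congrArg Additive.toMul (hc g s hs)⟩⟩
  else 1

lemma extJq_apply (x : JA S) (v : S) (g : GQ) :
    ((extJq S x v.1 : Jq v.1) : GQ → (Om v.1)ˣ) g =
      Additive.toMul ((x v : GQ → Additive (Om v.1)ˣ) g) := by
  unfold extJq
  rw [dif_pos v.2]

lemma extJq_of_not_mem (x : JA S) (q : Nat.Primes) (hq : q ∉ S) : extJq S x q = 1 := by
  unfold extJq
  rw [dif_neg hq]

/-- a common level of an element of `J` -/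
lemma JA_exists_level (x : JA S) : ∃ U ∈ (levS S).mem, ∀ s ∈ U, s • x = x := by
  classical
  have h1 : ∀ T : Finset S, ∃ U ∈ (levS S).mem, ∀ v ∈ T, ∀ g, ∀ s ∈ U,
      (x v : GQ → Additive (Om v.1)ˣ) (g * s) = (x v : GQ → Additive (Om v.1)ˣ) g := by
    intro T
    induction T using Finset.induction_on with
    | empty =>
      obtain ⟨U, hU⟩ := (levS S).nonempty
      exact ⟨U, hU, fun v hv => absurd hv (Finset.notMem_empty v)⟩
    | insert v T _ ih =>
      obtain ⟨U, hU, h⟩ := ih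
      obtain ⟨V, hV, hc⟩ := (x v).2.2
      obtain ⟨W, hW, hWU, hWV⟩ := (levS S).directed U hU V hV
      refine ⟨W, hW, fun w hw g s hs => ?_⟩
      rcases Finset.mem_insert.1 hw with rfl | hw
      · exact hc g s (hWV hs)
      · exact h w hw g s (hWU hs)
  obtain ⟨U, hU, h⟩ := h1 Finset.univ
  exact ⟨U, hU, fun s hs => funext fun v => Subtype.ext (funext fun g =>
    h v (Finset.mem_univ v) g s hs)⟩

lemma smul_extJq (γ : GQ) (x : JA S) (q : Nat.Primes) : γ • extJq S x q = extJq S (γ • x) q := by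
  by_cases hq : q ∈ S
  · apply Subtype.ext
    funext g
    rw [Jq.smul_apply, extJq_apply S x ⟨q, hq⟩, extJq_apply S (γ • x) ⟨q, hq⟩]
    rfl
  · rw [extJq_of_not_mem S x q hq, extJq_of_not_mem S _ q hq, smul_one]

/-- the idele (supported at `S`) of an element of `J` -/
def extJ : JA S →+ Additive JJ where
  toFun x := Additive.ofMul ⟨fun q => extJq S x q, by
    refine ⟨?_, ?_⟩
    · obtain ⟨U, hU, hx⟩ := JA_exists_level S x
      exact ⟨U, levS_le_levAll S hU, fun s hs q => by rw [smul_extJq, hx s hs]⟩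
    · refine (Finset.finite_toSet S).subset ?_
      intro q hq
      by_contra hcon
      apply hq
      show extJq S x q ∈ Uq q
      rw [extJq_of_not_mem S x q (fun h => hcon (Finset.mem_coe.2 h))]
      exact one_mem _⟩
  map_zero' := by
    apply congrArg Additive.ofMul
    apply Subtype.ext
    funext q
    by_cases hq : q ∈ S
    · apply Subtype.ext
      funext g
      show ((extJq S 0 q : Jq q) : GQ → (Om q)ˣ) g = 1
      rw [extJq_apply S 0 ⟨q, hq⟩]
      rfl
    · exact extJq_of_not_mem S _ q hq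
  map_add' x y := by
    apply congrArg Additive.ofMul
    apply Subtype.ext
    funext q
    by_cases hq : q ∈ S
    · apply Subtype.ext
      funext g
      show ((extJq S (x + y) q : Jq q) : GQ → (Om q)ˣ) g =
        ((extJq S x q : Jq q) : GQ → (Om q)ˣ) g * ((extJq S y q : Jq q) : GQ → (Om q)ˣ) g
      rw [extJq_apply S (x + y) ⟨q, hq⟩, extJq_apply S x ⟨q, hq⟩, extJq_apply S y ⟨q, hq⟩]
      rfl
    · show extJq S (x + y) q = extJq S x q * extJq S y q
      rw [extJq_of_not_mem S _ q hq, extJq_of_not_mem S _ q hq, extJq_of_not_mem S _ q hq, one_mul]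

lemma cmp_extJ (x : JA S) (v : S) (g : GQ) :
    cmp (Additive.toMul (extJ S x)) v.1 g = Additive.toMul ((x v : GQ → Additive (Om v.1)ˣ) g) :=
  extJq_apply S x v g

lemma cmp_extJ_of_not_mem (x : JA S) (q : Nat.Primes) (hq : q ∉ S) (g : GQ) :
    cmp (Additive.toMul (extJ S x)) q g = 1 := by
  show ((extJq S x q : Jq q) : GQ → (Om q)ˣ) g = 1
  rw [extJq_of_not_mem S x q hq]
  rfl

lemma extJ_equivar : Equivar GQ (extJ S) := by
  intro γ x
  apply congrArg Additive.ofMul
  apply Subtype.ext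
  funext q
  exact (smul_extJq S γ x q).symm

/-- `J → C` (the `S`-level idele classes) -/
def JtoCCS : JA S →+ CCS S where
  toFun x := ⟨Additive.ofMul (CC.mk (Additive.toMul (extJ S x))), by
    obtain ⟨U, hU, hx⟩ := JA_exists_level S x
    refine ⟨U, hU, fun s hs => ?_⟩
    have h1 : s • extJ S x = extJ S x := by rw [← extJ_equivar, hx s hs]
    exact congrArg (fun y : Additive JJ => Additive.ofMul (CC.mk (Additive.toMul y))) h1⟩
  map_zero' := by
    apply Subtype.ext
    show Additive.ofMul (CC.mk (Additive.toMul (extJ S 0))) = 0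
    rw [map_zero]
    rfl
  map_add' x y := by
    apply Subtype.ext
    show Additive.ofMul (CC.mk (Additive.toMul (extJ S (x + y)))) = _
    rw [map_add]
    rfl

lemma JtoCCS_equivar : Equivar GQ (JtoCCS S) := by
  intro γ x
  apply Subtype.ext
  show Additive.ofMul (CC.mk (Additive.toMul (extJ S (γ • x)))) = _
  rw [extJ_equivar]
  rfl

/-- `J → C♯` -/
def JtoCSh : JA S →+ CSh S := (WCoker.mk GQ (upsS S) (upsS_equivar S)).comp (JtoCCS S)

lemma JtoCSh_equivar : Equivar GQ (JtoCSh S) := by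
  intro γ x
  show WCoker.mk GQ (upsS S) (upsS_equivar S) (JtoCCS S (γ • x)) = _
  rw [JtoCCS_equivar, WCoker.equivar_mk]
  rfl

/-- `C = J/E` -/
abbrev CA : Type := WC (levS S) (Hs S) (rs S) (Bs S) (EA_smooth S) (fun v => lamq S v.1)
  (fun v => lamq_compat S v.1)

/-- the diagonal map `E → J` -/
abbrev dES : EA S →+ JA S := WdE (levS S) (Hs S) (rs S) (Bs S) (EA_smooth S)
    (fun v => lamq S v.1) (fun v => lamq_compat S v.1)

/-- the part outside `S` of the principal idele of an `S`-unit -/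
def outS (e : EA S) : JJ :=
  (Additive.toMul (extJ S (dES S e)))⁻¹ * diag ((Additive.toMul e : ES S) : Qbarˣ)

lemma outS_mem (e : EA S) : outS S e ∈ UId S := by
  refine ⟨fun q hq g => ?_, fun q hq g => ?_⟩
  · unfold outS
    rw [cmp_mul, cmp_inv, cmp_extJ S _ ⟨q, hq⟩ g]
    exact inv_mul_cancel _
  · unfold outS
    rw [cmp_mul, cmp_inv, cmp_extJ_of_not_mem S _ q hq g, inv_one, one_mul, diag_comp]
    exact (Additive.toMul e : ES S).2.2 q hq g

lemma smul_outS (γ : GQ) (e : EA S) : γ • outS S e = outS S (γ • e) := by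
  unfold outS
  rw [smul_mul', smul_inv', smul_diag]
  have h1 : dES S (γ • e) = γ • dES S e := WdE_equivar _ _ _ _ _ _ _ γ e
  rw [h1, extJ_equivar]
  rfl

lemma JtoCSh_dE (e : EA S) : JtoCSh S (WdE (levS S) (Hs S) (rs S) (Bs S) (EA_smooth S)
    (fun v => lamq S v.1) (fun v => lamq_compat S v.1) e) = 0 := by
  show WCoker.mk GQ (upsS S) (upsS_equivar S) (JtoCCS S (dES S e)) = 0
  rw [WCoker.mk_eq_zero]
  obtain ⟨U, hU, he⟩ := EA_smooth S e
  refine ⟨⟨Additive.ofMul ⟨(outS S e)⁻¹, inv_mem (outS_mem S e)⟩, U, hU, fun s hs => ?_⟩, ?_⟩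
  · apply congrArg Additive.ofMul
    apply Subtype.ext
    show s • (outS S e)⁻¹ = (outS S e)⁻¹
    rw [smul_inv', smul_outS, he s hs]
  · apply Subtype.ext
    apply congrArg Additive.ofMul
    show CC.mk (outS S e)⁻¹ = CC.mk (Additive.toMul (extJ S (dES S e)))
    unfold CC.mk
    rw [QuotientGroup.eq]
    refine ⟨((Additive.toMul e : ES S) : Qbarˣ), ?_⟩
    unfold outS
    rw [inv_inv, mul_comm _ (diag _), mul_assoc, inv_mul_cancel, mul_one]

/-- `κ : C → C♯` -/
def kapS : CA S →+ CSh S :=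
  QuotientAddGroup.lift _ (JtoCSh S) (by
    rintro _ ⟨e, rfl⟩
    exact JtoCSh_dE S e)

lemma kapS_equivar : Equivar GQ (kapS S) := by
  intro γ c
  obtain ⟨x, rfl⟩ := WCoker.mk_surjective GQ _ (WdE_equivar (levS S) (Hs S) (rs S) (Bs S)
    (EA_smooth S) (fun v => lamq S v.1) (fun v => lamq_compat S v.1)) c
  exact JtoCSh_equivar S γ x

end

end Fermat.Agent.S55Lib
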