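import Fermat.Agent.S55.W.ABDefs

/-!
# S55 chapter W (CP2): `Hom_Γ(X, A) = Hom_{Γ/U}(X, A^U)` for a `Γ ⧸ U`-module `X`
-/

set_option autoImplicit false
set_option linter.unusedSectionVars false
set_option linter.unusedVariables false

namespace Fermat.Agent.S55Lib

noncomputable section

open groupCohomology

section CP2

variable {Γ : Type} [Group Γ] (U : Subgroup Γ) [U.Normal] (X : Type) [AddCommGroup X]
  [DistribMulAction (Γ ⧸ U) X] (A : Type) [AddCommGroup A] [DistribMulAction Γ A]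

lemma CP2_equivar (φ : inv (⊤ : Subgroup Γ) (HomM Γ (WRes (QuotientGroup.mk' U) X) A))
    (g : Γ) (x : X) :
    (φ : HomM Γ (WRes (QuotientGroup.mk' U) X) A) (WRes.mk (QuotientGroup.mk' U) X
      ((g : Γ ⧸ U) • x)) =
      g • (φ : HomM Γ (WRes (QuotientGroup.mk' U) X) A) (WRes.mk (QuotientGroup.mk' U) X x) :=
  HomM.mem_inv_top.1 φ.2 g (WRes.mk (QuotientGroup.mk' U) X x)

lemma CP2_mem (φ : inv (⊤ : Subgroup Γ) (HomM Γ (WRes (QuotientGroup.mk' U) X) A)) (x : X) :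
    (φ : HomM Γ (WRes (QuotientGroup.mk' U) X) A) (WRes.mk (QuotientGroup.mk' U) X x)
      ∈ inv U A := by
  intro s hs
  rw [← CP2_equivar, (QuotientGroup.eq_one_iff s).2 hs, one_smul]

/-- the forward map -/
def CP2_fwd (φ : inv (⊤ : Subgroup Γ) (HomM Γ (WRes (QuotientGroup.mk' U) X) A)) :
    HomM (Γ ⧸ U) X (inv U A) :=
  HomM.of
    { toFun := fun x => ⟨(φ : HomM Γ (WRes (QuotientGroup.mk' U) X) A)
        (WRes.mk (QuotientGroup.mk' U) X x), CP2_mem U X A φ x⟩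
      map_zero' := Subtype.ext (by
        show (φ : HomM Γ (WRes (QuotientGroup.mk' U) X) A) (WRes.mk (QuotientGroup.mk' U) X 0) = 0
        rw [map_zero, map_zero])
      map_add' := fun x y => Subtype.ext (by
        show (φ : HomM Γ (WRes (QuotientGroup.mk' U) X) A)
          (WRes.mk (QuotientGroup.mk' U) X (x + y)) = _ + _
        rw [map_add, map_add]) }

lemma CP2_fwd_mem (φ : inv (⊤ : Subgroup Γ) (HomM Γ (WRes (QuotientGroup.mk' U) X) A)) :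
    CP2_fwd U X A φ ∈ inv (⊤ : Subgroup (Γ ⧸ U)) (HomM (Γ ⧸ U) X (inv U A)) := by
  rw [HomM.mem_inv_top]
  intro q x
  induction q using QuotientGroup.induction_on with
  | H g => exact Subtype.ext (CP2_equivar U X A φ g x)

/-- the backward map -/
def CP2_bwd (ψ : inv (⊤ : Subgroup (Γ ⧸ U)) (HomM (Γ ⧸ U) X (inv U A))) :
    HomM Γ (WRes (QuotientGroup.mk' U) X) A :=
  HomM.of (((inv U A).subtype.comp (ψ : HomM (Γ ⧸ U) X (inv U A)).toHom).comp
    (WRes.out (QuotientGroup.mk' U) X))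

lemma CP2_bwd_mem (ψ : inv (⊤ : Subgroup (Γ ⧸ U)) (HomM (Γ ⧸ U) X (inv U A))) :
    CP2_bwd U X A ψ ∈ inv (⊤ : Subgroup Γ) (HomM Γ (WRes (QuotientGroup.mk' U) X) A) := by
  rw [HomM.mem_inv_top]
  intro g x
  have h := HomM.mem_inv_top.1 ψ.2 (g : Γ ⧸ U) (WRes.out (QuotientGroup.mk' U) X x)
  exact congrArg (fun a : inv U A => (a : A)) h

/-- `φ ↦ (x ↦ φ x)` -/
def WhomEquiv : inv (⊤ : Subgroup Γ) (HomM Γ (WRes (QuotientGroup.mk' U) X) A) ≃+
    inv (⊤ : Subgroup (Γ ⧸ U)) (HomM (Γ ⧸ U) X (inv U A)) where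
  toFun φ := ⟨CP2_fwd U X A φ, CP2_fwd_mem U X A φ⟩
  invFun ψ := ⟨CP2_bwd U X A ψ, CP2_bwd_mem U X A ψ⟩
  left_inv φ := rfl
  right_inv ψ := rfl
  map_add' φ φ' := rfl

theorem WhomEquiv_apply (φ : inv (⊤ : Subgroup Γ) (HomM Γ (WRes (QuotientGroup.mk' U) X) A))
    (x : X) : (((WhomEquiv U X A φ : HomM (Γ ⧸ U) X (inv U A)) x : inv U A) : A)
      = (φ : HomM Γ (WRes (QuotientGroup.mk' U) X) A) (WRes.mk (QuotientGroup.mk' U) X x) := rfl

theorem WhomEquiv_symm_apply (ψ : inv (⊤ : Subgroup (Γ ⧸ U)) (HomM (Γ ⧸ U) X (inv U A)))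
    (x : X) : ((WhomEquiv U X A).symm ψ : HomM Γ (WRes (QuotientGroup.mk' U) X) A)
      (WRes.mk (QuotientGroup.mk' U) X x) = (((ψ : HomM (Γ ⧸ U) X (inv U A)) x : inv U A) : A) :=
  rfl

end CP2

end

end Fermat.Agent.S55Lib
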