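import Fermat.Agent.S55.W.CoindInv
import Fermat.Agent.S55.W.HomInv
import Fermat.Agent.S55.W.TorsionCmp

/-!
# S55 chapter W (CP4): comparison of the two `T`'s
-/

set_option autoImplicit false
set_option linter.unusedSectionVars false
set_option linter.unusedVariables false

namespace Fermat.Agent.S55Lib

noncomputable section

open groupCohomology

section CP4gen

variable {G : Type} [Group G]

/-- `p φ` extends to `X0` (no finiteness of `G`). -/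
lemma CP4_p_smul_mem {X0 X1 C : Type} [AddCommGroup X0] [AddCommGroup X1] [AddCommGroup C]
    [DistribMulAction G X0] [DistribMulAction G X1] [DistribMulAction G C]
    (j : X1 →+ X0) (ej : ∀ (g : G) x, j (g • x) = g • j x) (hj : Function.Injective j)
    (p : ℕ) (hp : ∀ x : X0, ∃ y, j y = p • x) {φ : HomM G X1 C}
    (hφ : φ ∈ inv (⊤ : Subgroup G) (HomM G X1 C)) :
    p • φ ∈ (inv (⊤ : Subgroup G) (HomM G X0 C)).map (HomM.pre j) := by
  choose a ha using hp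
  have hadd : ∀ x y, a (x + y) = a x + a y := fun x y => hj (by
    rw [map_add, ha, ha, ha, smul_add])
  have hsm : ∀ (g : G) x, a (g • x) = g • a x := fun g x => hj (by
    rw [ej, ha, ha, smul_comm])
  have haj : ∀ x, a (j x) = p • x := fun x => hj (by rw [ha, map_nsmul])
  let aH : X0 →+ X1 := AddMonoidHom.mk' a hadd
  refine ⟨HomM.of (φ.toHom.comp aH), ?_, ?_⟩
  · rw [SetLike.mem_coe, HomM.mem_inv_top]
    intro g x
    show φ (a (g • x)) = g • φ (a x)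
    rw [hsm, HomM.mem_inv_top.1 hφ]
  · ext x
    show φ (a (j x)) = (p • φ) x
    rw [haj, map_nsmul]
    rfl

lemma CP4_nsmul_apply {X A : Type} [AddCommGroup X] [AddCommGroup A] [DistribMulAction G X]
    [DistribMulAction G A] (m : ℕ) (φ : HomM G X A) (x : X) : (m • φ) x = m • φ x := rfl

end CP4gen

section CP4k

variable (p : ℕ) {Γ : Type} [Group Γ] (U : Subgroup Γ) [U.Normal]
  (X : Type) [AddCommGroup X] [DistribMulAction (Γ ⧸ U) X]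
  {C Cs : Type} [AddCommGroup C] [DistribMulAction Γ C] [AddCommGroup Cs] [DistribMulAction Γ Cs]
  (κ : C →+ Cs) (eκ : Equivar Γ κ)

/-- `κ_* : Hom_Γ(X, C) → Hom_{Γ/U}(X, (C♯)^U)` -/
def CP4_k : inv (⊤ : Subgroup Γ) (HomM Γ (WRes (QuotientGroup.mk' U) X) C) →+
    inv (⊤ : Subgroup (Γ ⧸ U)) (HomM (Γ ⧸ U) X (inv U Cs)) where
  toFun φ := WhomEquiv U X Cs ⟨HomM.post κ (φ : HomM Γ (WRes (QuotientGroup.mk' U) X) C),
    M_post_mem_inv κ eκ φ.2⟩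
  map_zero' := by
    apply Subtype.ext
    ext x
    exact map_zero κ
  map_add' φ ψ := by
    apply Subtype.ext
    ext x
    exact map_add κ _ _

lemma CP4_k_apply (φ : inv (⊤ : Subgroup Γ) (HomM Γ (WRes (QuotientGroup.mk' U) X) C)) (x : X) :
    (((CP4_k U X κ eκ φ : HomM (Γ ⧸ U) X (inv U Cs)) x : inv U Cs) : Cs) =
      κ ((φ : HomM Γ (WRes (QuotientGroup.mk' U) X) C) (WRes.mk (QuotientGroup.mk' U) X x)) := rfl

lemma CP4_k_injective (hκ : Function.Injective κ) : Function.Injective (CP4_k U X κ eκ) := by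
  intro φ ψ h
  apply Subtype.ext
  ext x
  apply hκ
  have h1 := CP4_k_apply U X κ eκ φ x
  have h2 := CP4_k_apply U X κ eκ ψ x
  rw [h] at h1
  exact h1.symm.trans h2

lemma CP4_lift [Module.Finite ℤ X] (hκ : Function.Injective κ)
    (hκtor : ∀ c : Cs, ∃ m : ℕ, m.Coprime p ∧ ∃ c', κ c' = m • c)
    (y : inv (⊤ : Subgroup (Γ ⧸ U)) (HomM (Γ ⧸ U) X (inv U Cs))) :
    ∃ m : ℕ, m.Coprime p ∧ ∃ φ, CP4_k U X κ eκ φ = m • y := by
  obtain ⟨m, hm, ψ₀, hψ₀⟩ := W_exists_factor p κ hκ hκtor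
    ((inv U Cs).subtype.comp (y : HomM (Γ ⧸ U) X (inv U Cs)).toHom)
  have hψ₀' : ∀ x, κ (ψ₀ x) = m • (((y : HomM (Γ ⧸ U) X (inv U Cs)) x : inv U Cs) : Cs) := hψ₀
  refine ⟨m, hm, ⟨HomM.of (ψ₀.comp (WRes.out (QuotientGroup.mk' U) X)), ?_⟩, ?_⟩
  · rw [HomM.mem_inv_top]
    intro g x
    apply hκ
    show κ (ψ₀ ((g : Γ ⧸ U) • WRes.out (QuotientGroup.mk' U) X x)) =
      κ (g • ψ₀ (WRes.out (QuotientGroup.mk' U) X x))
    rw [eκ, hψ₀', hψ₀', HomM.mem_inv_top.1 y.2, smul_comm]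
    rfl
  · apply Subtype.ext
    ext x
    exact hψ₀' x

end CP4k

section CP4abs

variable (p : ℕ) {Γ : Type} [Group Γ] (U : Subgroup Γ) [U.Normal]
  {X0 X1 : Type} [AddCommGroup X0] [AddCommGroup X1] [DistribMulAction (Γ ⧸ U) X0]
  [DistribMulAction (Γ ⧸ U) X1] [Module.Finite ℤ X0] [Module.Finite ℤ X1]
  (j : X1 →+ X0) (ej : ∀ (g : Γ ⧸ U) x, j (g • x) = g • j x) (hj : Function.Injective j)
  (hpX : ∀ x : X0, ∃ y, j y = p • x)
  {ι : Type} [Finite ι] [DecidableEq ι]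
  (Jv : ι → Type) [∀ v, AddCommGroup (Jv v)] [∀ v, DistribMulAction Γ (Jv v)]
  {C Cs : Type} [AddCommGroup C] [DistribMulAction Γ C] [AddCommGroup Cs] [DistribMulAction Γ Cs]
  (π : (∀ v, Jv v) →+ C) (eπ : Equivar Γ π)
  (κ : C →+ Cs) (eκ : Equivar Γ κ) (hκ : Function.Injective κ)
  (hκtor : ∀ c : Cs, ∃ m : ℕ, m.Coprime p ∧ ∃ c', κ c' = m • c)
  (K : ι → Type) [∀ v, AddCommGroup (K v)] [∀ v, DistribMulAction (Γ ⧸ U) (K v)]
  (e : ∀ v, inv U (Jv v) ≃+ K v) (he : ∀ v (q : Γ ⧸ U) x, e v (q • x) = q • e v x)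
  (prc : ∀ v, K v →+ inv U Cs)
  (hprc : ∀ v (x : inv U (Jv v)),
    ((prc v (e v x) : inv U Cs) : Cs) = κ (π (Pi.single v (x : Jv v))))

/-- the subgroup on the `Γ`-side -/
def CP4_S : AddSubgroup (HomM Γ (WRes (QuotientGroup.mk' U) X1) C) :=
  (inv (⊤ : Subgroup Γ) (HomM Γ (WRes (QuotientGroup.mk' U) X0) C)).map
      (HomM.pre (WjRes U j)) ⊔
    (inv (⊤ : Subgroup Γ) (HomM Γ (WRes (QuotientGroup.mk' U) X1) (∀ v, Jv v))).map
      (HomM.post π)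

/-- the subgroup on the `Γ ⧸ U`-side -/
def CP4_Ss : AddSubgroup (HomM (Γ ⧸ U) X1 (inv U Cs)) :=
  (inv (⊤ : Subgroup (Γ ⧸ U)) (HomM (Γ ⧸ U) X0 (inv U Cs))).map (HomM.pre j) ⊔
    ⨆ v, (inv (⊤ : Subgroup (Γ ⧸ U)) (HomM (Γ ⧸ U) X1 (K v))).map (HomM.post (prc v))

include ej in
lemma CP4_ejRes (g : Γ) (x : WRes (QuotientGroup.mk' U) X1) :
    WjRes U j (g • x) = g • WjRes U j x := ej (g : Γ ⧸ U) x

include ej in
lemma CP4_k_pre (y : inv (⊤ : Subgroup Γ) (HomM Γ (WRes (QuotientGroup.mk' U) X0) C)) :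
    (CP4_k U X1 κ eκ ⟨HomM.pre (WjRes U j) (y : HomM Γ (WRes (QuotientGroup.mk' U) X0) C),
      M_pre_mem_inv (WjRes U j) (CP4_ejRes U j ej) y.2⟩ : HomM (Γ ⧸ U) X1 (inv U Cs)) =
    HomM.pre j (CP4_k U X0 κ eκ y : HomM (Γ ⧸ U) X0 (inv U Cs)) := rfl

/-- evaluation at `x`, as an additive map to `C♯` -/
def CP4_ev (x : X1) : HomM (Γ ⧸ U) X1 (inv U Cs) →+ Cs where
  toFun ψ := ((ψ x : inv U Cs) : Cs)
  map_zero' := rfl
  map_add' _ _ := rfl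

lemma CP4_eval_equivar (v : ι) (g : Γ) (x : ∀ v, Jv v) :
    Pi.evalAddMonoidHom Jv v (g • x) = g • Pi.evalAddMonoidHom Jv v x := rfl

lemma CP4_single_equivar (v : ι) (g : Γ) (x : Jv v) :
    AddMonoidHom.single Jv v (g • x) = g • AddMonoidHom.single Jv v x := by
  funext w
  by_cases h : w = v
  · subst h
    simp
  · simp [Pi.single_eq_of_ne h]

include he hprc in
lemma CP4_k_post (z : inv (⊤ : Subgroup Γ) (HomM Γ (WRes (QuotientGroup.mk' U) X1) (∀ v, Jv v))) :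
    (CP4_k U X1 κ eκ ⟨HomM.post π (z : HomM Γ (WRes (QuotientGroup.mk' U) X1) (∀ v, Jv v)),
      M_post_mem_inv π eπ z.2⟩ : HomM (Γ ⧸ U) X1 (inv U Cs)) ∈
    ⨆ v, (inv (⊤ : Subgroup (Γ ⧸ U)) (HomM (Γ ⧸ U) X1 (K v))).map (HomM.post (prc v)) := by
  classical
  cases nonempty_fintype ι
  let zv : ∀ v, inv (⊤ : Subgroup (Γ ⧸ U)) (HomM (Γ ⧸ U) X1 (inv U (Jv v))) := fun v =>
    WhomEquiv U X1 (Jv v) ⟨HomM.post (Pi.evalAddMonoidHom Jv v)
      (z : HomM Γ (WRes (QuotientGroup.mk' U) X1) (∀ v, Jv v)),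
      M_post_mem_inv _ (CP4_eval_equivar Jv v) z.2⟩
  have hzv : ∀ v x, (((zv v : HomM (Γ ⧸ U) X1 (inv U (Jv v))) x : inv U (Jv v)) : Jv v) =
    (z : HomM Γ (WRes (QuotientGroup.mk' U) X1) (∀ v, Jv v))
      (WRes.mk (QuotientGroup.mk' U) X1 x) v := fun v x => rfl
  have key : (CP4_k U X1 κ eκ ⟨HomM.post π
      (z : HomM Γ (WRes (QuotientGroup.mk' U) X1) (∀ v, Jv v)),
      M_post_mem_inv π eπ z.2⟩ : HomM (Γ ⧸ U) X1 (inv U Cs)) =
      ∑ v, HomM.post (prc v) (HomM.post (e v).toAddMonoidHom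
        (zv v : HomM (Γ ⧸ U) X1 (inv U (Jv v)))) := by
    ext x
    show κ (π ((z : HomM Γ (WRes (QuotientGroup.mk' U) X1) (∀ v, Jv v))
      (WRes.mk (QuotientGroup.mk' U) X1 x))) = CP4_ev U x (∑ v, HomM.post (prc v)
        (HomM.post (e v).toAddMonoidHom (zv v : HomM (Γ ⧸ U) X1 (inv U (Jv v)))))
    rw [map_sum]
    have h1 : ∀ v, CP4_ev U x (HomM.post (prc v)
        (HomM.post (e v).toAddMonoidHom (zv v : HomM (Γ ⧸ U) X1 (inv U (Jv v))))) =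
        κ (π (Pi.single v ((z : HomM Γ (WRes (QuotientGroup.mk' U) X1) (∀ v, Jv v))
          (WRes.mk (QuotientGroup.mk' U) X1 x) v))) := by
      intro v
      rw [← hzv, ← hprc]
      rfl
    simp only [h1]
    rw [← map_sum, ← map_sum, Finset.univ_sum_single]
  rw [key]
  refine AddSubgroup.sum_mem _ fun v _ => ?_
  exact AddSubgroup.mem_iSup_of_mem v ⟨_, M_post_mem_inv (e v).toAddMonoidHom (he v) (zv v).2, rfl⟩

include ej eπ he hprc in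
lemma CP4_hS (x : inv (⊤ : Subgroup Γ) (HomM Γ (WRes (QuotientGroup.mk' U) X1) C))
    (hx : (x : HomM Γ (WRes (QuotientGroup.mk' U) X1) C) ∈ CP4_S U j Jv π) :
    (CP4_k U X1 κ eκ x : HomM (Γ ⧸ U) X1 (inv U Cs)) ∈ CP4_Ss U j K prc := by
  let Z : AddSubgroup (HomM Γ (WRes (QuotientGroup.mk' U) X1) C) :=
    (((CP4_Ss U j K prc).addSubgroupOf
      (inv (⊤ : Subgroup (Γ ⧸ U)) (HomM (Γ ⧸ U) X1 (inv U Cs)))).comap (CP4_k U X1 κ eκ)).map
      (inv (⊤ : Subgroup Γ) (HomM Γ (WRes (QuotientGroup.mk' U) X1) C)).subtype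
  have hZ : CP4_S U j Jv π ≤ Z := by
    refine sup_le ?_ ?_
    · rintro _ ⟨y, hy, rfl⟩
      refine ⟨⟨_, M_pre_mem_inv (WjRes U j) (CP4_ejRes U j ej) hy⟩, ?_, rfl⟩
      show (CP4_k U X1 κ eκ _ : HomM (Γ ⧸ U) X1 (inv U Cs)) ∈ CP4_Ss U j K prc
      rw [CP4_k_pre U j ej κ eκ ⟨y, hy⟩]
      exact AddSubgroup.mem_sup_left ⟨_, (CP4_k U X0 κ eκ ⟨y, hy⟩).2, rfl⟩
    · rintro _ ⟨z, hz, rfl⟩
      refine ⟨⟨_, M_post_mem_inv π eπ hz⟩, ?_, rfl⟩
      exact AddSubgroup.mem_sup_right (CP4_k_post U Jv π eπ κ eκ K e he prc hprc ⟨z, hz⟩)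
  obtain ⟨x', hx', hxx⟩ := hZ hx
  have : x' = x := Subtype.ext hxx
  rw [← this]
  exact hx'

/-- elements which come from `S` after multiplication by an integer prime to `p` -/
def CP4_T : AddSubgroup (HomM (Γ ⧸ U) X1 (inv U Cs)) where
  carrier := {w | ∃ m : ℕ, m.Coprime p ∧
    ∃ s : inv (⊤ : Subgroup Γ) (HomM Γ (WRes (QuotientGroup.mk' U) X1) C),
      (s : HomM Γ (WRes (QuotientGroup.mk' U) X1) C) ∈ CP4_S U j Jv π ∧
      (CP4_k U X1 κ eκ s : HomM (Γ ⧸ U) X1 (inv U Cs)) = m • w}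
  zero_mem' := ⟨1, Nat.coprime_one_left p, 0, AddSubgroup.zero_mem _, by
    rw [map_zero, smul_zero]; rfl⟩
  add_mem' := by
    rintro w1 w2 ⟨m1, h1, s1, hs1, e1⟩ ⟨m2, h2, s2, hs2, e2⟩
    refine ⟨m1 * m2, Nat.Coprime.mul_left h1 h2, m2 • s1 + m1 • s2, ?_, ?_⟩
    · exact AddSubgroup.add_mem _ (AddSubgroup.nsmul_mem _ hs1 _) (AddSubgroup.nsmul_mem _ hs2 _)
    · rw [map_add, map_nsmul, map_nsmul, AddSubgroup.coe_add, AddSubgroup.coe_nsmul,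
        AddSubgroup.coe_nsmul, e1, e2, smul_add, mul_smul, mul_smul, smul_comm m2 m1 w1]
  neg_mem' := by
    rintro w ⟨m, h, s, hs, e⟩
    refine ⟨m, h, -s, AddSubgroup.neg_mem _ hs, ?_⟩
    rw [map_neg, AddSubgroup.coe_neg, e, smul_neg]


include ej hκ hκtor he hprc eπ in
lemma CP4_Ss_le : CP4_Ss U j K prc ≤ CP4_T p U j Jv π κ eκ := by
  refine sup_le ?_ (iSup_le fun v => ?_)
  · rintro _ ⟨y, hy, rfl⟩
    obtain ⟨m, hm, φ0, hφ0⟩ := CP4_lift p U X0 κ eκ hκ hκtor ⟨y, hy⟩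
    refine ⟨m, hm, ⟨_, M_pre_mem_inv (WjRes U j) (CP4_ejRes U j ej) φ0.2⟩,
      AddSubgroup.mem_sup_left ⟨_, φ0.2, rfl⟩, ?_⟩
    rw [CP4_k_pre U j ej κ eκ φ0, hφ0, AddSubgroup.coe_nsmul, map_nsmul]
  · rintro _ ⟨z, hz, rfl⟩
    have hes : ∀ (q : Γ ⧸ U) x, (e v).symm.toAddMonoidHom (q • x) =
        q • (e v).symm.toAddMonoidHom x := by
      intro q x
      apply (e v).injective
      show e v ((e v).symm (q • x)) = e v (q • (e v).symm x)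
      rw [he, AddEquiv.apply_symm_apply, AddEquiv.apply_symm_apply]
    let ζ0 : inv (⊤ : Subgroup Γ) (HomM Γ (WRes (QuotientGroup.mk' U) X1) (Jv v)) :=
      (WhomEquiv U X1 (Jv v)).symm ⟨HomM.post (e v).symm.toAddMonoidHom z,
        M_post_mem_inv _ hes hz⟩
    have hζ0 : ∀ x, (ζ0 : HomM Γ (WRes (QuotientGroup.mk' U) X1) (Jv v))
        (WRes.mk (QuotientGroup.mk' U) X1 x) = (((e v).symm (z x) : inv U (Jv v)) : Jv v) :=
      fun x => rfl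
    have hζ : HomM.post (AddMonoidHom.single Jv v)
        (ζ0 : HomM Γ (WRes (QuotientGroup.mk' U) X1) (Jv v)) ∈
        inv (⊤ : Subgroup Γ) (HomM Γ (WRes (QuotientGroup.mk' U) X1) (∀ v, Jv v)) :=
      M_post_mem_inv _ (CP4_single_equivar Jv v) ζ0.2
    refine ⟨1, Nat.coprime_one_left p, ⟨_, M_post_mem_inv π eπ hζ⟩,
      AddSubgroup.mem_sup_right ⟨_, hζ, rfl⟩, ?_⟩
    rw [one_smul]
    ext x
    show κ (π (Pi.single v ((ζ0 : HomM Γ (WRes (QuotientGroup.mk' U) X1) (Jv v))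
        (WRes.mk (QuotientGroup.mk' U) X1 x)))) = ((prc v (z x) : inv U Cs) : Cs)
    rw [hζ0, ← hprc, AddEquiv.apply_symm_apply]

include ej hj hpX eκ hκ hκtor he hprc eπ in
theorem CP4_abstract :
    Nonempty
      ((inv (⊤ : Subgroup Γ) (HomM Γ (WRes (QuotientGroup.mk' U) X1) C) ⧸
        (CP4_S U j Jv π).addSubgroupOf
          (inv (⊤ : Subgroup Γ) (HomM Γ (WRes (QuotientGroup.mk' U) X1) C))) ≃+
      (inv (⊤ : Subgroup (Γ ⧸ U)) (HomM (Γ ⧸ U) X1 (inv U Cs)) ⧸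
        (CP4_Ss U j K prc).addSubgroupOf
          (inv (⊤ : Subgroup (Γ ⧸ U)) (HomM (Γ ⧸ U) X1 (inv U Cs))))) := by
  refine W_torsion_cmp p (CP4_k U X1 κ eκ) _ _ ?_ ?_ ?_ ?_ ?_
  · intro x hx
    exact CP4_hS U j ej Jv π eπ κ eκ K e he prc hprc x hx
  · intro x
    exact AddSubgroup.mem_sup_left
      (CP4_p_smul_mem (WjRes U j) (CP4_ejRes U j ej) hj p hpX x.2)
  · intro y
    exact AddSubgroup.mem_sup_left (CP4_p_smul_mem j ej hj p hpX y.2)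
  · intro y
    exact CP4_lift p U X1 κ eκ hκ hκtor y
  · intro x hx
    obtain ⟨m, hm, s, hs, hsx⟩ := CP4_Ss_le p U j ej Jv π eπ κ eκ hκ hκtor K e he prc hprc hx
    refine ⟨m, hm, ?_⟩
    have h1 : s = m • x := by
      apply CP4_k_injective U X1 κ eκ hκ
      apply Subtype.ext
      rw [hsx, map_nsmul, AddSubgroup.coe_nsmul]
      rfl
    rw [← h1]
    exact hs

end CP4abs

/-! ## (CP4) the comparison theorem -/

section CP4

variable (p : ℕ) [Fact p.Prime] {Γ : Type} [Group Γ] (𝓤 : Lev Γ) (U : Subgroup Γ)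
  (hU : U ∈ 𝓤.mem) [U.Normal]
  {X0 X1 : Type} [AddCommGroup X0] [AddCommGroup X1] [DistribMulAction (Γ ⧸ U) X0]
  [DistribMulAction (Γ ⧸ U) X1] [Module.Finite ℤ X0] [Module.Finite ℤ X1]
  (j : X1 →+ X0) (ej : ∀ (g : Γ ⧸ U) x, j (g • x) = g • j x) (hj : Function.Injective j)
  (hpX : ∀ x : X0, ∃ y, j y = p • x)
  {ι : Type} [Finite ι] [DecidableEq ι]
  (H : ι → Type) [∀ v, Group (H v)] (r : ∀ v, H v →* Γ)
  (B : ι → Type) [∀ v, AddCommGroup (B v)] [∀ v, DistribMulAction (H v) (B v)]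
  {E : Type} [AddCommGroup E] [DistribMulAction Γ E] (sE : 𝓤.Smooth E)
  (lam : ∀ v, E →+ B v) (hlam : ∀ v, Compat (r v) (lam v))
  {Cs : Type} [AddCommGroup Cs] [DistribMulAction Γ Cs]
  (κ : WC 𝓤 H r B sE lam hlam →+ Cs) (eκ : Equivar Γ κ) (hκ : Function.Injective κ)
  (hκtor : ∀ c : Cs, ∃ m : ℕ, m.Coprime p ∧ ∃ c', κ c' = m • c)

include hj hpX ej hκ hκtor in
/-- **comparison of the two `T`'s** -/
theorem W_compare :
    Nonempty
      ((inv (⊤ : Subgroup Γ) (HomM Γ (WRes (QuotientGroup.mk' U) X1) (WC 𝓤 H r B sE lam hlam)) ⧸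
        (((inv (⊤ : Subgroup Γ)
            (HomM Γ (WRes (QuotientGroup.mk' U) X0) (WC 𝓤 H r B sE lam hlam))).map
              (HomM.pre (WjRes U j)) ⊔
          (inv (⊤ : Subgroup Γ) (HomM Γ (WRes (QuotientGroup.mk' U) X1) (WJ 𝓤 H r B))).map
            (HomM.post (WCoker.mk Γ _ (WdE_equivar 𝓤 H r B sE lam hlam)))).addSubgroupOf
          (inv (⊤ : Subgroup Γ)
            (HomM Γ (WRes (QuotientGroup.mk' U) X1) (WC 𝓤 H r B sE lam hlam))))) ≃+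
      (inv (⊤ : Subgroup (Γ ⧸ U)) (HomM (Γ ⧸ U) X1 (inv U Cs)) ⧸
        (((inv (⊤ : Subgroup (Γ ⧸ U)) (HomM (Γ ⧸ U) X0 (inv U Cs))).map (HomM.pre j) ⊔
          ⨆ v, (inv (⊤ : Subgroup (Γ ⧸ U)) (HomM (Γ ⧸ U) X1
            (Coind (quotMap (r v) U) (inv (U.comap (r v)) (B v))))).map
              (HomM.post (Wprc 𝓤 U hU H r B sE lam hlam κ eκ v))).addSubgroupOf
          (inv (⊤ : Subgroup (Γ ⧸ U)) (HomM (Γ ⧸ U) X1 (inv U Cs)))))) :=
  CP4_abstract p U j ej hj hpX (fun v => SCoind (r v) (B v) 𝓤)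
    (WCoker.mk Γ _ (WdE_equivar 𝓤 H r B sE lam hlam))
    (WCoker.equivar_mk Γ _ (WdE_equivar 𝓤 H r B sE lam hlam)) κ eκ hκ hκtor
    (fun v => Coind (quotMap (r v) U) (inv (U.comap (r v)) (B v)))
    (fun v => WcoindEquiv (r v) (B v) 𝓤 U hU)
    (fun v q x => WcoindEquiv_smul (r v) (B v) 𝓤 U hU q x)
    (fun v => Wprc 𝓤 U hU H r B sE lam hlam κ eκ v)
    (fun v x => by
      show κ (WCoker.mk Γ _ (WdE_equivar 𝓤 H r B sE lam hlam) (Wsingle 𝓤 H r B v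
        (((WcoindEquiv (r v) (B v) 𝓤 U hU).symm (WcoindEquiv (r v) (B v) 𝓤 U hU x) :
          inv U (SCoind (r v) (B v) 𝓤)) : SCoind (r v) (B v) 𝓤))) = _
      rw [AddEquiv.symm_apply_apply]
      rfl)

end CP4

end

end Fermat.Agent.S55Lib
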