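import Fermat.Agent.S55.W.CoindInv
import Fermat.Agent.S55.B.Norm
import Fermat.Agent.S55.T.Basic

/-!
# S55 chapter W: conversion of the hypotheses `hB3`, `hLG` of `thmAB` into those of `thmB'`
-/

set_option autoImplicit false
set_option linter.unusedSectionVars false
set_option linter.unusedVariables false

namespace Fermat.Agent.S55Lib

noncomputable section

open groupCohomology

section CV

variable {Γ : Type} [Group Γ] (U V : Subgroup Γ) [U.Normal] [V.Normal] [U.FiniteIndex]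
  (hUV : U ≤ V) {Cs : Type} [AddCommGroup Cs] [DistribMulAction Γ Cs]

instance W_finite_quot : Finite (Γ ⧸ U) := Subgroup.finite_quotient_of_finiteIndex

include hUV in
/-- (CV1) -/
theorem W_hB3 (p : ℕ)
    (hB3 : ∀ c ∈ inv U Cs, ∃ c' ∈ inv V Cs, ∃ R : Finset Γ,
      (∀ s ∈ V, ∃! t, t ∈ R ∧ t⁻¹ * s ∈ U) ∧ (∀ t ∈ R, t ∈ V) ∧ ∑ t ∈ R, t • c = p • c') :
    ∀ c : inv U Cs, ∃ c' ∈ inv (V.map (QuotientGroup.mk' U)) (inv U Cs),
      normG (V.map (QuotientGroup.mk' U)) (inv U Cs) c = p • c' := by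
  classical
  intro c
  obtain ⟨c', hc', R, hR, hRV, hsum⟩ := hB3 c c.2
  have hc'U : c' ∈ inv U Cs := fun s hs => hc' s (hUV hs)
  refine ⟨⟨c', hc'U⟩, ?_, ?_⟩
  · rintro _ ⟨s, hs, rfl⟩
    exact Subtype.ext (hc' s hs)
  · have := Fintype.ofFinite (V.map (QuotientGroup.mk' U))
    rw [normG_apply]
    have h1 : ∑ g : V.map (QuotientGroup.mk' U), g • c = ∑ t ∈ R, (t : Γ ⧸ U) • c := by
      symm
      refine Finset.sum_bij (fun t ht => (⟨(t : Γ ⧸ U), t, hRV t ht, rfl⟩ :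
        V.map (QuotientGroup.mk' U))) (fun _ _ => Finset.mem_univ _) ?_ ?_ (fun _ _ => rfl)
      · intro t ht t' ht' h
        have h2 : (t : Γ ⧸ U) = (t' : Γ ⧸ U) := congrArg Subtype.val h
        have h3 : t⁻¹ * t' ∈ U := QuotientGroup.eq.1 h2
        obtain ⟨t₀, _, huniq⟩ := hR t' (hRV t' ht')
        rw [huniq t ⟨ht, h3⟩, huniq t' ⟨ht', by rw [inv_mul_cancel]; exact U.one_mem⟩]
      · rintro ⟨_, s, hs, rfl⟩ _
        obtain ⟨t, ⟨ht, hts⟩, _⟩ := hR s hs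
        exact ⟨t, ht, Subtype.ext (QuotientGroup.eq.2 hts)⟩
    rw [h1]
    apply Subtype.ext
    rw [AddSubgroup.coe_nsmul, ← hsum, AddSubgroup.val_finsetSum]
    rfl

end CV

section CV2

variable (p : ℕ) {Γ : Type} [Group Γ] (𝓤 : Lev Γ) (U : Subgroup Γ) (hU : U ∈ 𝓤.mem) [U.Normal]
  {ι : Type} [DecidableEq ι]
  (H : ι → Type) [∀ v, Group (H v)] (r : ∀ v, H v →* Γ)
  (B : ι → Type) [∀ v, AddCommGroup (B v)] [∀ v, DistribMulAction (H v) (B v)]
  {E : Type} [AddCommGroup E] [DistribMulAction Γ E] (sE : 𝓤.Smooth E)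
  (lam : ∀ v, E →+ B v) (hlam : ∀ v, Compat (r v) (lam v))
  {Cs : Type} [AddCommGroup Cs] [DistribMulAction Γ Cs]
  (κ : WC 𝓤 H r B sE lam hlam →+ Cs) (eκ : Equivar Γ κ)

/-- (CV2) -/
theorem W_hLG
    (hLG : ∀ v, ∀ f : (Γ ⧸ U) × (Γ ⧸ U) → inv U (SCoind (r v) (B v) 𝓤), IsCocycle₂ f →
      IsCoboundary₂ (p • f) →
      IsCoboundary₂ (fun x => invMap U (Wpr 𝓤 H r B sE lam hlam κ v)
        (Wpr_equivar 𝓤 H r B sE lam hlam κ eκ v) (f x)) →
      IsCoboundary₂ f) :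
    ∀ v, ∀ f : (Γ ⧸ U) × (Γ ⧸ U) → Coind (quotMap (r v) U) (inv (U.comap (r v)) (B v)),
      IsCocycle₂ f → IsCoboundary₂ (p • f) →
      IsCoboundary₂ (fun x => Wprc 𝓤 U hU H r B sE lam hlam κ eκ v (f x)) → IsCoboundary₂ f := by
  intro v f hf hpf hpr
  have h1 := hLG v (fun x => (WcoindEquiv (r v) (B v) 𝓤 U hU).symm (f x))
    (TN.isCocycle₂_map (WcoindEquiv (r v) (B v) 𝓤 U hU).symm.toAddMonoidHom
      (WcoindEquiv_symm_smul (r v) (B v) 𝓤 U hU) hf)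
    (by
      have := TN.isCoboundary₂_map (WcoindEquiv (r v) (B v) 𝓤 U hU).symm.toAddMonoidHom
        (WcoindEquiv_symm_smul (r v) (B v) 𝓤 U hU) hpf
      convert this using 1
      funext x
      exact (map_nsmul (WcoindEquiv (r v) (B v) 𝓤 U hU).symm p (f x)).symm)
    hpr
  have h2 := TN.isCoboundary₂_map (WcoindEquiv (r v) (B v) 𝓤 U hU).toAddMonoidHom
    (WcoindEquiv_smul (r v) (B v) 𝓤 U hU) h1
  convert h2 using 1
  funext x
  exact ((WcoindEquiv (r v) (B v) 𝓤 U hU).apply_symm_apply (f x)).symm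

end CV2

end

end Fermat.Agent.S55Lib
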