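import Fermat.Agent.S55.W.Generic

/-!
# S55 chapter W: `ℤ`-bases and finiteness for the canonical resolution `X1 → X0 → N`
-/

set_option autoImplicit false
set_option linter.unusedSectionVars false
set_option linter.unusedVariables false

namespace Fermat.Agent.S55Lib

noncomputable section

open groupCohomology

section WX
variable (Q : Type) [Group Q] (N : Type) [AddCommGroup N] [DistribMulAction Q N]

/-- the tautological `ℤ`-basis of `X0 = ℤ[N × Q]` -/
def WX0.basis : Module.Basis (N × Q) ℤ (WX0 Q N) :=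
  Module.Basis.ofRepr (AddEquiv.refl ((N × Q) →₀ ℤ) : WX0 Q N ≃+ ((N × Q) →₀ ℤ)).toIntLinearEquiv

lemma WX0.basis_apply (t : N × Q) : WX0.basis Q N t = WX0.single Q N t.1 t.2 1 := rfl

instance WX0.instFree : Module.Free ℤ (WX0 Q N) := Module.Free.of_basis (WX0.basis Q N)

instance WX0.instFinite [Finite Q] [Finite N] : Module.Finite ℤ (WX0 Q N) :=
  Module.Finite.of_basis (WX0.basis Q N)

instance WX1.instFinite [Finite Q] [Finite N] : Module.Finite ℤ (WX1 Q N) :=
  Module.Finite.of_injective (WX1.j Q N).toIntLinearMap (WX1.j_injective Q N)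

instance WX1.instFree [Finite Q] [Finite N] : Module.Free ℤ (WX1 Q N) := by
  have : Module.IsTorsionFree ℤ (WX1 Q N) :=
    Function.Injective.moduleIsTorsionFree (WX1.j Q N) (WX1.j_injective Q N)
      (fun n x => map_zsmul _ _ _)
  exact Module.free_of_finite_type_torsion_free'

end WX

section Infl

variable {Γ : Type} [Group Γ] (U : Subgroup Γ) [U.Normal]

lemma WRes.smooth_infl (𝓤 : Lev Γ) (hU : U ∈ 𝓤.mem) (X : Type) [AddCommGroup X]
    [DistribMulAction (Γ ⧸ U) X] : 𝓤.Smooth (WRes (QuotientGroup.mk' U) X) := fun x =>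
  ⟨U, hU, fun s hs => by
    show ((s : Γ ⧸ U)) • (WRes.out _ X x) = WRes.out _ X x
    rw [(QuotientGroup.eq_one_iff s).2 hs, one_smul]⟩

/-- the index set `N × Γ/U` of the basis of `X0`, with its `Γ`-action -/
def WT0 (N : Type) : Type := N × (Γ ⧸ U)

instance WT0.instMulAction (N : Type) : MulAction Γ (WT0 U N) where
  smul γ t := ((t.1, (γ : Γ ⧸ U) * t.2) : N × (Γ ⧸ U))
  one_smul t := by
    show ((t.1, ((1 : Γ) : Γ ⧸ U) * t.2) : N × (Γ ⧸ U)) = t
    rw [QuotientGroup.mk_one, one_mul]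
    rfl
  mul_smul γ γ' t := by
    show ((t.1, ((γ * γ' : Γ) : Γ ⧸ U) * t.2) : N × (Γ ⧸ U)) =
      (t.1, (γ : Γ ⧸ U) * ((γ' : Γ ⧸ U) * t.2))
    rw [QuotientGroup.mk_mul, mul_assoc]

instance WT0.instFinite (N : Type) [Finite N] [Finite (Γ ⧸ U)] : Finite (WT0 U N) :=
  inferInstanceAs (Finite (N × (Γ ⧸ U)))

lemma WT0.stab (N : Type) (γ : Γ) (t : WT0 U N) : γ • t = t ↔ γ ∈ U := by
  rw [← QuotientGroup.eq_one_iff]
  constructor
  · intro h
    have h2 : (γ : Γ ⧸ U) * t.2 = t.2 := congrArg Prod.snd h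
    exact mul_eq_right.1 h2
  · intro h
    show ((t.1, (γ : Γ ⧸ U) * t.2) : N × (Γ ⧸ U)) = t
    rw [h, one_mul]
    rfl

variable (N : Type) [AddCommGroup N] [DistribMulAction (Γ ⧸ U) N]

/-- the permutation basis of `X0` as a `Γ`-module -/
def WT0.basis : Module.Basis (WT0 U N) ℤ (WRes (QuotientGroup.mk' U) (WX0 (Γ ⧸ U) N)) :=
  WX0.basis (Γ ⧸ U) N

lemma WT0.smul_basis (γ : Γ) (t : WT0 U N) : γ • WT0.basis U N t = WT0.basis U N (γ • t) :=
  WX0.smul_single (Γ ⧸ U) N (γ : Γ ⧸ U) t.1 t.2 1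

end Infl

end

end Fermat.Agent.S55Lib
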