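import Fermat.Agent.S55.W.InstA
import Fermat.Agent.S55.W.Resol
import Fermat.Agent.S55.W.Compare
import Fermat.Agent.S55.W.Convert
import Fermat.Agent.S55.B.RootB

/-!
# S55, chapter W: the combined formal theorem `thmAB`
(thmA + Shapiro/Hilbert 90 verification of its hypotheses + comparison of the two `T`'s + thmB)
-/

set_option autoImplicit false
set_option linter.unusedSectionVars false
set_option linter.unusedVariables false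

namespace Fermat.Agent.S55Lib

noncomputable section

open groupCohomology

/-- **Theorem AB** (formal). -/
theorem thmAB (p : ℕ) [Fact p.Prime]
    {Γ : Type} [Group Γ] (𝓤 𝓦 : Lev Γ) (h𝓤𝓦 : 𝓤.mem ⊆ 𝓦.mem)
    (U V : Subgroup Γ) (hU : U ∈ 𝓤.mem) (hV : V ∈ 𝓤.mem) (hUV : U ≤ V) [U.Normal]
    -- the finite modules
    {M N : Type} [AddCommGroup M] [AddCommGroup N] [DistribMulAction Γ M] [DistribMulAction Γ N]
    [Finite M] [Finite N] (hpM : ∀ m : M, p • m = 0) (hpN : ∀ n : N, p • n = 0)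
    (hVM : ∀ s ∈ V, ∀ m : M, s • m = m) (hVN : ∀ s ∈ V, ∀ n : N, s • n = n)
    -- `E`
    {E : Type} [AddCommGroup E] [DistribMulAction Γ E] (sE : 𝓤.Smooth E)
    (hEdiv : ∀ e : E, ∃ e' : E, p • e' = e)
    (Φ : M →+ HomM Γ N E) (eΦ : Equivar Γ Φ) (hΦ : Function.Bijective Φ)
    -- local data
    {ι : Type} [Finite ι] [DecidableEq ι] [Nonempty ι]
    (H : ι → Type) [∀ v, Group (H v)] (r : ∀ v, H v →* Γ)
    (B : ι → Type) [∀ v, AddCommGroup (B v)] [∀ v, DistribMulAction (H v) (B v)]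
    (lam : ∀ v, E →+ B v) (hlam : ∀ v, Compat (r v) (lam v))
    (hlaminj : ∀ v, Function.Injective (lam v))
    (hBdiv : ∀ v, ∀ b ∈ WSm (𝓦.comap (r v)) (B v), ∃ b' ∈ WSm (𝓦.comap (r v)) (B v), p • b' = b)
    (hBtor : ∀ v, ∀ b : B v, p • b = 0 → ∃ e : E, lam v e = b)
    -- Hilbert 90 for the local modules
    (h90 : ∀ v, ∀ W ∈ (𝓦.comap (r v)).mem, ∀ W₁ ∈ (𝓦.comap (r v)).mem, W₁ ≤ W →
      ∀ f : W → B v, IsCocycle₁ f → (∀ (g s : W), (s : H v) ∈ W₁ → f (g * s) = f g) →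
        IsCoboundary₁ f)
    -- `C♯`
    {Cs : Type} [AddCommGroup Cs] [DistribMulAction Γ Cs] (sCs : 𝓤.Smooth Cs)
    (κ : WC 𝓤 H r B sE lam hlam →+ Cs) (eκ : Equivar Γ κ) (hκ : Function.Injective κ)
    (hκtor : ∀ c : Cs, ∃ m : ℕ, m.Coprime p ∧ ∃ c', κ c' = m • c)
    (hH1 : ∀ U₁ ∈ 𝓤.mem, U₁ ≤ U → ∀ f : U → Cs, IsCocycle₁ f →
      (∀ (g s : U), (s : Γ) ∈ U₁ → f (g * s) = f g) → ∃ m : ℕ, m.Coprime p ∧ IsCoboundary₁ (m • f))
    -- class modules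
    (u : (Γ ⧸ U) × (Γ ⧸ U) → inv U Cs) (hCs : IsClassModule p (Γ ⧸ U) (inv U Cs) u)
    (hB3 : ∀ c ∈ inv U Cs, ∃ c' ∈ inv V Cs, ∃ R : Finset Γ,
      (∀ s ∈ V, ∃! t, t ∈ R ∧ t⁻¹ * s ∈ U) ∧ (∀ t ∈ R, t ∈ V) ∧ ∑ t ∈ R, t • c = p • c')
    (uv : ∀ v, (H v ⧸ U.comap (r v)) × (H v ⧸ U.comap (r v)) → inv (U.comap (r v)) (B v))
    (hK : ∀ v, IsClassModule p (H v ⧸ U.comap (r v)) (inv (U.comap (r v)) (B v)) (uv v))
    (hLG : ∀ v, ∀ f : (Γ ⧸ U) × (Γ ⧸ U) → inv U (SCoind (r v) (B v) 𝓤), IsCocycle₂ f →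
      IsCoboundary₂ (p • f) →
      IsCoboundary₂ (fun x => invMap U (Wpr 𝓤 H r B sE lam hlam κ v)
        (Wpr_equivar 𝓤 H r B sE lam hlam κ eκ v) (f x)) →
      IsCoboundary₂ f) :
    Finite (LSha2 𝓤 M H (fun v => 𝓦.comap (r v)) r (fun v => WRes (r v) M)
      (fun v => WRes.mk (r v) M)) ∧
    Nat.card (LSha2 𝓤 M H (fun v => 𝓦.comap (r v)) r (fun v => WRes (r v) M)
      (fun v => WRes.mk (r v) M)) =
    Nat.card (Sha1' (Γ ⧸ U) (WDefl U N (fun s hs n => hVN s (hUV hs) n))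
      (fun v => H v ⧸ U.comap (r v)) (fun v => quotMap (r v) U)) := by
  have hUfi : U.FiniteIndex := 𝓤.finiteIndex U hU
  have hVn : V.Normal := 𝓤.normal V hV
  have hQfin : Finite (Γ ⧸ U) := Subgroup.finite_quotient_of_finiteIndex
  set hN : ∀ s ∈ U, ∀ n : N, s • n = n := fun s hs n => hVN s (hUV hs) n with hNdef
  have hN'fin : Finite (WDefl U N hN) := ‹Finite N›
  have sM : 𝓤.Smooth M := fun m => ⟨V, hV, fun s hs => hVM s hs m⟩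
  have hpN' : ∀ n : WDefl U N hN, p • n = 0 := hpN
  -- Theorem A
  obtain ⟨e1⟩ := W_instA p 𝓤 𝓦 h𝓤𝓦 U hU sM hpM hpN sE hEdiv Φ eΦ hΦ H r B lam hlam hlaminj hBdiv
    hBtor h90 κ eκ hκ hκtor hH1
    (X0 := WRes (QuotientGroup.mk' U) (WX0 (Γ ⧸ U) (WDefl U N hN)))
    (X1 := WRes (QuotientGroup.mk' U) (WX1 (Γ ⧸ U) (WDefl U N hN)))
    (WRes.smooth_infl U 𝓤 hU _) (WRes.smooth_infl U 𝓤 hU _)
    (WjRes U (WX1.j (Γ ⧸ U) (WDefl U N hN)))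
    ((WDefl.out U N hN).comp ((WX0.π (Γ ⧸ U) (WDefl U N hN)).comp (WRes.out _ _)))
    (fun γ x => WX1.j_smul (Γ ⧸ U) (WDefl U N hN) (γ : Γ ⧸ U) x)
    (fun γ x => WX0.π_smul (Γ ⧸ U) (WDefl U N hN) (γ : Γ ⧸ U) x)
    (WX1.j_injective (Γ ⧸ U) (WDefl U N hN))
    (WX1.exact (Γ ⧸ U) (WDefl U N hN))
    (WX0.π_surjective (Γ ⧸ U) (WDefl U N hN))
    (T0 := WT0 U (WDefl U N hN))
    (WT0.basis U (WDefl U N hN)) (WT0.smul_basis U (WDefl U N hN)) (WT0.stab U (WDefl U N hN))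
    (Module.Free.chooseBasis ℤ (WX1 (Γ ⧸ U) (WDefl U N hN)))
  -- comparison
  obtain ⟨e2⟩ := W_compare p 𝓤 U hU (WX1.j (Γ ⧸ U) (WDefl U N hN))
    (WX1.j_smul (Γ ⧸ U) (WDefl U N hN)) (WX1.j_injective (Γ ⧸ U) (WDefl U N hN))
    (fun x => (WX1.exact (Γ ⧸ U) (WDefl U N hN) _).1 (by rw [map_nsmul, hpN']))
    H r B sE lam hlam κ eκ hκ hκtor
  -- Theorem B
  have hVbar : (V.map (QuotientGroup.mk' U)).Normal :=
    Subgroup.Normal.map hVn _ (QuotientGroup.mk'_surjective U)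
  obtain ⟨hfin, hcard⟩ := thmB' (G := Γ ⧸ U) p (V.map (QuotientGroup.mk' U)) (N := WDefl U N hN) hpN'
    (by
      rintro _ ⟨s, hs, rfl⟩ n
      exact hVN s hs n)
    (WX0.isFreeZG (Γ ⧸ U) (WDefl U N hN)) (WX1.j (Γ ⧸ U) (WDefl U N hN))
    (WX0.π (Γ ⧸ U) (WDefl U N hN)) (WX1.j_smul (Γ ⧸ U) (WDefl U N hN))
    (WX0.π_smul (Γ ⧸ U) (WDefl U N hN)) (WX1.j_injective (Γ ⧸ U) (WDefl U N hN))
    (WX1.exact (Γ ⧸ U) (WDefl U N hN)) (WX0.π_surjective (Γ ⧸ U) (WDefl U N hN))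
    u hCs (W_hB3 U V hUV p hB3)
    (fun v => H v ⧸ U.comap (r v)) (fun v => quotMap (r v) U)
    (fun v => quotMap_injective (r v) U)
    (fun v => inv (U.comap (r v)) (B v)) uv hK
    (fun v => Wprc 𝓤 U hU H r B sE lam hlam κ eκ v)
    (fun v => Wprc_smul 𝓤 U hU H r B sE lam hlam κ eκ v)
    (W_hLG p 𝓤 U hU H r B sE lam hlam κ eκ hLG)
  have hc : Nat.card (LSha2 𝓤 M H (fun v => 𝓦.comap (r v)) r (fun v => WRes (r v) M)
      (fun v => WRes.mk (r v) M)) =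
      Nat.card (Sha1' (Γ ⧸ U) (WDefl U N hN)
        (fun v => H v ⧸ U.comap (r v)) (fun v => quotMap (r v) U)) := by
    rw [← hcard]
    exact Nat.card_congr (e1.trans e2).toEquiv
  refine ⟨?_, hc⟩
  apply Nat.finite_of_card_ne_zero
  rw [hc]
  exact Nat.card_pos.ne'

end

end Fermat.Agent.S55Lib
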