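import Fermat.Agent.S55.W.Arith
import Fermat.Agent.S55.W.RootAB
import Fermat.Agent.S55.P.Basic
import Fermat.Agent.S55.P.LevelV
import Fermat.Agent.S55.P.Phi
import Fermat.Agent.S55.P.Sha1
import Fermat.Agent.S55.P.Sha2
import Fermat.Agent.S55.E.Div
import Fermat.Agent.S55.E.Btor
import Fermat.Agent.S55.E.Krasner
import Fermat.Agent.S55.E.H90
import Fermat.Agent.S55.L.Root
import Fermat.Agent.S55.K.Inj
import Fermat.Agent.S55.K.Tor
import Fermat.Agent.S55.G3.TsTors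
import Fermat.Agent.S55.G3.GClassModule
import Fermat.Agent.S55.G3.GH1
import Fermat.Agent.S55.G3.GLG
import Fermat.Agent.S55.GU.Inputs
import Fermat.Agent.S55.GU.Bridge
import Fermat.Statements.S55

/-!
# S55: top-level assembly
-/

set_option autoImplicit false
set_option linter.unusedSectionVars false
set_option linter.unusedVariables false
set_option linter.style.haveILetI false

namespace Fermat.Agent.S55Lib

noncomputable section

open groupCohomology ExtCitation CategoryTheory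

variable {p : ℕ} [Fact p.Prime] (S : Finset Nat.Primes)
  (M : Rep (ZMod p) GQ)

/-! ## the existence theorem -/

/-- existence: the level `U` (field `L''`) -/
theorem G_levelU (hp2 : p ≠ 2) (hpS : pPrime p ∈ S) (V : Subgroup GQ) (hV : V ∈ (levS S).mem)
    (hμ : FixesMu p V) :
    ∃ U ∈ (levS S).mem, U ≤ V ∧
      (∀ (N : Type) [AddCommGroup N] [DistribMulAction GQ N], (∀ n : N, p • n = 0) →
        (∀ s ∈ V, ∀ n : N, s • n = n) → ∀ f ∈ LZ1 (levS S) N, ∀ s ∈ U, f s = 0) ∧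
      (∀ c ∈ inv U (CSh S), ∃ c' ∈ inv V (CSh S), ∃ R : Finset GQ,
        (∀ s ∈ V, ∃! t, t ∈ R ∧ t⁻¹ * s ∈ U) ∧ (∀ t ∈ R, t ∈ V) ∧ ∑ t ∈ R, t • c = p • c') :=
  G_levelU_of S hpS (fun U _ hU hμU => G_classModule S hp2 hpS U hU hμU)
    (hasImage_of S (fun U _ hU hμU x => exists_smul_mem_image S hpS U hU hμU x))
    (g1Inputs p hp2) V hV hμ

/-! ## Assembly -/

theorem card_sha (h : S55Hyp p S M) :
    Finite (sha₂ S M) ∧ Nat.card (sha₁ S (Ndual M)) = Nat.card (sha₂ S M) := by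
  obtain ⟨V, hV, hμV, hVM, hVN⟩ := P_levelV S M h
  obtain ⟨U, hU, hUV, hUN, hB3⟩ := G_levelU S h.hp2 h.hpS V hV hμV
  haveI : U.Normal := (levS S).normal U hU
  have hμU : FixesMu p U := fun s hs => hμV s (hUV hs)
  obtain ⟨Φ, eΦ, hΦ⟩ := P_Phi S M h
  obtain ⟨fM, fN⟩ := P_finite S M h
  obtain ⟨u, hu⟩ := G_classModule (p := p) S h.hp2 h.hpS U hU hμU
  haveI : Nonempty S := ⟨⟨pPrime p, h.hpS⟩⟩
  choose uv huv using fun v : S => L_classModule (p := p) v.1 U (levS_le_levAll S hU)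
  have key := thmAB p (levS S) levAll (levS_le_levAll S) U V hU hV hUV
    (M := RepM M) (N := RepM (Ndual M)) (P_ptors M) (P_ptors (Ndual M)) hVM hVN
    (EA_smooth S) (E_div S h.hpS) Φ eΦ hΦ
    (Hs S) (rs S) (Bs S) (fun v => lamq S v.1) (fun v => lamq_compat S v.1)
    (fun v => lamq_injective S v.1)
    (fun v b hb => E_Bdiv v.1 b hb) (fun v b hb => E_Btor S h.hpS v.1 b hb)
    (fun v W hW W₁ hW₁ hle f hf hc => E_h90 v.1 W hW W₁ hW₁ hle f hf hc)
    (CSh_smooth S) (kapS S) (kapS_equivar S) (K_inj S ⟨_, h.hpS⟩) (K_tor S h.hpS)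
    (fun U₁ hU₁ hle f hf hc => G_H1 S h.hp2 h.hpS U hU hμU U₁ hU₁ hle f hf hc)
    u hu hB3 uv huv
    (fun v f hf hpf h0 => G_LG S h.hp2 h.hpS U hU hμU v f hf hpf h0)
  obtain ⟨e2⟩ := P_sha2 S M h
  obtain ⟨e1⟩ := P_sha1 S M h U hU (fun s hs n => hVN s (hUV hs) n)
    (hUN (RepM (Ndual M)) (P_ptors (Ndual M)) hVN)
  refine ⟨?_, ?_⟩
  · haveI := key.1
    exact Finite.of_equiv _ e2.symm.toEquiv
  · rw [Nat.card_congr e1.toEquiv, Nat.card_congr e2.toEquiv, key.2]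

end

end Fermat.Agent.S55Lib
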