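import Fermat.Agent.S55.W.Generic

/-!
# S55, chapter W: definitions for the combined formal theorem `thmAB`
-/

set_option autoImplicit false
set_option linter.unusedSectionVars false
set_option linter.unusedVariables false

namespace Fermat.Agent.S55Lib

noncomputable section

open groupCohomology

section Defs

variable {Γ : Type} [Group Γ] (𝓤 : Lev Γ)
  {ι : Type} (H : ι → Type) [∀ v, Group (H v)] (r : ∀ v, H v →* Γ)
  (B : ι → Type) [∀ v, AddCommGroup (B v)] [∀ v, DistribMulAction (H v) (B v)]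

/-- `J = ∏_v SCoind_{r_v} B_v` -/
abbrev WJ : Type := ∀ v, SCoind (r v) (B v) 𝓤

variable {E : Type} [AddCommGroup E] [DistribMulAction Γ E]

/-- the diagonal map `E → J`, `e ↦ (g ↦ λ_v (g e))` -/
def WdE (sE : 𝓤.Smooth E) (lam : ∀ v, E →+ B v) (hlam : ∀ v, Compat (r v) (lam v)) :
    E →+ WJ 𝓤 H r B where
  toFun e := fun v => ⟨fun g => lam v (g • e), by
    refine ⟨fun h g => ?_, ?_⟩
    · show lam v ((r v h * g) • e) = h • lam v (g • e)
      rw [mul_smul, hlam v]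
    · obtain ⟨U, hU, hs⟩ := sE e
      exact ⟨U, hU, fun g s hs' => by
        show lam v ((g * s) • e) = lam v (g • e)
        rw [mul_smul, hs s hs']⟩⟩
  map_zero' := by
    funext v; apply Subtype.ext; funext g; simp
  map_add' e e' := by
    funext v; apply Subtype.ext; funext g; simp [smul_add]

lemma WdE_equivar (sE : 𝓤.Smooth E) (lam : ∀ v, E →+ B v) (hlam : ∀ v, Compat (r v) (lam v)) :
    Equivar Γ (WdE 𝓤 H r B sE lam hlam) := by
  intro γ e
  funext v; apply Subtype.ext; funext g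
  show lam v (g • γ • e) = lam v ((g * γ) • e)
  rw [mul_smul]

/-- `C = J / E` -/
abbrev WC (sE : 𝓤.Smooth E) (lam : ∀ v, E →+ B v) (hlam : ∀ v, Compat (r v) (lam v)) : Type :=
  WCoker Γ (WdE 𝓤 H r B sE lam hlam) (WdE_equivar 𝓤 H r B sE lam hlam)

/-- the inclusion of the `v`-th factor -/
def Wsingle [DecidableEq ι] (v : ι) : SCoind (r v) (B v) 𝓤 →+ WJ 𝓤 H r B :=
  AddMonoidHom.single (fun v => SCoind (r v) (B v) 𝓤) v

lemma Wsingle_equivar [DecidableEq ι] (v : ι) : Equivar Γ (Wsingle 𝓤 H r B v) := by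
  intro γ f
  funext w
  by_cases h : w = v
  · subst h
    simp [Wsingle]
  · simp [Wsingle, Pi.single_eq_of_ne h]

/-- the map `SCoind_{r_v} B_v → J → C → C♯` -/
def Wpr [DecidableEq ι] (sE : 𝓤.Smooth E) (lam : ∀ v, E →+ B v)
    (hlam : ∀ v, Compat (r v) (lam v)) {Cs : Type} [AddCommGroup Cs] [DistribMulAction Γ Cs]
    (κ : WC 𝓤 H r B sE lam hlam →+ Cs) (v : ι) : SCoind (r v) (B v) 𝓤 →+ Cs :=
  (κ.comp (WCoker.mk Γ _ (WdE_equivar 𝓤 H r B sE lam hlam))).comp (Wsingle 𝓤 H r B v)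

lemma Wpr_equivar [DecidableEq ι] (sE : 𝓤.Smooth E) (lam : ∀ v, E →+ B v)
    (hlam : ∀ v, Compat (r v) (lam v)) {Cs : Type} [AddCommGroup Cs] [DistribMulAction Γ Cs]
    (κ : WC 𝓤 H r B sE lam hlam →+ Cs) (eκ : Equivar Γ κ) (v : ι) :
    Equivar Γ (Wpr 𝓤 H r B sE lam hlam κ v) := by
  intro γ f
  show κ (WCoker.mk Γ _ _ (Wsingle 𝓤 H r B v (γ • f))) = _
  rw [Wsingle_equivar, WCoker.equivar_mk, eκ]
  rfl

end Defs

/-- an equivariant map restricted to `U`-invariants -/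
def invMap {Γ : Type} [Group Γ] (U : Subgroup Γ) {A A' : Type} [AddCommGroup A] [AddCommGroup A']
    [DistribMulAction Γ A] [DistribMulAction Γ A'] (φ : A →+ A') (hφ : Equivar Γ φ) :
    inv U A →+ inv U A' where
  toFun a := ⟨φ (a : A), fun s hs => by rw [← hφ, a.2 s hs]⟩
  map_zero' := Subtype.ext (map_zero φ)
  map_add' a b := Subtype.ext (map_add φ (a : A) (b : A))

/-- the map `H ⧸ r⁻¹(U) → Γ ⧸ U` induced by `r` -/
def quotMap {Γ H : Type} [Group Γ] [Group H] (r : H →* Γ) (U : Subgroup Γ) [U.Normal] :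
    H ⧸ U.comap r →* Γ ⧸ U :=
  QuotientGroup.map (U.comap r) U r le_rfl

end

end Fermat.Agent.S55Lib
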