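import Fermat.Agent.S55.F.Basic

/-!
# S55 chapter W: inflation in degree 2, permutation modules

* `H1Van 𝓥 W B` : every level 1-cocycle of the subgroup `W` with values in `B` is a coboundary
  (cochains are functions on the whole group, the cocycle condition is only imposed on `W`);
* `W_inf2` : injectivity of inflation in degree 2;
* `W_free1` : `H¹(G, Hom(X,A)) = 0` for a permutation module `X` from the stabilisers;
* `H1Van.homM` : `Hom(X,B)` for `X` a free `ℤ`-module with trivial action of `W`.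
-/

set_option autoImplicit false
set_option linter.unusedSectionVars false
set_option linter.unusedVariables false

namespace Fermat.Agent.S55Lib

open groupCohomology

/-- every level 1-cocycle `W → B` is a coboundary -/
def H1Van {H : Type} [Group H] (𝓥 : Lev H) (W : Subgroup H) (B : Type) [AddCommGroup B]
    [DistribMulAction H B] : Prop :=
  ∀ β : H → B, 𝓥.Const₁ β → (∀ w ∈ W, ∀ w' ∈ W, β (w * w') = w • β w' + β w) →
    ∃ a : B, ∀ w ∈ W, β w = w • a - a

section Inf

variable {H : Type} [Group H] {𝓥 : Lev H} {W : Subgroup H} {N : Type} [AddCommGroup N]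
  [DistribMulAction H N]

/-- **Injectivity of inflation in degree 2.** -/
theorem W_inf2 (hvan : H1Van 𝓥 W N) (f : H × H → N) (hf : IsCocycle₂ f)
    (hfW : ∀ h h' w w', w ∈ W → w' ∈ W → f (h * w, h' * w') = f (h, h'))
    (b : H → N) (hbc : 𝓥.Const₁ b) (hb : ∀ h h', f (h, h') = h • b h' - b (h * h') + b h) :
    ∃ b' : H → N, (∀ h, ∀ w ∈ W, b' (h * w) = b' h) ∧
      ∀ h h', f (h, h') = h • b' h' - b' (h * h') + b' h := by
  set n₀ := f (1, 1) with hn₀
  have h1 : ∀ h, f (h, 1) = h • n₀ := by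
    intro h
    have := hf h 1 1
    simp only [mul_one] at this
    exact add_right_cancel this
  have hW1 : ∀ h, ∀ w ∈ W, f (h, w) = h • n₀ := by
    intro h w hw
    have := hfW h 1 1 w W.one_mem hw
    rw [mul_one, one_mul] at this
    rw [this, h1]
  have hWW : ∀ w ∈ W, ∀ w' ∈ W, f (w, w') = n₀ := by
    intro w hw w' hw'
    have := hfW 1 1 w w' hw hw'
    rwa [one_mul, one_mul] at this
  have hfix : ∀ w ∈ W, w • n₀ = n₀ := by
    intro w hw
    rw [← hW1 w 1 W.one_mem, hWW w hw 1 W.one_mem]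
  obtain ⟨a, ha⟩ := hvan (fun h => b h - n₀) (hbc.comp (fun x => x - n₀)) (by
    intro w hw w' hw'
    have e1 := hb w w'
    rw [hWW w hw w' hw'] at e1
    show b (w * w') - n₀ = w • (b w' - n₀) + (b w - n₀)
    rw [smul_sub, hfix w hw]
    have : b (w * w') = w • b w' + b w - n₀ := by
      conv_rhs => rw [e1]
      abel
    rw [this]; abel)
  refine ⟨fun h => b h - (h • a - a), fun h w hw => ?_, fun h h' => ?_⟩
  · have e1 := hb h w
    rw [hW1 h w hw] at e1
    have e2 : b w = w • a - a + n₀ := by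
      rw [← ha w hw]; abel
    show b (h * w) - ((h * w) • a - a) = b h - (h • a - a)
    have e3 : b (h * w) = h • b w + b h - h • n₀ := by
      rw [e1]; abel
    rw [e3, e2, mul_smul, smul_add, smul_sub]
    abel
  · show f (h, h') = h • (b h' - (h' • a - a)) - (b (h * h') - ((h * h') • a - a))
      + (b h - (h • a - a))
    rw [hb, mul_smul, smul_sub, smul_sub]
    abel

end Inf

section Free

variable {G : Type} [Group G] {T : Type} {X : Type} [AddCommGroup X]
  [DistribMulAction G X] {A : Type} [AddCommGroup A] [DistribMulAction G A]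

/-- two elements of `HomM` agreeing on a `ℤ`-basis are equal -/
lemma HomM.ext_basis (bs : Module.Basis T ℤ X) {φ ψ : HomM G X A}
    (h : ∀ t, φ (bs t) = ψ (bs t)) : φ = ψ := by
  have : φ.toHom.toIntLinearMap = ψ.toHom.toIntLinearMap := bs.ext h
  ext x
  exact congrArg (fun l : X →ₗ[ℤ] A => l x) this

/-- an element of `HomM` with prescribed values on a `ℤ`-basis -/
noncomputable def HomM.ofBasis (bs : Module.Basis T ℤ X) (v : T → A) : HomM G X A :=
  HomM.of (bs.constr ℤ v).toAddMonoidHom

@[simp] lemma HomM.ofBasis_apply (bs : Module.Basis T ℤ X) (v : T → A) (t : T) :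
    (HomM.ofBasis bs v : HomM G X A) (bs t) = v t := by
  show bs.constr ℤ v (bs t) = v t
  exact bs.constr_basis ℤ v t

/-- **`H¹` of `Hom(permutation module, A)`** is controlled by the stabilisers. -/
theorem W_free1 [MulAction G T] (bs : Module.Basis T ℤ X) (hbs : ∀ (g : G) (t : T), g • bs t = bs (g • t))
    (F : G → HomM G X A) (hF : IsCocycle₁ F)
    (hloc : ∀ t : T, ∃ a : A, ∀ s : G, s • t = t → F s (bs t) = s • a - a) :
    IsCoboundary₁ F := by
  classical
  choose a ha using hloc
  -- orbit representatives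
  let ρ : T → T := fun t => (Quotient.mk (MulAction.orbitRel G T) t).out
  have hρ : ∀ t, ∃ g : G, g • ρ t = t := by
    intro t
    have h1 : (MulAction.orbitRel G T) (ρ t) t := Quotient.exact (Quotient.out_eq _)
    have h2 : ρ t ∈ MulAction.orbit G t := MulAction.orbitRel_apply.1 h1
    obtain ⟨g, hg⟩ := h2
    refine ⟨g⁻¹, ?_⟩
    rw [← hg]
    show g⁻¹ • g • t = t
    rw [inv_smul_smul]
  choose η hη using hρ
  have hρsmul : ∀ (g : G) (t : T), ρ (g • t) = ρ t := by
    intro g t
    show (Quotient.mk (MulAction.orbitRel G T) (g • t)).out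
      = (Quotient.mk (MulAction.orbitRel G T) t).out
    congr 1
    apply Quotient.sound
    exact MulAction.orbitRel_apply.2 ⟨g, rfl⟩
  have hcoc : ∀ γ δ x, F (γ * δ) x = γ • F δ (γ⁻¹ • x) + F γ x := by
    intro γ δ x
    rw [hF γ δ]
    rfl
  -- independence of the choice of `η`
  have key : ∀ (t : T) (g : G), g • ρ t = t →
      η t • a (ρ t) - F (η t) (bs t) = g • a (ρ t) - F g (bs t) := by
    intro t g hg
    set s := g⁻¹ * η t with hs
    have hst : s • ρ t = ρ t := by
      rw [hs, mul_smul, hη]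
      exact inv_smul_eq_iff.2 hg.symm
    have h1 : η t = g * s := by rw [hs, mul_inv_cancel_left]
    have h2 := ha (ρ t) s hst
    have h3 : g⁻¹ • bs t = bs (ρ t) := by
      rw [hbs, inv_smul_eq_iff.2 hg.symm]
    rw [h1, hcoc, h3, h2, mul_smul, smul_sub]
    abel
  refine ⟨HomM.ofBasis bs (fun t => η t • a (ρ t) - F (η t) (bs t)), fun γ => ?_⟩
  apply HomM.ext_basis bs
  intro t
  rw [HomM.sub_apply, HomM.smul_apply, hbs, HomM.ofBasis_apply, HomM.ofBasis_apply]
  have e1 : γ⁻¹ • t = (γ⁻¹ * η t) • ρ (γ⁻¹ • t) := by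
    rw [hρsmul, mul_smul, hη]
  have e2 := key (γ⁻¹ • t) (γ⁻¹ * η t) e1.symm
  rw [e2, hρsmul, smul_sub, smul_smul, mul_inv_cancel_left]
  have e3 := hcoc γ (γ⁻¹ * η t) (bs t)
  rw [mul_inv_cancel_left, hbs] at e3
  rw [e3]
  abel

end Free

section HomVan

variable {H : Type} [Group H] {𝓥 : Lev H} {W : Subgroup H} {T : Type} {X : Type} [AddCommGroup X]
  [DistribMulAction H X] {B : Type} [AddCommGroup B] [DistribMulAction H B]

/-- `H¹(W, Hom(X,B)) = 0` if `H¹(W,B) = 0`, `X` is `ℤ`-free and `W` acts trivially on `X`. -/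
theorem H1Van.homM (hvan : H1Van 𝓥 W B) (bs : Module.Basis T ℤ X)
    (htriv : ∀ w ∈ W, ∀ x : X, w • x = x) : H1Van 𝓥 W (HomM H X B) := by
  intro β hβc hβ
  have h1 : ∀ t : T, ∃ a : B, ∀ w ∈ W, β w (bs t) = w • a - a := by
    intro t
    refine hvan (fun h => β h (bs t)) (hβc.comp (fun φ : HomM H X B => φ (bs t))) ?_
    intro w hw w' hw'
    show β (w * w') (bs t) = w • β w' (bs t) + β w (bs t)
    rw [hβ w hw w' hw', HomM.add_apply, HomM.smul_apply, htriv w⁻¹ (W.inv_mem hw)]
  choose a ha using h1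
  refine ⟨HomM.ofBasis bs a, fun w hw => ?_⟩
  apply HomM.ext_basis bs
  intro t
  rw [HomM.sub_apply, HomM.smul_apply, htriv w⁻¹ (W.inv_mem hw), HomM.ofBasis_apply, ha t w hw]

end HomVan

end Fermat.Agent.S55Lib
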