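import Fermat.Agent.S55.F.RootF
import Fermat.Agent.S55.RootDefs
import Fermat.Agent.S55.LevComap

/-!
# S55, chapter W (wiring): generic module constructions
`WRes` (restriction along a hom), `WSm` (smooth part), `WCoker` (cokernel of an equivariant map),
`WDefl` (a `Γ`-module with trivial `U`-action as a `Γ ⧸ U`-module), `WX0`, `WX1` (the canonical
free resolution `0 → X1 → X0 = ℤ[N × Q] → N → 0` of a `Q`-module `N`).
-/

set_option autoImplicit false
set_option linter.unusedSectionVars false
set_option linter.unusedVariables false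

namespace Fermat.Agent.S55Lib

noncomputable section

open groupCohomology

/-! ### restriction along a homomorphism -/

/-- `A` as an `H`-module through `r : H →* G` -/
@[nolint unusedArguments]
def WRes {G H : Type} [Group G] [Group H] (_r : H →* G) (A : Type) : Type := A

section WRes
variable {G H : Type} [Group G] [Group H] (r : H →* G) (A : Type) [AddCommGroup A]

instance : AddCommGroup (WRes r A) := inferInstanceAs (AddCommGroup A)

instance [DistribMulAction G A] : DistribMulAction H (WRes r A) :=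
  DistribMulAction.compHom A r

/-- the identity `A → WRes r A` -/
def WRes.mk : A →+ WRes r A := AddMonoidHom.id A
/-- the identity `WRes r A → A` -/
def WRes.out : WRes r A →+ A := AddMonoidHom.id A

@[simp] lemma WRes.out_mk (a : A) : WRes.out r A (WRes.mk r A a) = a := rfl
@[simp] lemma WRes.mk_out (a : WRes r A) : WRes.mk r A (WRes.out r A a) = a := rfl

lemma WRes.smul_mk [DistribMulAction G A] (h : H) (a : A) :
    h • WRes.mk r A a = WRes.mk r A (r h • a) := rfl

lemma WRes.compat_mk [DistribMulAction G A] : Compat r (WRes.mk r A) := fun _ _ => rfl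

end WRes

/-! ### smooth part -/

section WSm
variable {G : Type} [Group G] (𝓤 : Lev G) (A : Type) [AddCommGroup A] [DistribMulAction G A]

/-- the smooth vectors -/
def WSm : AddSubgroup A where
  carrier := {a | ∃ U ∈ 𝓤.mem, ∀ s ∈ U, s • a = a}
  zero_mem' := by
    obtain ⟨U, hU⟩ := 𝓤.nonempty
    exact ⟨U, hU, fun s _ => smul_zero s⟩
  add_mem' := by
    rintro a b ⟨U, hU, ha⟩ ⟨V, hV, hb⟩
    obtain ⟨W, hW, h1, h2⟩ := 𝓤.directed U hU V hV
    exact ⟨W, hW, fun s hs => by rw [smul_add, ha s (h1 hs), hb s (h2 hs)]⟩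
  neg_mem' := by
    rintro a ⟨U, hU, ha⟩
    exact ⟨U, hU, fun s hs => by rw [smul_neg, ha s hs]⟩

instance : DistribMulAction G (WSm 𝓤 A) where
  smul g a := ⟨g • (a : A), by
    obtain ⟨U, hU, ha⟩ := a.2
    have := 𝓤.normal U hU
    exact ⟨U, hU, smul_mem_inv (N := U) g ha⟩⟩
  one_smul a := Subtype.ext (one_smul G (a : A))
  mul_smul g h a := Subtype.ext (mul_smul g h (a : A))
  smul_zero g := Subtype.ext (smul_zero g)
  smul_add g a b := Subtype.ext (smul_add g (a : A) (b : A))

@[simp] lemma WSm.coe_smul (g : G) (a : WSm 𝓤 A) : ((g • a : WSm 𝓤 A) : A) = g • (a : A) := rfl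

lemma WSm.smooth : 𝓤.Smooth (WSm 𝓤 A) := by
  rintro ⟨a, U, hU, ha⟩
  exact ⟨U, hU, fun s hs => Subtype.ext (ha s hs)⟩

end WSm

/-! ### cokernels -/

section WCoker
variable (G : Type) [Group G] {A B : Type} [AddCommGroup A] [AddCommGroup B]
  [DistribMulAction G A] [DistribMulAction G B]

/-- the cokernel of an equivariant map, as a `G`-module -/
@[nolint unusedArguments]
def WCoker (j : A →+ B) (_hj : Equivar G j) : Type := B ⧸ j.range

variable (j : A →+ B) (hj : Equivar G j)

instance : AddCommGroup (WCoker G j hj) := inferInstanceAs (AddCommGroup (B ⧸ j.range))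

/-- the projection -/
def WCoker.mk : B →+ WCoker G j hj := QuotientAddGroup.mk' j.range

lemma WCoker.mk_surjective : Function.Surjective (WCoker.mk G j hj) :=
  QuotientAddGroup.mk'_surjective _

lemma WCoker.mk_eq_zero {b : B} : WCoker.mk G j hj b = 0 ↔ ∃ a, j a = b := by
  show (QuotientAddGroup.mk b : B ⧸ j.range) = 0 ↔ _
  rw [QuotientAddGroup.eq_zero_iff]; rfl

instance : DistribMulAction G (WCoker G j hj) where
  smul g c := Quotient.map' (fun b : B => g • b) (by
    intro x y hxy
    rw [QuotientAddGroup.leftRel_apply] at hxy ⊢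
    obtain ⟨a, ha⟩ := hxy
    exact ⟨g • a, by rw [hj, ha, smul_add, smul_neg]⟩) c
  one_smul c := by
    induction c using QuotientAddGroup.induction_on with
    | H x => exact congrArg (QuotientAddGroup.mk) (one_smul G x)
  mul_smul g h c := by
    induction c using QuotientAddGroup.induction_on with
    | H x => exact congrArg (QuotientAddGroup.mk) (mul_smul g h x)
  smul_zero g := congrArg (QuotientAddGroup.mk) (smul_zero g)
  smul_add g c d := by
    induction c using QuotientAddGroup.induction_on with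
    | H x =>
      induction d using QuotientAddGroup.induction_on with
      | H y => exact congrArg (QuotientAddGroup.mk) (smul_add g x y)

lemma WCoker.equivar_mk : Equivar G (WCoker.mk G j hj) := fun _ _ => rfl

lemma WCoker.ses (hinj : Function.Injective j) : SES j (WCoker.mk G j hj) :=
  ⟨hinj, fun _ => WCoker.mk_eq_zero G j hj, WCoker.mk_surjective G j hj⟩

end WCoker

/-! ### deflation -/

section WDefl
variable {G : Type} [Group G] (U : Subgroup G) [U.Normal] (A : Type) [AddCommGroup A]
  [DistribMulAction G A]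

/-- a `G`-module with trivial `U`-action, as a `G ⧸ U`-module -/
@[nolint unusedArguments]
def WDefl (_h : ∀ s ∈ U, ∀ a : A, s • a = a) : Type := A

variable (h : ∀ s ∈ U, ∀ a : A, s • a = a)

instance : AddCommGroup (WDefl U A h) := inferInstanceAs (AddCommGroup A)

/-- the identity -/
def WDefl.mk : A →+ WDefl U A h := AddMonoidHom.id A
/-- the identity -/
def WDefl.out : WDefl U A h →+ A := AddMonoidHom.id A

instance : DistribMulAction (G ⧸ U) (WDefl U A h) where
  smul q a := Quotient.liftOn' q (fun g => WDefl.mk U A h (g • WDefl.out U A h a)) (by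
    intro g g' hgg
    have h1 : g⁻¹ * g' ∈ U := QuotientGroup.leftRel_apply.1 hgg
    have h2 := h _ h1 (WDefl.out U A h a)
    show g • WDefl.out U A h a = g' • WDefl.out U A h a
    calc g • WDefl.out U A h a = g • (g⁻¹ * g') • WDefl.out U A h a := by rw [h2]
      _ = g' • WDefl.out U A h a := by simp only [smul_smul]; group)
  one_smul a := one_smul G (WDefl.out U A h a)
  mul_smul q r a := by
    induction q using QuotientGroup.induction_on with
    | H g =>
      induction r using QuotientGroup.induction_on with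
      | H g' => exact mul_smul g g' (WDefl.out U A h a)
  smul_zero q := by
    induction q using QuotientGroup.induction_on with
    | H g => exact smul_zero (A := A) g
  smul_add q a b := by
    induction q using QuotientGroup.induction_on with
    | H g => exact smul_add g (WDefl.out U A h a) (WDefl.out U A h b)

lemma WDefl.mk_smul (g : G) (a : A) :
    (g : G ⧸ U) • WDefl.mk U A h a = WDefl.mk U A h (g • a) := rfl

end WDefl

/-! ### the canonical resolution -/

section WX
variable (Q : Type) [Group Q] (N : Type) [AddCommGroup N] [DistribMulAction Q N]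

/-- `X0 = ℤ[N × Q]`, free over `ℤ[Q]` on the set `N` -/
def WX0 : Type := (N × Q) →₀ ℤ

instance : AddCommGroup (WX0 Q N) := inferInstanceAs (AddCommGroup ((N × Q) →₀ ℤ))

/-- basis vectors -/
def WX0.single (n : N) (g : Q) (k : ℤ) : WX0 Q N := Finsupp.single (n, g) k

instance : DistribMulAction Q (WX0 Q N) where
  smul g x := Finsupp.mapDomain (fun ng : N × Q => (ng.1, g * ng.2)) (x : (N × Q) →₀ ℤ)
  one_smul x := by
    show Finsupp.mapDomain (fun ng : N × Q => (ng.1, 1 * ng.2)) (x : (N × Q) →₀ ℤ) = x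
    simp only [one_mul]
    exact Finsupp.mapDomain_id
  mul_smul g h x := by
    have := @Finsupp.mapDomain_comp (N × Q) (N × Q) (N × Q) ℤ _ x
      (fun ng : N × Q => (ng.1, h * ng.2)) (fun ng : N × Q => (ng.1, g * ng.2))
    refine Eq.trans ?_ this
    show Finsupp.mapDomain (fun ng : N × Q => (ng.1, g * h * ng.2)) (x : (N × Q) →₀ ℤ) = _
    congr 1
    funext ng
    simp [mul_assoc]
  smul_zero g := Finsupp.mapDomain_zero
  smul_add g x y := Finsupp.mapDomain_add

lemma WX0.smul_single (g : Q) (n : N) (h : Q) (k : ℤ) :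
    g • WX0.single Q N n h k = WX0.single Q N n (g * h) k :=
  Finsupp.mapDomain_single

/-- the augmentation `X0 → N`, `[n, g] ↦ g • n` -/
def WX0.π : WX0 Q N →+ N :=
  Finsupp.liftAddHom (fun ng : N × Q => (zmultiplesHom N) (ng.2 • ng.1))

lemma WX0.π_single (n : N) (g : Q) (k : ℤ) : WX0.π Q N (WX0.single Q N n g k) = k • (g • n) := by
  show (Finsupp.liftAddHom fun ng : N × Q => (zmultiplesHom N) (ng.2 • ng.1))
    (Finsupp.single (n, g) k) = _
  rw [Finsupp.liftAddHom_apply_single]
  rfl

/-- `X1 = ker (X0 → N)` -/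
def WX1 : Type := ↥(WX0.π Q N).ker

instance : AddCommGroup (WX1 Q N) := inferInstanceAs (AddCommGroup ↥(WX0.π Q N).ker)

/-- the inclusion `X1 → X0` -/
def WX1.j : WX1 Q N →+ WX0 Q N := (WX0.π Q N).ker.subtype

lemma WX0.induction {P : WX0 Q N → Prop} (x : WX0 Q N) (h0 : P 0)
    (hadd : ∀ x y, P x → P y → P (x + y)) (hs : ∀ n g k, P (WX0.single Q N n g k)) : P x :=
  Finsupp.induction_linear (motive := fun x : (N × Q) →₀ ℤ => P x) x h0 hadd
    (fun a k => hs a.1 a.2 k)

lemma WX0.π_smul (g : Q) (x : WX0 Q N) : WX0.π Q N (g • x) = g • WX0.π Q N x := by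
  induction x using WX0.induction with
  | h0 => rw [smul_zero, map_zero, smul_zero]
  | hadd x y hx hy => rw [smul_add, map_add, map_add, smul_add, hx, hy]
  | hs n h k => rw [WX0.smul_single, WX0.π_single, WX0.π_single, mul_smul, smul_comm g k]

instance : DistribMulAction Q (WX1 Q N) where
  smul g x := ⟨g • (x.1 : WX0 Q N), by
    rw [AddMonoidHom.mem_ker, WX0.π_smul, AddMonoidHom.mem_ker.1 x.2, smul_zero]⟩
  one_smul x := Subtype.ext (one_smul Q (x.1 : WX0 Q N))
  mul_smul g h x := Subtype.ext (mul_smul g h (x.1 : WX0 Q N))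
  smul_zero g := Subtype.ext (smul_zero (A := WX0 Q N) g)
  smul_add g x y := Subtype.ext (smul_add g (x.1 : WX0 Q N) (y.1 : WX0 Q N))

lemma WX1.j_smul (g : Q) (x : WX1 Q N) : WX1.j Q N (g • x) = g • WX1.j Q N x := rfl
lemma WX1.j_injective : Function.Injective (WX1.j Q N) := Subtype.val_injective
lemma WX1.exact (x : WX0 Q N) : WX0.π Q N x = 0 ↔ ∃ y, WX1.j Q N y = x :=
  ⟨fun h => ⟨⟨x, h⟩, rfl⟩, fun ⟨y, hy⟩ => hy ▸ y.2⟩
lemma WX0.π_surjective : Function.Surjective (WX0.π Q N) := fun n =>
  ⟨WX0.single Q N n 1 1, by rw [WX0.π_single]; simp⟩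

theorem WX0.isFreeZG [Finite N] : IsFreeZG Q (WX0 Q N) := by
  classical
  obtain ⟨n, ⟨ε⟩⟩ := Finite.exists_equiv_fin N
  refine ⟨n, fun i => WX0.single Q N (ε.symm i) 1 1, ?_⟩
  let Ψ : ((Fin n × Q) →₀ ℤ) ≃+ WX0 Q N := Finsupp.domCongr (ε.symm.prodCongr (Equiv.refl Q))
  let Λ : ((Fin n × Q) →₀ ℤ) →+ WX0 Q N :=
    Finsupp.liftAddHom (fun ig : Fin n × Q =>
      (zmultiplesHom (WX0 Q N)) (ig.2 • WX0.single Q N (ε.symm ig.1) 1 1))
  have hΛ : Λ = Ψ.toAddMonoidHom := by
    apply Finsupp.addHom_ext
    intro a k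
    show Λ (Finsupp.single a k) = Ψ (Finsupp.single a k)
    rw [Finsupp.liftAddHom_apply_single, WX0.smul_single, mul_one]
    show k • (Finsupp.single (ε.symm a.1, a.2) (1 : ℤ) : (N × Q) →₀ ℤ)
      = Finsupp.equivMapDomain (ε.symm.prodCongr (Equiv.refl Q)) (Finsupp.single a k)
    rw [Finsupp.smul_single, smul_eq_mul, mul_one, Finsupp.equivMapDomain_single]
    rfl
  have : (fun c : (Fin n × Q) →₀ ℤ =>
      c.sum fun ig k => k • (ig.2 • WX0.single Q N (ε.symm ig.1) 1 1)) = Ψ := by
    funext c
    have h1 : Λ c = Ψ c := by rw [hΛ]; rfl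
    rw [← h1]
    rfl
  rw [this]
  exact Ψ.bijective

end WX

end

end Fermat.Agent.S55Lib
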