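import Fermat.Agent.S55.W.SCoind

/-!
# S55 chapter W: `Hom(X, SCoind B) ≃ SCoind (Hom(X,B))`, products, transport

* `HomM.smooth` : `Hom(X,A)` is smooth for `X` finitely generated smooth and `A` smooth;
* `W_theta` : the `G`-isomorphism `Hom(X, SCoind r B 𝓤) ≃+ SCoind r (Hom(X,B)) 𝓤`;
* products of modules and coboundaries.
-/

set_option autoImplicit false
set_option linter.unusedSectionVars false
set_option linter.unusedVariables false

namespace Fermat.Agent.S55Lib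

open groupCohomology

section Smooth

variable {G : Type} [Group G] {𝓤 : Lev G} {X : Type} [AddCommGroup X] [DistribMulAction G X]
  {A : Type} [AddCommGroup A] [DistribMulAction G A]

/-- two additive maps agreeing on a generating set are equal -/
lemma W_ext_of_span {Y : Type} [AddCommGroup Y] {S : Set X} (hS : Submodule.span ℤ S = ⊤)
    {φ ψ : X →+ Y} (h : ∀ x ∈ S, φ x = ψ x) : φ = ψ := by
  have : φ.toIntLinearMap = ψ.toIntLinearMap := LinearMap.ext_on hS h
  ext x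
  exact congrArg (fun l : X →ₗ[ℤ] Y => l x) this

/-- a finitely generated smooth module is fixed by a level -/
lemma Lev.Smooth.exists_triv (hX : 𝓤.Smooth X) [Module.Finite ℤ X] :
    ∃ U ∈ 𝓤.mem, ∀ s ∈ U, ∀ x : X, s • x = x := by
  obtain ⟨S, hS⟩ := (Module.Finite.fg_top : (⊤ : Submodule ℤ X).FG)
  obtain ⟨U, hU, h⟩ := hX.exists_level S.finite_toSet
  refine ⟨U, hU, fun s hs x => ?_⟩
  have : DistribSMul.toAddMonoidHom X s = AddMonoidHom.id X :=
    W_ext_of_span hS (fun x hx => h x hx s hs)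
  exact congrArg (fun l : X →+ X => l x) this

/-- `Hom(X,A)` is smooth -/
lemma HomM.smooth (hX : 𝓤.Smooth X) [Module.Finite ℤ X] (hA : 𝓤.Smooth A) :
    𝓤.Smooth (HomM G X A) := by
  intro φ
  obtain ⟨S, hS⟩ := (Module.Finite.fg_top : (⊤ : Submodule ℤ X).FG)
  obtain ⟨U₁, hU₁, h₁⟩ := hX.exists_triv
  obtain ⟨U₂, hU₂, h₂⟩ := hA.exists_level (S.finite_toSet.image (fun x => φ x))
  obtain ⟨U, hU, hUU₁, hUU₂⟩ := 𝓤.directed U₁ hU₁ U₂ hU₂
  refine ⟨U, hU, fun s hs => ?_⟩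
  have : (s • φ).toHom = φ.toHom := by
    apply W_ext_of_span hS
    intro x hx
    show s • φ (s⁻¹ • x) = φ x
    rw [h₁ s⁻¹ (U₁.inv_mem (hUU₁ hs)) x]
    exact h₂ _ ⟨x, hx, rfl⟩ s (hUU₂ hs)
  exact this

end Smooth

section Theta

variable {G H : Type} [Group G] [Group H] {r : H →* G} {B : Type} [AddCommGroup B]
  [DistribMulAction H B] {𝓤 : Lev G} {X : Type} [AddCommGroup X] [DistribMulAction G X]
  [DistribMulAction H X]

/-- the function `g ↦ (x ↦ φ (g⁻¹ x) (g))` -/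
def W_thetaFun (φ : HomM G X (SCoind r B 𝓤)) (g : G) : HomM H X B :=
  HomM.of
    { toFun := fun x => (φ (g⁻¹ • x) : G → B) g
      map_zero' := by rw [smul_zero, map_zero]; rfl
      map_add' := fun x y => by rw [smul_add, map_add]; rfl }

@[simp] lemma W_thetaFun_apply (φ : HomM G X (SCoind r B 𝓤)) (g : G) (x : X) :
    W_thetaFun φ g x = (φ (g⁻¹ • x) : G → B) g := rfl

lemma W_thetaFun_mem (hHX : ∀ (h : H) (x : X), h • x = r h • x) (hX : 𝓤.Smooth X)
    [Module.Finite ℤ X] (φ : HomM G X (SCoind r B 𝓤)) :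
    W_thetaFun φ ∈ SCoind r (HomM H X B) 𝓤 := by
  refine ⟨fun h g => ?_, ?_⟩
  · ext x
    rw [HomM.smul_apply, W_thetaFun_apply, W_thetaFun_apply, SCoind.equivar, hHX, map_inv,
      mul_inv_rev, mul_smul]
  · obtain ⟨U₁, hU₁, h₁⟩ := hX.exists_triv
    obtain ⟨U₂, hU₂, h₂⟩ := HomM.smooth hX (SCoind.smooth (r := r) (N := B) (𝓤 := 𝓤)) φ
    obtain ⟨U, hU, hUU₁, hUU₂⟩ := 𝓤.directed U₁ hU₁ U₂ hU₂
    refine ⟨U, hU, fun g s hs => ?_⟩
    ext x
    rw [W_thetaFun_apply, W_thetaFun_apply, mul_inv_rev, mul_smul,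
      h₁ s⁻¹ (U₁.inv_mem (hUU₁ hs))]
    have e := congrArg (fun ψ : HomM G X (SCoind r B 𝓤) => (ψ (g⁻¹ • x) : G → B) g)
      (h₂ s (hUU₂ hs))
    simp only [HomM.smul_apply, SCoind.smul_apply, h₁ s⁻¹ (U₁.inv_mem (hUU₁ hs))] at e
    exact e

/-- the inverse construction `x ↦ (g ↦ ψ g (g x))` -/
lemma W_thetaInv_mem (hHX : ∀ (h : H) (x : X), h • x = r h • x) (hX : 𝓤.Smooth X)
    (ψ : SCoind r (HomM H X B) 𝓤) (x : X) :
    (fun g => (ψ : G → HomM H X B) g (g • x)) ∈ SCoind r B 𝓤 := by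
  refine ⟨fun h g => ?_, ?_⟩
  · show (ψ : G → HomM H X B) (r h * g) ((r h * g) • x) = h • (ψ : G → HomM H X B) g (g • x)
    rw [SCoind.equivar, HomM.smul_apply, hHX, map_inv, mul_smul, inv_smul_smul]
  · obtain ⟨U₁, hU₁, h₁⟩ := hX x
    obtain ⟨U₂, hU₂, h₂⟩ := ψ.2.2
    obtain ⟨U, hU, hUU₁, hUU₂⟩ := 𝓤.directed U₁ hU₁ U₂ hU₂
    refine ⟨U, hU, fun g s hs => ?_⟩
    show (ψ : G → HomM H X B) (g * s) ((g * s) • x) = (ψ : G → HomM H X B) g (g • x)
    rw [h₂ g s (hUU₂ hs), mul_smul, h₁ s (hUU₁ hs)]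

/-- **`Hom(X, SCoind B) ≃ SCoind (Hom(X,B))`** -/
def W_theta (hHX : ∀ (h : H) (x : X), h • x = r h • x) (hX : 𝓤.Smooth X) [Module.Finite ℤ X] :
    HomM G X (SCoind r B 𝓤) ≃+ SCoind r (HomM H X B) 𝓤 where
  toFun φ := ⟨W_thetaFun φ, W_thetaFun_mem hHX hX φ⟩
  invFun ψ := HomM.of
    { toFun := fun x => ⟨_, W_thetaInv_mem hHX hX ψ x⟩
      map_zero' := SCoind.ext fun g => by
        show (ψ : G → HomM H X B) g (g • (0 : X)) = 0
        rw [smul_zero, map_zero]
      map_add' := fun x y => SCoind.ext fun g => by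
        show (ψ : G → HomM H X B) g (g • (x + y))
          = (ψ : G → HomM H X B) g (g • x) + (ψ : G → HomM H X B) g (g • y)
        rw [smul_add, map_add] }
  left_inv φ := by
    ext x g
    show (φ (g⁻¹ • g • x) : G → B) g = (φ x : G → B) g
    rw [inv_smul_smul]
  right_inv ψ := by
    apply SCoind.ext
    intro g
    ext x
    show (ψ : G → HomM H X B) g (g • g⁻¹ • x) = (ψ : G → HomM H X B) g x
    rw [smul_inv_smul]
  map_add' φ φ' := rfl

@[simp] lemma W_theta_apply (hHX : ∀ (h : H) (x : X), h • x = r h • x) (hX : 𝓤.Smooth X)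
    [Module.Finite ℤ X] (φ : HomM G X (SCoind r B 𝓤)) (g : G) (x : X) :
    ((W_theta hHX hX φ : SCoind r (HomM H X B) 𝓤) : G → HomM H X B) g x
      = (φ (g⁻¹ • x) : G → B) g := rfl

lemma W_theta_compat (hHX : ∀ (h : H) (x : X), h • x = r h • x) (hX : 𝓤.Smooth X)
    [Module.Finite ℤ X] :
    Compat (MonoidHom.id G) (W_theta (r := r) (B := B) hHX hX).toAddMonoidHom := by
  intro γ φ
  apply SCoind.ext
  intro g
  ext x
  show ((γ • φ) (g⁻¹ • x) : G → B) g = (φ ((g * γ)⁻¹ • x) : G → B) (g * γ)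
  rw [HomM.smul_apply, SCoind.smul_apply, mul_inv_rev, mul_smul]

end Theta

section Transport

variable {G : Type} [Group G] {𝓤 : Lev G} {A A' : Type} [AddCommGroup A] [DistribMulAction G A]
  [AddCommGroup A'] [DistribMulAction G A']

lemma W_compat_symm (e : A ≃+ A') (he : Compat (MonoidHom.id G) e.toAddMonoidHom) :
    Compat (MonoidHom.id G) e.symm.toAddMonoidHom := by
  intro g a
  apply e.injective
  have := he g (e.symm a)
  show e (e.symm (g • a)) = e (g • e.symm a)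
  rw [e.apply_symm_apply]
  have h2 : e (g • e.symm a) = g • e (e.symm a) := this
  rw [h2, e.apply_symm_apply]

/-- transport of 1-coboundaries along an equivariant isomorphism -/
lemma W_isCoboundary₁_of_equiv (e : A ≃+ A') (he : Compat (MonoidHom.id G) e.toAddMonoidHom)
    {F : G → A} (h : IsCoboundary₁ (fun g => e (F g))) : IsCoboundary₁ F := by
  have := (W_compat_symm e he).lvCoboundary₁ h
  simpa using this

/-- transport of level 2-coboundaries along an equivariant isomorphism -/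
lemma W_mem_LB2_of_equiv (e : A ≃+ A') (he : Compat (MonoidHom.id G) e.toAddMonoidHom)
    {F : G × G → A} (h : (fun x => e (F x)) ∈ LB2 𝓤 A') : F ∈ LB2 𝓤 A := by
  have := pull₂_mem_LB2 (Lev.cont_id 𝓤) (W_compat_symm e he) h
  have h2 : pull₂ (MonoidHom.id G) e.symm.toAddMonoidHom (fun x => e (F x)) = F := by
    funext x
    simp
  rwa [h2] at this

end Transport

section Products

variable {G : Type} [Group G] {𝓤 : Lev G} {ι : Type} {A : ι → Type} [∀ v, AddCommGroup (A v)]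
  [∀ v, DistribMulAction G (A v)]

lemma W_pi_isCoboundary₁ {F : G → ∀ v, A v} (h : ∀ v, IsCoboundary₁ (fun g => F g v)) :
    IsCoboundary₁ F := by
  choose a ha using h
  exact ⟨a, fun g => funext fun v => ha v g⟩

lemma Lev.exists_le_of_finite [Finite ι] (U : ι → Subgroup G) (hU : ∀ v, U v ∈ 𝓤.mem) :
    ∃ W ∈ 𝓤.mem, ∀ v, W ≤ U v := by
  classical
  have key : ∀ s : Finset ι, ∃ W ∈ 𝓤.mem, ∀ v ∈ s, W ≤ U v := by
    intro s
    induction s using Finset.induction_on with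
    | empty =>
      obtain ⟨W, hW⟩ := 𝓤.nonempty
      exact ⟨W, hW, fun v hv => absurd hv (Finset.notMem_empty v)⟩
    | insert a s _ ih =>
      obtain ⟨W, hW, h⟩ := ih
      obtain ⟨V, hV, h1, h2⟩ := 𝓤.directed W hW (U a) (hU a)
      refine ⟨V, hV, fun v hv => ?_⟩
      rcases Finset.mem_insert.1 hv with rfl | hv
      · exact h2
      · exact h1.trans (h v hv)
  have := Fintype.ofFinite ι
  obtain ⟨W, hW, h⟩ := key Finset.univ
  exact ⟨W, hW, fun v => h v (Finset.mem_univ v)⟩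

lemma W_pi_const₁ [Finite ι] {Y : ι → Type} {f : G → ∀ v, Y v}
    (h : ∀ v, 𝓤.Const₁ (fun g => f g v)) : 𝓤.Const₁ f := by
  choose U hU hc using h
  obtain ⟨W, hW, hWU⟩ := Lev.exists_le_of_finite U hU
  exact ⟨W, hW, fun g s hs => funext fun v => hc v g s (hWU v hs)⟩

lemma W_pi_mem_LB2 [Finite ι] {F : G × G → ∀ v, A v}
    (h : ∀ v, (fun x => F x v) ∈ LB2 𝓤 (A v)) : F ∈ LB2 𝓤 (∀ v, A v) := by
  choose y hy hd using fun v => mem_LB2.1 (h v)
  exact mem_LB2.2 ⟨fun g v => y v g, W_pi_const₁ hy, fun g k => funext fun v => hd v g k⟩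

lemma W_pi_smooth [Finite ι] (h : ∀ v, 𝓤.Smooth (A v)) : 𝓤.Smooth (∀ v, A v) := by
  intro a
  choose U hU hc using fun v => h v (a v)
  obtain ⟨W, hW, hWU⟩ := Lev.exists_le_of_finite U hU
  exact ⟨W, hW, fun s hs => funext fun v => hc v s (hWU v hs)⟩

end Products

end Fermat.Agent.S55Lib
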