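import Fermat.Agent.S55.W.ABDefs
import Fermat.Agent.S55.W.Theta
import Fermat.Agent.S55.W.Free

/-!
# S55 chapter W: the hypotheses (H2)-(H5) of `thmA` for `B_i = Hom(X_i, J)`
-/

set_option autoImplicit false
set_option linter.unusedSectionVars false
set_option linter.unusedVariables false

namespace Fermat.Agent.S55Lib

noncomputable section

open groupCohomology

/-! ### explicit forms of Shapiro's lemma for `Hom(X, SCoind B)` -/

section Single

variable {G H : Type} [Group G] [Group H] {r : H →* G} {B : Type} [AddCommGroup B]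
  [DistribMulAction H B] {𝓤 : Lev G} {X : Type} [AddCommGroup X] [DistribMulAction G X]
  [Module.Finite ℤ X]

theorem W_sh1 (hX : 𝓤.Smooth X) (F : G → HomM G X (SCoind r B 𝓤)) (hF : IsCocycle₁ F)
    (hFc : 𝓤.Const₁ F) (b : X →+ B)
    (hb : ∀ (h : H) (x : X), (F (r h) x : G → B) 1 = h • b ((r h)⁻¹ • x) - b x) :
    IsCoboundary₁ F := by
  let _ : DistribMulAction H X := DistribMulAction.compHom X r
  have hHX : ∀ (h : H) (x : X), h • x = r h • x := fun _ _ => rfl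
  apply W_isCoboundary₁_of_equiv (W_theta (r := r) (B := B) hHX hX) (W_theta_compat hHX hX)
  apply SCoind.h1_inj
  · exact (W_theta_compat (r := r) (B := B) hHX hX).lvCocycle₁ hF
  · exact hFc.comp _
  · refine ⟨HomM.of b, fun h => ?_⟩
    ext x
    rw [W_theta_apply, inv_one, one_smul, hb, HomM.sub_apply, HomM.smul_apply, hHX, map_inv]
    rfl

theorem W_sh2 (hX : 𝓤.Smooth X) (F : G × G → HomM G X (SCoind r B 𝓤)) (hF : IsCocycle₂ F)
    (hFc : 𝓤.Const₂ F) (b : H → (X →+ B)) {U0 : Subgroup G} (hU0 : U0 ∈ 𝓤.mem)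
    (hbU : ∀ h k, r k ∈ U0 → b (h * k) = b h)
    (hb : ∀ (h h' : H) (x : X), (F (r h, r h') x : G → B) 1
      = h • b h' ((r h)⁻¹ • x) - b (h * h') x + b h x) :
    F ∈ LB2 𝓤 (HomM G X (SCoind r B 𝓤)) := by
  let _ : DistribMulAction H X := DistribMulAction.compHom X r
  have hHX : ∀ (h : H) (x : X), h • x = r h • x := fun _ _ => rfl
  apply W_mem_LB2_of_equiv (W_theta (r := r) (B := B) hHX hX) (W_theta_compat hHX hX)
  refine SCoind.h2_inj _ ?_ ?_ (fun h => (HomM.of (b h) : HomM H X B)) hU0 ?_ ?_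
  · exact (W_theta_compat (r := r) (B := B) hHX hX).lvCocycle₂ hF
  · exact hFc.comp _
  · intro h k hk
    rw [hbU h k hk]
  · intro h h'
    ext x
    rw [W_theta_apply, inv_one, one_smul, hb, HomM.add_apply, HomM.sub_apply, HomM.smul_apply,
      hHX, map_inv]
    rfl

end Single

/-! ### products inside `Hom` -/

section HomPi

variable {G : Type} [Group G] {𝓤 : Lev G} {X : Type} [AddCommGroup X] [DistribMulAction G X]
  {ι : Type} {A : ι → Type} [∀ v, AddCommGroup (A v)] [∀ v, DistribMulAction G (A v)]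

/-- the `v`-th component of an element of `Hom(X, ∏ A_v)` -/
def W_cmp (v : ι) : HomM G X (∀ v, A v) →+ HomM G X (A v) :=
  HomM.post (Pi.evalAddMonoidHom A v)

@[simp] lemma W_cmp_apply (v : ι) (φ : HomM G X (∀ v, A v)) (x : X) : W_cmp v φ x = φ x v := rfl

lemma W_cmp_compat (v : ι) : Compat (MonoidHom.id G) (W_cmp (G := G) (X := X) (A := A) v) :=
  fun _ _ => rfl

/-- assembling an element of `Hom(X, ∏ A_v)` -/
def W_asm (y : ∀ v, HomM G X (A v)) : HomM G X (∀ v, A v) :=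
  HomM.of (AddMonoidHom.pi fun v => (y v).toHom)

@[simp] lemma W_asm_apply (y : ∀ v, HomM G X (A v)) (x : X) (v : ι) : W_asm y x v = y v x := rfl

lemma W_homPi_isCoboundary₁ {F : G → HomM G X (∀ v, A v)}
    (h : ∀ v, IsCoboundary₁ (fun g => W_cmp v (F g))) : IsCoboundary₁ F := by
  choose y hy using h
  refine ⟨W_asm y, fun g => ?_⟩
  ext x v
  have := congrArg (fun φ : HomM G X (A v) => φ x) (hy v g)
  exact this

lemma W_homPi_mem_LB2 [Finite ι] {F : G × G → HomM G X (∀ v, A v)}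
    (h : ∀ v, (fun x => W_cmp v (F x)) ∈ LB2 𝓤 (HomM G X (A v))) :
    F ∈ LB2 𝓤 (HomM G X (∀ v, A v)) := by
  choose y hy hd using fun v => mem_LB2.1 (h v)
  refine mem_LB2.2 ⟨fun g => W_asm fun v => y v g, ?_, fun g k => ?_⟩
  · exact (W_pi_const₁ (f := fun g v => y v g) hy).comp W_asm
  · ext x v
    have := congrArg (fun φ : HomM G X (A v) => φ x) (hd v g k)
    exact this

end HomPi

/-! ### Hilbert 90 in the form `H1Van` -/

section H90

variable {H : Type} [Group H] (𝓥 : Lev H) (B : Type) [AddCommGroup B] [DistribMulAction H B]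

theorem H1Van.of_h90
    (h90 : ∀ W ∈ 𝓥.mem, ∀ W₁ ∈ 𝓥.mem, W₁ ≤ W →
      ∀ f : W → B, IsCocycle₁ f → (∀ (g s : W), (s : H) ∈ W₁ → f (g * s) = f g) →
        IsCoboundary₁ f)
    (W : Subgroup H) (hW : W ∈ 𝓥.mem) : H1Van 𝓥 W (WSm 𝓥 B) := by
  intro β hβc hβ
  obtain ⟨W₂, hW₂, hc⟩ := hβc
  obtain ⟨W₁, hW₁, hW₁W, hW₁W₂⟩ := 𝓥.directed W hW W₂ hW₂
  have hcoc : IsCocycle₁ (fun w : W => ((β (w : H) : WSm 𝓥 B) : B)) := by
    intro w w'
    have := congrArg (fun a : WSm 𝓥 B => (a : B)) (hβ w w.2 w' w'.2)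
    exact this
  obtain ⟨b, hb⟩ := h90 W hW W₁ hW₁ hW₁W (fun w : W => ((β (w : H) : WSm 𝓥 B) : B)) hcoc
    (fun g s hs => by
      show ((β ((g : H) * (s : H)) : WSm 𝓥 B) : B) = ((β (g : H) : WSm 𝓥 B) : B)
      rw [hc _ _ (hW₁W₂ hs)])
  have h1 : ((β 1 : WSm 𝓥 B) : B) = 0 := by
    have := hcoc 1 1
    simp only [mul_one, one_smul, Subgroup.coe_one] at this
    exact left_eq_add.1 this
  have hbs : b ∈ WSm 𝓥 B := by
    refine ⟨W₁, hW₁, fun s hs => ?_⟩
    have e1 := hb ⟨s, hW₁W hs⟩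
    have e2 : β s = β 1 := by
      have := hc 1 s (hW₁W₂ hs)
      rwa [one_mul] at this
    have e3 : (⟨s, hW₁W hs⟩ : W) • b - b = 0 := by
      rw [e1]
      show ((β s : WSm 𝓥 B) : B) = 0
      rw [e2, h1]
    exact sub_eq_zero.1 e3
  refine ⟨⟨b, hbs⟩, fun w hw => Subtype.ext ?_⟩
  exact (hb ⟨w, hw⟩).symm

end H90

end

end Fermat.Agent.S55Lib
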