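import Fermat.Agent.S55.W.Hyp

/-!
# S55 chapter W: the hypotheses (H1)-(H5) of `thmA` for `B_i = Hom(X_i, J)`, `C_i = Hom(X_i, C)`
-/

set_option autoImplicit false
set_option linter.unusedSectionVars false
set_option linter.unusedVariables false

namespace Fermat.Agent.S55Lib

noncomputable section

open groupCohomology

/-- a `ℤ`-basis of `A` as a basis of `WRes r A` -/
def WRes.basis {G H : Type} [Group G] [Group H] (r : H →* G) {A : Type} [AddCommGroup A]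
    {T : Type} (bs : Module.Basis T ℤ A) : Module.Basis T ℤ (WRes r A) := bs

lemma WRes.basis_apply {G H : Type} [Group G] [Group H] (r : H →* G) {A : Type} [AddCommGroup A]
    {T : Type} (bs : Module.Basis T ℤ A) (t : T) :
    WRes.basis r bs t = WRes.mk r A (bs t) := rfl

section Ctx

variable {Γ : Type} [Group Γ] (𝓤 𝓦 : Lev Γ) (h𝓤𝓦 : 𝓤.mem ⊆ 𝓦.mem)
  {ι : Type} (H : ι → Type) [∀ v, Group (H v)] (r : ∀ v, H v →* Γ)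
  (B : ι → Type) [∀ v, AddCommGroup (B v)] [∀ v, DistribMulAction (H v) (B v)]
  (X : Type) [AddCommGroup X] [DistribMulAction Γ X]

/-- the local modules `A_v(X) = Hom(X, B_v^{sm})` -/
abbrev WAv (v : ι) : Type := HomM (H v) (WRes (r v) X) (WSm (𝓦.comap (r v)) (B v))

include h𝓤𝓦 in
lemma W_cont (v : ι) : 𝓤.Cont (𝓦.comap (r v)) (r v) :=
  fun U hU => ⟨U.comap (r v), ⟨U, h𝓤𝓦 hU, rfl⟩, fun _ hs => hs⟩

include h𝓤𝓦 in
lemma W_ev_mem (v : ι) (f : SCoind (r v) (B v) 𝓤) :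
    (f : Γ → B v) 1 ∈ WSm (𝓦.comap (r v)) (B v) := by
  obtain ⟨U', hU', hc⟩ := f.2.2
  exact ⟨U'.comap (r v), ⟨U', h𝓤𝓦 hU', rfl⟩, fun s hs => SCoind.smul_apply_of_mem f hU' hc 1 s hs⟩

/-- evaluation at `1`, with values in the smooth part -/
def Wev (v : ι) : SCoind (r v) (B v) 𝓤 →+ WSm (𝓦.comap (r v)) (B v) where
  toFun f := ⟨(f : Γ → B v) 1, W_ev_mem 𝓤 𝓦 h𝓤𝓦 H r B v f⟩
  map_zero' := rfl
  map_add' _ _ := rfl

/-- `β_v : Hom(X,J) → Hom(X, B_v^{sm})`, `φ ↦ (x ↦ φ x v 1)` -/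
def Wβ (v : ι) : HomM Γ X (WJ 𝓤 H r B) →+ WAv 𝓦 H r B X v where
  toFun φ := HomM.of ((Wev 𝓤 𝓦 h𝓤𝓦 H r B v).comp
    ((Pi.evalAddMonoidHom (fun v => SCoind (r v) (B v) 𝓤) v).comp
      (φ.toHom.comp (WRes.out (r v) X))))
  map_zero' := rfl
  map_add' _ _ := rfl

lemma Wβ_apply (v : ι) (φ : HomM Γ X (WJ 𝓤 H r B)) (x : X) :
    ((Wβ 𝓤 𝓦 h𝓤𝓦 H r B X v φ (WRes.mk (r v) X x) : WSm (𝓦.comap (r v)) (B v)) : B v)
      = ((φ x v : SCoind (r v) (B v) 𝓤) : Γ → B v) 1 := rfl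

lemma WAv_smul_apply (v : ι) (h : H v) (b : WAv 𝓦 H r B X v) (x : X) :
    (((h • b) (WRes.mk (r v) X x) : WSm (𝓦.comap (r v)) (B v)) : B v)
      = h • ((b (WRes.mk (r v) X ((r v h)⁻¹ • x)) : WSm (𝓦.comap (r v)) (B v)) : B v) := by
  rw [HomM.smul_apply, WRes.smul_mk, map_inv]
  rfl

lemma Wβ_compat (v : ι) : Compat (r v) (Wβ 𝓤 𝓦 h𝓤𝓦 H r B X v) := by
  intro h φ
  ext x
  obtain ⟨x, rfl⟩ : ∃ y, WRes.mk (r v) X y = x := ⟨x, rfl⟩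
  rw [WAv_smul_apply, Wβ_apply, Wβ_apply, HomM.smul_apply]
  show ((φ ((r v h)⁻¹ • x) v : SCoind (r v) (B v) 𝓤) : Γ → B v) (1 * r v h) = _
  rw [one_mul, ← SCoind.equivar, mul_one]

/-- forgetting smoothness and the `WRes` wrapper -/
def WAv.raw (v : ι) (b : WAv 𝓦 H r B X v) : X →+ B v :=
  (AddSubgroup.subtype _).comp (b.toHom.comp (WRes.mk (r v) X))

lemma WAv.raw_apply (v : ι) (b : WAv 𝓦 H r B X v) (x : X) :
    WAv.raw 𝓦 H r B X v b x = ((b (WRes.mk (r v) X x) : WSm (𝓦.comap (r v)) (B v)) : B v) := rfl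

/-- **(H5)** -/
theorem W_H5 [Module.Finite ℤ X] (hX : 𝓤.Smooth X) :
    ∀ f ∈ LZ1 𝓤 (HomM Γ X (WJ 𝓤 H r B)),
      (∀ v, IsCoboundary₁ (loc₁ (r v) (Wβ 𝓤 𝓦 h𝓤𝓦 H r B X v) f)) → IsCoboundary₁ f := by
  intro f hf hloc
  apply W_homPi_isCoboundary₁
  intro v
  obtain ⟨b, hb⟩ := hloc v
  refine W_sh1 hX _ ((W_cmp_compat v).lvCocycle₁ hf.1) (hf.2.comp _) (WAv.raw 𝓦 H r B X v b) ?_
  intro h x
  have e := congrArg (fun φ : WAv 𝓦 H r B X v =>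
    ((φ (WRes.mk (r v) X x) : WSm (𝓦.comap (r v)) (B v)) : B v)) (hb h)
  simp only [HomM.sub_apply, AddSubgroup.coe_sub, WAv_smul_apply] at e
  rw [WAv.raw_apply, WAv.raw_apply, e]
  rfl

/-- **(H4)** -/
theorem W_H4 [Finite ι] [Module.Finite ℤ X] {T : Type} (bs : Module.Basis T ℤ X)
    (hX : 𝓤.Smooth X)
    (hvan : ∀ v, ∀ W ∈ (𝓦.comap (r v)).mem,
      H1Van (𝓦.comap (r v)) W (WSm (𝓦.comap (r v)) (B v))) :
    ∀ f ∈ LZ2 𝓤 (HomM Γ X (WJ 𝓤 H r B)),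
      (∀ v, loc₂ (r v) (Wβ 𝓤 𝓦 h𝓤𝓦 H r B X v) f ∈ LB2 (𝓦.comap (r v)) (WAv 𝓦 H r B X v)) →
      f ∈ LB2 𝓤 (HomM Γ X (WJ 𝓤 H r B)) := by
  intro f hf hloc
  apply W_homPi_mem_LB2
  intro v
  obtain ⟨b, hbc, hb⟩ := mem_LB2.1 (hloc v)
  obtain ⟨U₁, hU₁, hc⟩ := hf.2
  obtain ⟨U₂, hU₂, htriv⟩ := hX.exists_triv
  obtain ⟨U0, hU0, h01, h02⟩ := 𝓤.directed U₁ hU₁ U₂ hU₂
  have hW : U0.comap (r v) ∈ (𝓦.comap (r v)).mem := ⟨U0, h𝓤𝓦 hU0, rfl⟩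
  have hvanHom : H1Van (𝓦.comap (r v)) (U0.comap (r v)) (WAv 𝓦 H r B X v) :=
    H1Van.homM (X := WRes (r v) X) (hvan v _ hW) bs (fun w hw x => htriv (r v w) (h02 hw) x)
  obtain ⟨b', hb'W, hb'⟩ := W_inf2 hvanHom (loc₂ (r v) (Wβ 𝓤 𝓦 h𝓤𝓦 H r B X v) f)
    ((Wβ_compat 𝓤 𝓦 h𝓤𝓦 H r B X v).lvCocycle₂ hf.1)
    (fun h h' w w' hw hw' => by
      show Wβ 𝓤 𝓦 h𝓤𝓦 H r B X v (f (r v (h * w), r v (h' * w'))) =
        Wβ 𝓤 𝓦 h𝓤𝓦 H r B X v (f (r v h, r v h'))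
      rw [map_mul, map_mul, hc _ _ _ (h01 hw) _ (h01 hw')]) b hbc hb
  refine W_sh2 hX _ ((W_cmp_compat v).lvCocycle₂ hf.1) (hf.2.comp _)
    (fun h => WAv.raw 𝓦 H r B X v (b' h)) hU0 (fun h k hk => by rw [hb'W h k hk]) ?_
  intro h h' x
  have e := congrArg (fun φ : WAv 𝓦 H r B X v =>
    ((φ (WRes.mk (r v) X x) : WSm (𝓦.comap (r v)) (B v)) : B v)) (hb' h h')
  simp only [HomM.sub_apply, HomM.add_apply, AddSubgroup.coe_sub, AddSubgroup.coe_add,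
    WAv_smul_apply] at e
  rw [WAv.raw_apply, WAv.raw_apply, WAv.raw_apply, ← e]
  rfl

/-- **(H3)** -/
theorem W_H3 {T : Type} [MulAction Γ T] (bs : Module.Basis T ℤ X)
    (hbs : ∀ (γ : Γ) (t : T), γ • bs t = bs (γ • t)) (U : Subgroup Γ) (hU : U ∈ 𝓦.mem)
    (hstab : ∀ (γ : Γ) (t : T), γ • t = t ↔ γ ∈ U)
    (hvan : ∀ v, ∀ W ∈ (𝓦.comap (r v)).mem,
      H1Van (𝓦.comap (r v)) W (WSm (𝓦.comap (r v)) (B v))) :
    ∀ v, ∀ f ∈ LZ1 (𝓦.comap (r v)) (WAv 𝓦 H r B X v), IsCoboundary₁ f := by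
  intro v f hf
  let _ : MulAction (H v) T := MulAction.compHom T (r v)
  refine W_free1 (G := H v) (T := T) (WRes.basis (r v) bs)
    (fun g t => by
      rw [WRes.basis_apply, WRes.basis_apply, WRes.smul_mk, hbs]
      rfl) f hf.1 ?_
  intro t
  obtain ⟨a, ha⟩ := hvan v (U.comap (r v)) ⟨U, hU, rfl⟩ (fun h => f h (WRes.basis (r v) bs t))
    (hf.2.comp (fun φ : WAv 𝓦 H r B X v => φ (WRes.basis (r v) bs t))) (by
      intro w hw w' hw'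
      show f (w * w') (WRes.basis (r v) bs t)
        = w • f w' (WRes.basis (r v) bs t) + f w (WRes.basis (r v) bs t)
      rw [hf.1 w w', HomM.add_apply, HomM.smul_apply]
      have : w⁻¹ • WRes.basis (r v) bs t = WRes.basis (r v) bs t := by
        rw [WRes.basis_apply, WRes.smul_mk, hbs,
          (hstab _ t).2 (by rw [map_inv]; exact U.inv_mem hw)]
      rw [this])
  exact ⟨a, fun s hs => ha s ((hstab (r v s) t).1 hs)⟩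

include h𝓤𝓦 in
/-- **(H2)** -/
theorem W_H2 [Module.Finite ℤ X] (hX : 𝓤.Smooth X) {T : Type} [MulAction Γ T]
    (bs : Module.Basis T ℤ X)
    (hbs : ∀ (γ : Γ) (t : T), γ • bs t = bs (γ • t)) (U : Subgroup Γ) (hU : U ∈ 𝓦.mem)
    (hstab : ∀ (γ : Γ) (t : T), γ • t = t ↔ γ ∈ U)
    (hvan : ∀ v, ∀ W ∈ (𝓦.comap (r v)).mem,
      H1Van (𝓦.comap (r v)) W (WSm (𝓦.comap (r v)) (B v))) :
    ∀ f ∈ LZ1 𝓤 (HomM Γ X (WJ 𝓤 H r B)), IsCoboundary₁ f := fun f hf =>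
  W_H5 𝓤 𝓦 h𝓤𝓦 H r B X hX f hf (fun v => W_H3 𝓦 H r B X bs hbs U hU hstab hvan v _
    (pull₁_mem_LZ1 (W_cont 𝓤 𝓦 h𝓤𝓦 H r v) (Wβ_compat 𝓤 𝓦 h𝓤𝓦 H r B X v) hf))

end Ctx

/-! ### (H1) -/

section H1

variable {Γ : Type} [Group Γ] {𝓤 : Lev Γ}

/-- every level 1-cocycle `U → C` is killed by an integer prime to `p` -/
def H1Tor (p : ℕ) (𝓤 : Lev Γ) (U : Subgroup Γ) (C : Type) [AddCommGroup C]
    [DistribMulAction Γ C] : Prop :=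
  ∀ β : Γ → C, 𝓤.Const₁ β → (∀ w ∈ U, ∀ w' ∈ U, β (w * w') = w • β w' + β w) →
    ∃ m : ℕ, m.Coprime p ∧ ∃ a : C, ∀ w ∈ U, m • β w = w • a - a

/-- **(H1)** -/
theorem W_H1 (p : ℕ) {X : Type} [AddCommGroup X] [DistribMulAction Γ X]
    {T : Type} [Finite T] [MulAction Γ T] (bs : Module.Basis T ℤ X)
    (hbs : ∀ (γ : Γ) (t : T), γ • bs t = bs (γ • t)) (U : Subgroup Γ)
    (hstab : ∀ (γ : Γ) (t : T), γ • t = t ↔ γ ∈ U)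
    {C : Type} [AddCommGroup C] [DistribMulAction Γ C] (hT : H1Tor p 𝓤 U C) :
    ∀ f ∈ LZ1 𝓤 (HomM Γ X C), ∃ m : ℕ, m.Coprime p ∧ IsCoboundary₁ (m • f) := by
  classical
  intro f hf
  have := Fintype.ofFinite T
  have h1 : ∀ t : T, ∃ m : ℕ, m.Coprime p ∧ ∃ a : C, ∀ w ∈ U, m • f w (bs t) = w • a - a := by
    intro t
    refine hT (fun γ => f γ (bs t)) (hf.2.comp (fun φ : HomM Γ X C => φ (bs t))) ?_
    intro w hw w' hw'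
    show f (w * w') (bs t) = w • f w' (bs t) + f w (bs t)
    rw [hf.1 w w', HomM.add_apply, HomM.smul_apply, hbs, (hstab _ t).2 (U.inv_mem hw)]
  choose m hm a ha using h1
  refine ⟨∏ t, m t, Nat.Coprime.prod_left (fun t _ => hm t), ?_⟩
  refine W_free1 bs hbs _ ((Z1 Γ (HomM Γ X C)).nsmul_mem hf.1 _) ?_
  intro t
  obtain ⟨k, hk⟩ : m t ∣ ∏ t, m t := Finset.dvd_prod_of_mem m (Finset.mem_univ t)
  refine ⟨k • a t, fun s hs => ?_⟩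
  have e := ha t s ((hstab s t).1 hs)
  show (∏ t, m t) • f s (bs t) = s • k • a t - k • a t
  rw [hk, mul_comm, mul_smul, e, smul_sub, smul_comm s k]

/-- the hypothesis of `W_H1` from the statement for `C♯` -/
theorem H1Tor.of_kappa (p : ℕ) (U : Subgroup Γ) (hU : U ∈ 𝓤.mem)
    {C Cs : Type} [AddCommGroup C] [DistribMulAction Γ C] [AddCommGroup Cs]
    [DistribMulAction Γ Cs] (κ : C →+ Cs) (eκ : Equivar Γ κ) (hκ : Function.Injective κ)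
    (hκtor : ∀ c : Cs, ∃ m : ℕ, m.Coprime p ∧ ∃ c', κ c' = m • c)
    (hH1 : ∀ U₁ ∈ 𝓤.mem, U₁ ≤ U → ∀ f : U → Cs, IsCocycle₁ f →
      (∀ (g s : U), (s : Γ) ∈ U₁ → f (g * s) = f g) →
        ∃ m : ℕ, m.Coprime p ∧ IsCoboundary₁ (m • f)) :
    H1Tor p 𝓤 U C := by
  intro β hβc hβ
  obtain ⟨U₂, hU₂, hc⟩ := hβc
  obtain ⟨U₁, hU₁, hU₁U, hU₁U₂⟩ := 𝓤.directed U hU U₂ hU₂
  obtain ⟨m, hm, c, hcb⟩ := hH1 U₁ hU₁ hU₁U (fun w : U => κ (β (w : Γ)))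
    (fun w w' => by
      show κ (β ((w : Γ) * (w' : Γ))) = (w : Γ) • κ (β (w' : Γ)) + κ (β (w : Γ))
      rw [hβ w w.2 w' w'.2, map_add, eκ])
    (fun g s hs => by
      show κ (β ((g : Γ) * (s : Γ))) = κ (β (g : Γ))
      rw [hc _ _ (hU₁U₂ hs)])
  obtain ⟨m', hm', c', hc'⟩ := hκtor c
  refine ⟨m' * m, Nat.Coprime.mul_left hm' hm, c', fun w hw => hκ ?_⟩
  have e : (w : Γ) • c - c = m • κ (β w) := hcb ⟨w, hw⟩
  rw [map_sub, eκ, hc', map_nsmul, mul_smul, ← e, smul_sub, smul_comm w m']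

end H1

end

end Fermat.Agent.S55Lib
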