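import Fermat.Agent.S55.W.Ses
import Fermat.Agent.S55.W.ABDefs

/-!
# S55 chapter W: instantiation of `thmA`
-/

set_option autoImplicit false
set_option linter.unusedSectionVars false
set_option linter.unusedVariables false

namespace Fermat.Agent.S55Lib

noncomputable section

open groupCohomology

lemma WdE_injective {Γ : Type} [Group Γ] (𝓤 : Lev Γ)
    {ι : Type} [Nonempty ι] (H : ι → Type) [∀ v, Group (H v)] (r : ∀ v, H v →* Γ)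
    (B : ι → Type) [∀ v, AddCommGroup (B v)] [∀ v, DistribMulAction (H v) (B v)]
    {E : Type} [AddCommGroup E] [DistribMulAction Γ E]
    (sE : 𝓤.Smooth E) (lam : ∀ v, E →+ B v) (hlam : ∀ v, Compat (r v) (lam v))
    (hlaminj : ∀ v, Function.Injective (lam v)) :
    Function.Injective (WdE 𝓤 H r B sE lam hlam) := by
  intro e e' h
  obtain ⟨v⟩ := ‹Nonempty ι›
  apply hlaminj v
  have := congrArg (fun x : WJ 𝓤 H r B => ((x v : SCoind (r v) (B v) 𝓤) : Γ → B v) 1) h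
  simpa [WdE] using this

/-- **Theorem A**, instantiated. -/
theorem W_instA (p : ℕ) [Fact p.Prime]
    {Γ : Type} [Group Γ] (𝓤 𝓦 : Lev Γ) (h𝓤𝓦 : 𝓤.mem ⊆ 𝓦.mem)
    (U : Subgroup Γ) (hU : U ∈ 𝓤.mem)
    {M N : Type} [AddCommGroup M] [AddCommGroup N] [DistribMulAction Γ M] [DistribMulAction Γ N]
    (sM : 𝓤.Smooth M) (hpM : ∀ m : M, p • m = 0) (hpN : ∀ n : N, p • n = 0)
    {E : Type} [AddCommGroup E] [DistribMulAction Γ E] (sE : 𝓤.Smooth E)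
    (hEdiv : ∀ e : E, ∃ e' : E, p • e' = e)
    (Φ : M →+ HomM Γ N E) (eΦ : Equivar Γ Φ) (hΦ : Function.Bijective Φ)
    {ι : Type} [Finite ι] [Nonempty ι]
    (H : ι → Type) [∀ v, Group (H v)] (r : ∀ v, H v →* Γ)
    (B : ι → Type) [∀ v, AddCommGroup (B v)] [∀ v, DistribMulAction (H v) (B v)]
    (lam : ∀ v, E →+ B v) (hlam : ∀ v, Compat (r v) (lam v))
    (hlaminj : ∀ v, Function.Injective (lam v))
    (hBdiv : ∀ v, ∀ b ∈ WSm (𝓦.comap (r v)) (B v), ∃ b' ∈ WSm (𝓦.comap (r v)) (B v), p • b' = b)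
    (hBtor : ∀ v, ∀ b : B v, p • b = 0 → ∃ e : E, lam v e = b)
    (h90 : ∀ v, ∀ W ∈ (𝓦.comap (r v)).mem, ∀ W₁ ∈ (𝓦.comap (r v)).mem, W₁ ≤ W →
      ∀ f : W → B v, IsCocycle₁ f → (∀ (g s : W), (s : H v) ∈ W₁ → f (g * s) = f g) →
        IsCoboundary₁ f)
    {Cs : Type} [AddCommGroup Cs] [DistribMulAction Γ Cs]
    (κ : WC 𝓤 H r B sE lam hlam →+ Cs) (eκ : Equivar Γ κ) (hκ : Function.Injective κ)
    (hκtor : ∀ c : Cs, ∃ m : ℕ, m.Coprime p ∧ ∃ c', κ c' = m • c)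
    (hH1 : ∀ U₁ ∈ 𝓤.mem, U₁ ≤ U → ∀ f : U → Cs, IsCocycle₁ f →
      (∀ (g s : U), (s : Γ) ∈ U₁ → f (g * s) = f g) → ∃ m : ℕ, m.Coprime p ∧ IsCoboundary₁ (m • f))
    {X0 X1 : Type} [AddCommGroup X0] [AddCommGroup X1] [DistribMulAction Γ X0]
    [DistribMulAction Γ X1] [Module.Finite ℤ X0] [Module.Finite ℤ X1]
    (sX0 : 𝓤.Smooth X0) (sX1 : 𝓤.Smooth X1)
    (j : X1 →+ X0) (π : X0 →+ N) (ej : Equivar Γ j) (eπ : Equivar Γ π)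
    (hj : Function.Injective j) (hex : ∀ x, π x = 0 ↔ ∃ y, j y = x) (hπ : Function.Surjective π)
    {T0 T1 : Type} [Finite T0] [MulAction Γ T0] (bs0 : Module.Basis T0 ℤ X0)
    (hbs0 : ∀ (γ : Γ) (t : T0), γ • bs0 t = bs0 (γ • t))
    (hstab : ∀ (γ : Γ) (t : T0), γ • t = t ↔ γ ∈ U) (bs1 : Module.Basis T1 ℤ X1) :
    Nonempty (LSha2 𝓤 M H (fun v => 𝓦.comap (r v)) r (fun v => WRes (r v) M)
        (fun v => WRes.mk (r v) M) ≃+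
      (inv (⊤ : Subgroup Γ) (HomM Γ X1 (WC 𝓤 H r B sE lam hlam)) ⧸
        (((inv (⊤ : Subgroup Γ) (HomM Γ X0 (WC 𝓤 H r B sE lam hlam))).map (HomM.pre j) ⊔
          (inv (⊤ : Subgroup Γ) (HomM Γ X1 (WJ 𝓤 H r B))).map
            (HomM.post (WCoker.mk Γ _ (WdE_equivar 𝓤 H r B sE lam hlam)))).addSubgroupOf
          (inv (⊤ : Subgroup Γ) (HomM Γ X1 (WC 𝓤 H r B sE lam hlam)))))) := by
  have sJ : 𝓤.Smooth (WJ 𝓤 H r B) := W_pi_smooth (fun v => SCoind.smooth)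
  have sC : 𝓤.Smooth (WC 𝓤 H r B sE lam hlam) := WCoker.smooth _ _ sJ
  have sesJ : SES (WdE 𝓤 H r B sE lam hlam) (WCoker.mk Γ _ (WdE_equivar 𝓤 H r B sE lam hlam)) :=
    WCoker.ses Γ _ _ (WdE_injective 𝓤 H r B sE lam hlam hlaminj)
  have hvan : ∀ v, ∀ W ∈ (𝓦.comap (r v)).mem,
      H1Van (𝓦.comap (r v)) W (WSm (𝓦.comap (r v)) (B v)) :=
    fun v => H1Van.of_h90 (𝓦.comap (r v)) (B v) (h90 v)
  have hBdiv' : ∀ v, ∀ d : WSm (𝓦.comap (r v)) (B v), ∃ d', p • d' = d := by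
    rintro v ⟨b, hb⟩
    obtain ⟨b', hb', e⟩ := hBdiv v b hb
    exact ⟨⟨b', hb'⟩, Subtype.ext e⟩
  refine thmA p 𝓤 (M := M) (A0 := HomM Γ X0 E) (A1 := HomM Γ X1 E)
    (B0 := HomM Γ X0 (WJ 𝓤 H r B)) (B1 := HomM Γ X1 (WJ 𝓤 H r B))
    (C0 := HomM Γ X0 (WC 𝓤 H r B sE lam hlam)) (C1 := HomM Γ X1 (WC 𝓤 H r B sE lam hlam))
    sM (HomM.smooth sX0 sE) (HomM.smooth sX1 sE) (HomM.smooth sX0 sJ) (HomM.smooth sX1 sJ)
    (HomM.smooth sX0 sC) (HomM.smooth sX1 sC) hpM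
    (W_iOf π (WΨ Φ)) (HomM.pre j) (HomM.post (WdE 𝓤 H r B sE lam hlam))
    (HomM.post (WCoker.mk Γ _ (WdE_equivar 𝓤 H r B sE lam hlam)))
    (HomM.post (WdE 𝓤 H r B sE lam hlam))
    (HomM.post (WCoker.mk Γ _ (WdE_equivar 𝓤 H r B sE lam hlam)))
    (HomM.pre j) (HomM.pre j)
    ?ei (W_pre_equivar j ej) (W_post_equivar _ (WdE_equivar 𝓤 H r B sE lam hlam))
    (W_post_equivar _ (WCoker.equivar_mk Γ _ _))
    (W_post_equivar _ (WdE_equivar 𝓤 H r B sE lam hlam))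
    (W_post_equivar _ (WCoker.equivar_mk Γ _ _))
    (W_pre_equivar j ej) (W_pre_equivar j ej)
    (W_div_ses p bs1 j π hj hex hπ hpN hEdiv (WΨ Φ) (WΨ_bijective Φ hΦ))
    (W_post_ses bs0 sesJ) (W_post_ses bs1 sesJ) (fun _ => rfl) (fun _ => rfl)
    H (fun v => 𝓦.comap (r v)) r (fun v => W_cont 𝓤 𝓦 h𝓤𝓦 H r v)
    (fun v => WRes (r v) M) (fun v => WAv 𝓦 H r B X0 v) (fun v => WAv 𝓦 H r B X1 v)
    (fun v => WRes.smooth (r v) h𝓤𝓦 sM)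
    (fun v => HomM.smooth (WRes.smooth (r v) h𝓤𝓦 sX0) (WSm.smooth _ _))
    (fun v => HomM.smooth (WRes.smooth (r v) h𝓤𝓦 sX1) (WSm.smooth _ _))
    (fun v => WRes.mk (r v) M) (fun v => Wβ 𝓤 𝓦 h𝓤𝓦 H r B X0 v) (fun v => Wβ 𝓤 𝓦 h𝓤𝓦 H r B X1 v)
    (fun v => W_iOf (G := H v) (X0 := WRes (r v) X0) (π.comp (WRes.out (r v) X0))
      (WΨv 𝓤 𝓦 h𝓤𝓦 H r B sE lam hlam Φ v))
    (fun v => HomM.pre (WRes.map (r v) j))
    (fun v => WRes.compat_mk (r v) M) (fun v => Wβ_compat 𝓤 𝓦 h𝓤𝓦 H r B X0 v)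
    (fun v => Wβ_compat 𝓤 𝓦 h𝓤𝓦 H r B X1 v)
    ?eiv (fun v => W_pre_equivar _ (WRes.map_equivar (r v) j ej))
    (fun v => W_div_ses (G := H v) (X0 := WRes (r v) X0) (X1 := WRes (r v) X1) p
      (WRes.basis (r v) bs1) (WRes.map (r v) j) (π.comp (WRes.out (r v) X0)) hj hex hπ hpN
      (hBdiv' v) _ (WΨv_bijective p 𝓤 𝓦 h𝓤𝓦 H r B sE lam hlam Φ hΦ hpN hlaminj hBtor v))
    ?sq3 (fun v x => rfl)
    (W_H1 p bs0 hbs0 U hstab (H1Tor.of_kappa p U hU κ eκ hκ hκtor hH1))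
    (W_H2 𝓤 𝓦 h𝓤𝓦 H r B X0 sX0 bs0 hbs0 U (h𝓤𝓦 hU) hstab hvan)
    (W_H3 𝓦 H r B X0 bs0 hbs0 U (h𝓤𝓦 hU) hstab hvan)
    (W_H4 𝓤 𝓦 h𝓤𝓦 H r B X0 bs0 sX0 hvan)
    (W_H5 𝓤 𝓦 h𝓤𝓦 H r B X1 sX1)
  case ei =>
    intro γ m
    ext x
    rw [HomM.smul_apply, W_iOf_apply, W_iOf_apply, eπ]
    show Φ (γ • m) (π x) = γ • Φ m (γ⁻¹ • π x)
    rw [eΦ, HomM.smul_apply]
  case eiv =>
    intro v h m
    ext x
    show lam v (Φ (r v h • WRes.out (r v) M m) (π (WRes.out (r v) X0 x))) =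
      h • lam v (Φ (WRes.out (r v) M m) (π ((r v h⁻¹) • WRes.out (r v) X0 x)))
    rw [eΦ, HomM.smul_apply, hlam v, eπ, map_inv]
  case sq3 =>
    intro v m
    ext x
    show lam v ((1 : Γ) • Φ m (π (WRes.out (r v) X0 x))) = lam v (Φ m (π (WRes.out (r v) X0 x)))
    rw [one_smul]

end

end Fermat.Agent.S55Lib
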