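import Fermat.Agent.S55.W.Hyp2

/-!
# S55 chapter W: the short exact sequences of `thmA` for `Hom(X_i, -)`
-/

set_option autoImplicit false
set_option linter.unusedSectionVars false
set_option linter.unusedVariables false

namespace Fermat.Agent.S55Lib

noncomputable section

open groupCohomology

section HomFunct

variable {G : Type} [Group G] {X Y A B C : Type} [AddCommGroup X] [AddCommGroup Y]
  [AddCommGroup A] [AddCommGroup B] [AddCommGroup C]
  [DistribMulAction G X] [DistribMulAction G Y] [DistribMulAction G A] [DistribMulAction G B]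
  [DistribMulAction G C]

lemma W_post_apply (π : A →+ B) (φ : HomM G X A) (x : X) : HomM.post π φ x = π (φ x) := rfl

lemma W_pre_apply (j : X →+ Y) (φ : HomM G Y A) (x : X) : HomM.pre j φ x = φ (j x) := rfl

lemma W_post_equivar (π : A →+ B) (eπ : Equivar G π) :
    Equivar G (HomM.post π : HomM G X A →+ HomM G X B) := by
  intro g φ
  ext x
  rw [W_post_apply, HomM.smul_apply, HomM.smul_apply, W_post_apply, eπ]

lemma W_pre_equivar (j : X →+ Y) (ej : Equivar G j) :
    Equivar G (HomM.pre j : HomM G Y A →+ HomM G X A) := by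
  intro g φ
  ext x
  rw [W_pre_apply, HomM.smul_apply, HomM.smul_apply, W_pre_apply, ej]

/-- `Hom(X, -)` is exact for `X` free over `ℤ` -/
theorem W_post_ses {T : Type} (bs : Module.Basis T ℤ X) {i : A →+ B} {k : B →+ C}
    (h : SES i k) :
    SES (HomM.post i : HomM G X A →+ HomM G X B) (HomM.post k : HomM G X B →+ HomM G X C) := by
  refine ⟨fun φ ψ hφ => ?_, fun φ => ⟨fun hφ => ?_, ?_⟩, fun φ => ?_⟩
  · ext x
    apply h.inj
    have := congrArg (fun θ : HomM G X B => θ x) hφ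
    exact this
  · have h1 : ∀ t, ∃ a, i a = φ (bs t) := fun t => (h.exact _).1 (by
      have := congrArg (fun θ : HomM G X C => θ (bs t)) hφ
      exact this)
    choose a ha using h1
    refine ⟨HomM.ofBasis bs a, HomM.ext_basis bs fun t => ?_⟩
    rw [W_post_apply, HomM.ofBasis_apply, ha]
  · rintro ⟨ψ, rfl⟩
    ext x
    exact (h.exact _).2 ⟨ψ x, rfl⟩
  · choose b hb using fun t => h.surj (φ (bs t))
    refine ⟨HomM.ofBasis bs b, HomM.ext_basis bs fun t => ?_⟩
    rw [W_post_apply, HomM.ofBasis_apply, hb]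

end HomFunct

section Div

variable {G : Type} [Group G] (p : ℕ) {X0 X1 N M D : Type} [AddCommGroup X0] [AddCommGroup X1]
  [AddCommGroup N] [AddCommGroup M] [AddCommGroup D]
  [DistribMulAction G X0] [DistribMulAction G X1] [DistribMulAction G D]

/-- `m ↦ Ψ m ∘ π` -/
def W_iOf (π : X0 →+ N) (Ψ : M →+ (N →+ D)) : M →+ HomM G X0 D where
  toFun m := HomM.of ((Ψ m).comp π)
  map_zero' := by
    ext x
    show (Ψ 0) (π x) = 0
    rw [map_zero]; rfl
  map_add' m m' := by
    ext x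
    show (Ψ (m + m')) (π x) = Ψ m (π x) + Ψ m' (π x)
    rw [map_add]; rfl

lemma W_iOf_apply (π : X0 →+ N) (Ψ : M →+ (N →+ D)) (m : M) (x : X0) :
    (W_iOf (G := G) π Ψ m) x = Ψ m (π x) := rfl

/-- `0 → Hom(N, D) → Hom(X0, D) → Hom(X1, D) → 0` for `D` `p`-divisible, `p N = 0`, `X1` free -/
theorem W_div_ses {T : Type} (bs : Module.Basis T ℤ X1) (j : X1 →+ X0) (π : X0 →+ N)
    (hj : Function.Injective j) (hex : ∀ x, π x = 0 ↔ ∃ y, j y = x) (hπ : Function.Surjective π)
    (hpN : ∀ n : N, p • n = 0) (hD : ∀ d : D, ∃ d', p • d' = d)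
    (Ψ : M →+ (N →+ D)) (hΨ : Function.Bijective Ψ) :
    SES (W_iOf (G := G) π Ψ) (HomM.pre j : HomM G X0 D →+ HomM G X1 D) := by
  refine ⟨fun m m' h => ?_, fun φ => ⟨fun hφ => ?_, ?_⟩, fun ψ => ?_⟩
  · apply hΨ.1
    ext n
    obtain ⟨x, rfl⟩ := hπ n
    exact congrArg (fun θ : HomM G X0 D => θ x) h
  · have hker : π.ker ≤ (HomM.toHom φ).ker := by
      intro x hx
      obtain ⟨y, rfl⟩ := (hex x).1 hx
      exact congrArg (fun θ : HomM G X1 D => θ y) hφ
    obtain ⟨m, hm⟩ := hΨ.2 (π.liftOfSurjective hπ ⟨HomM.toHom φ, hker⟩)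
    refine ⟨m, ?_⟩
    ext x
    rw [W_iOf_apply, hm]
    exact AddMonoidHom.liftOfRightInverse_comp_apply π _ _ ⟨HomM.toHom φ, hker⟩ x
  · rintro ⟨m, rfl⟩
    ext y
    rw [W_pre_apply, W_iOf_apply, (hex (j y)).2 ⟨y, rfl⟩, map_zero]
    rfl
  · have h1 : ∀ x : X0, ∃ y, j y = p • x := fun x => (hex _).1 (by rw [map_nsmul, hpN])
    choose l hl using h1
    let L : X0 →+ X1 :=
      { toFun := l
        map_zero' := hj (by rw [hl, smul_zero, map_zero])
        map_add' := fun x y => hj (by rw [hl, map_add, hl, hl, smul_add]) }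
    have hLj : ∀ y, L (j y) = p • y := fun y => hj (by
      show j (l (j y)) = _
      rw [hl, map_nsmul])
    choose d hd using fun t => hD (ψ (bs t))
    let ψ' : HomM G X1 D := HomM.ofBasis bs d
    have hψ' : p • ψ' = ψ := HomM.ext_basis bs fun t => by
      show p • ψ' (bs t) = ψ (bs t)
      rw [HomM.ofBasis_apply, hd]
    refine ⟨HomM.of ((HomM.toHom ψ').comp L), ?_⟩
    ext y
    show ψ' (L (j y)) = ψ y
    rw [hLj, map_nsmul, ← hψ']
    rfl

end Div

/-! ### functoriality of `WRes` -/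

/-- an additive map, between the restricted modules -/
def WRes.map {G H : Type} [Group G] [Group H] (r : H →* G) {A A' : Type} [AddCommGroup A]
    [AddCommGroup A'] (f : A →+ A') : WRes r A →+ WRes r A' := f

lemma WRes.map_mk {G H : Type} [Group G] [Group H] (r : H →* G) {A A' : Type} [AddCommGroup A]
    [AddCommGroup A'] (f : A →+ A') (a : A) :
    WRes.map r f (WRes.mk r A a) = WRes.mk r A' (f a) := rfl

lemma WRes.map_equivar {G H : Type} [Group G] [Group H] (r : H →* G) {A A' : Type}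
    [AddCommGroup A] [AddCommGroup A'] [DistribMulAction G A] [DistribMulAction G A']
    (f : A →+ A') (ef : Equivar G f) : Equivar H (WRes.map r f) :=
  fun h a => ef (r h) a

instance WRes.instFinite {G H : Type} [Group G] [Group H] (r : H →* G) (A : Type) [AddCommGroup A]
    [h : Module.Finite ℤ A] : Module.Finite ℤ (WRes r A) := h

lemma WRes.smooth {G H : Type} [Group G] [Group H] (r : H →* G) {A : Type} [AddCommGroup A]
    [DistribMulAction G A] {𝓤 𝓦 : Lev G} (h𝓤𝓦 : 𝓤.mem ⊆ 𝓦.mem) (hA : 𝓤.Smooth A) :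
    (𝓦.comap r).Smooth (WRes r A) := by
  intro a
  obtain ⟨U, hU, hs⟩ := hA a
  exact ⟨U.comap r, ⟨U, h𝓤𝓦 hU, rfl⟩, fun s hs' => hs (r s) hs'⟩

lemma WCoker.smooth {G : Type} [Group G] {A B : Type} [AddCommGroup A] [AddCommGroup B]
    [DistribMulAction G A] [DistribMulAction G B] (j : A →+ B) (hj : Equivar G j) {𝓤 : Lev G}
    (hB : 𝓤.Smooth B) : 𝓤.Smooth (WCoker G j hj) := by
  intro c
  obtain ⟨b, rfl⟩ := WCoker.mk_surjective G j hj c
  obtain ⟨U, hU, hs⟩ := hB b
  exact ⟨U, hU, fun s hs' => by rw [← WCoker.equivar_mk, hs s hs']⟩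

section Ctx

variable (p : ℕ) {Γ : Type} [Group Γ] (𝓤 𝓦 : Lev Γ) (h𝓤𝓦 : 𝓤.mem ⊆ 𝓦.mem)
  {ι : Type} (H : ι → Type) [∀ v, Group (H v)] (r : ∀ v, H v →* Γ)
  (B : ι → Type) [∀ v, AddCommGroup (B v)] [∀ v, DistribMulAction (H v) (B v)]
  {E : Type} [AddCommGroup E] [DistribMulAction Γ E] (sE : 𝓤.Smooth E)
  (lam : ∀ v, E →+ B v) (hlam : ∀ v, Compat (r v) (lam v))
  {M N : Type} [AddCommGroup M] [AddCommGroup N] [DistribMulAction Γ M] [DistribMulAction Γ N]
  (Φ : M →+ HomM Γ N E)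

/-- `λ_v` with values in the smooth part -/
def Wlam (v : ι) : E →+ WSm (𝓦.comap (r v)) (B v) where
  toFun e := ⟨lam v e, by
    obtain ⟨U', hU', hs⟩ := sE e
    exact ⟨U'.comap (r v), ⟨U', h𝓤𝓦 hU', rfl⟩, fun s hs' => by rw [← hlam v, hs _ hs']⟩⟩
  map_zero' := Subtype.ext (map_zero _)
  map_add' a b := Subtype.ext (map_add _ _ _)

lemma Wlam_coe (v : ι) (e : E) :
    ((Wlam 𝓤 𝓦 h𝓤𝓦 H r B sE lam hlam v e : WSm (𝓦.comap (r v)) (B v)) : B v) = lam v e := rfl

lemma Wlam_compat (v : ι) : Compat (r v) (Wlam 𝓤 𝓦 h𝓤𝓦 H r B sE lam hlam v) :=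
  fun h e => Subtype.ext (hlam v h e)

/-- `Φ` as a map to plain homomorphisms -/
def WΨ : M →+ (N →+ E) where
  toFun m := (Φ m).toHom
  map_zero' := by rw [map_zero]; rfl
  map_add' a b := by rw [map_add]; rfl

lemma WΨ_bijective (hΦ : Function.Bijective Φ) : Function.Bijective (WΨ Φ) := hΦ

/-- `m ↦ λ_v ∘ Φ m` -/
def WΨv (v : ι) : WRes (r v) M →+ (N →+ WSm (𝓦.comap (r v)) (B v)) where
  toFun m := (Wlam 𝓤 𝓦 h𝓤𝓦 H r B sE lam hlam v).comp (Φ (WRes.out (r v) M m)).toHom
  map_zero' := by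
    ext n
    show lam v (Φ 0 n) = 0
    rw [map_zero]
    exact map_zero _
  map_add' a b := by
    ext n
    show lam v (Φ (WRes.out (r v) M a + WRes.out (r v) M b) n) =
      lam v (Φ (WRes.out (r v) M a) n) + lam v (Φ (WRes.out (r v) M b) n)
    rw [map_add, HomM.add_apply, map_add]

lemma WΨv_bijective (hΦ : Function.Bijective Φ) (hpN : ∀ n : N, p • n = 0)
    (hlaminj : ∀ v, Function.Injective (lam v))
    (hBtor : ∀ v, ∀ b : B v, p • b = 0 → ∃ e : E, lam v e = b) (v : ι) :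
    Function.Bijective (WΨv 𝓤 𝓦 h𝓤𝓦 H r B sE lam hlam Φ v) := by
  constructor
  · intro m m' h
    apply hΦ.1
    ext n
    apply hlaminj v
    have := congrArg (fun θ : N →+ WSm (𝓦.comap (r v)) (B v) => ((θ n : _) : B v)) h
    exact this
  · intro ψ
    have h1 : ∀ n, ∃ e : E, lam v e = (ψ n : B v) := fun n => hBtor v _ (by
      rw [← AddSubgroup.coe_nsmul, ← map_nsmul, hpN, map_zero]; rfl)
    choose e he using h1
    let ψ0 : N →+ E :=
      { toFun := e
        map_zero' := hlaminj v (by rw [he, map_zero, map_zero]; rfl)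
        map_add' := fun a b => hlaminj v (by rw [he, map_add, map_add, he, he]; rfl) }
    obtain ⟨m, hm⟩ := hΦ.2 (HomM.of ψ0)
    refine ⟨WRes.mk (r v) M m, ?_⟩
    ext n
    show lam v (Φ m n) = ψ n
    rw [hm]
    exact he n

end Ctx

end

end Fermat.Agent.S55Lib
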